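import Fermat.Agent.LTG.LocThree
import Fermat.Agent.LTG.Mult.Statement

/-!
# Systems: the level, the block and the trace of the operator at the level

The exponents are the minimal ones, raised to one at the wild place, at the ramified and at the
exceptional places.  The kernels of the block project to the functions of that level, and on these
they reduce to the identity, or to the double coset operator at the wild place.
-/

set_option autoImplicit false
open NumberField Filter
open scoped Classical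

namespace Fermat.LTG.Sys

open Fermat.LT

namespace Lvl

variable {F : Type*} [Field F] [NumberField F] {S : Lev F}

/-- Right invariance at one place. -/
def InvAt (w : Place F) (H : Subgroup (GL (Fin 2) F)) (Φ : Pt F S → ℂ) : Prop :=
  ∀ (p : Pt F S) (g k : GL (Fin 2) F), p.1.1 w = (g : Vert S w) → k ∈ H →
    Φ (p.1.set w ((g * k : GL (Fin 2) F) : Vert S w), p.2) = Φ p

/-- Invariance under the level groups gives invariance at each place. -/
lemma invAt_of_isU0Inv {N : Place F → ℕ} {Φ : Pt F S → ℂ} (h : IsU0Inv N Φ) (w : Place F) :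
    InvAt w (U0N (w.valuation F) (N w)) Φ := fun p g k hp hk => h p w g k hp hk

/-- A kernel invariant on the left projects. -/
lemma invAt_locAct {w : Place F} {H : Subgroup (GL (Fin 2) F)} (l : LKer S w)
    (hl : ∀ (g k : GL (Fin 2) F) (y : Vert S w), k ∈ H →
      l ((g * k : GL (Fin 2) F) : Vert S w) y = l (g : Vert S w) y) (Φ : Pt F S → ℂ) :
    InvAt w H (locAct w l Φ) := fun p g k hp hk => by
  have hrow : l.row ((g * k : GL (Fin 2) F) : Vert S w) = l.row (g : Vert S w) := by
    ext y
    rw [LKer.mem_row, LKer.mem_row, hl g k y hk]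
  simp only [locAct, FinPt.set_self, hp, hrow, FinPt.set_set]
  exact Finset.sum_congr rfl fun y _ => by rw [hl g k y hk]

/-- Operators elsewhere preserve invariance. -/
lemma InvAt.locAct {w v : Place F} (hne : v ≠ w) {H : Subgroup (GL (Fin 2) F)} {Φ : Pt F S → ℂ}
    (h : InvAt w H Φ) (l : LKer S v) : InvAt w H (LTG.locAct v l Φ) := fun p g k hp hk => by
  simp only [LTG.locAct, FinPt.set_of_ne _ hne]
  refine Finset.sum_congr rfl fun y _ => congrArg (l _ y * ·) ?_
  rw [FinPt.set_comm p.1 hne.symm]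
  exact h (p.1.set v y, p.2) g k (by rw [FinPt.set_of_ne _ hne.symm, hp]) hk

/-- The normalised indicator fixes invariant functions. -/
lemma locAct_normInd {w : Place F} {H : Subgroup (GL (Fin 2) F)}
    (hfin : (lev S w).relIndex H ≠ 0) (l : LKer S w)
    (hl : ∀ a b : GL (Fin 2) F, l (a : Vert S w) (b : Vert S w)
      = if a⁻¹ * b ∈ H then (((lev S w).relIndex H : ℂ))⁻¹ else 0)
    {Φ : Pt F S → ℂ} (h : InvAt w H Φ) : LTG.locAct w l Φ = Φ := by
  funext p
  obtain ⟨g, hg⟩ := QuotientGroup.mk_surjective (p.1.1 w)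
  have hmem : ∀ y : GL (Fin 2) F, (y : Vert S w) ∈ l.row (g : Vert S w) ↔ g⁻¹ * y ∈ H := fun y => by
    simp [LKer.mem_row, hl, hfin]
  have hcard : (l.row (g : Vert S w)).card = (lev S w).relIndex H := by
    rw [Subgroup.relIndex, Subgroup.index, ← Nat.card_eq_finsetCard]
    refine (Nat.card_congr (Equiv.ofBijective
      (Quotient.lift (fun x : H => (⟨((g * (x : GL (Fin 2) F) : GL (Fin 2) F) : Vert S w),
        (hmem _).2 (by simp)⟩ : ↥(l.row (g : Vert S w)))) fun x y hxy => ?_) ⟨?_, ?_⟩)).symm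
    · have e : x⁻¹ * y ∈ (lev S w).subgroupOf H := QuotientGroup.leftRel_apply.1 hxy
      rw [Subgroup.mem_subgroupOf] at e
      refine Subtype.ext (QuotientGroup.eq.2 ?_)
      simpa [mul_assoc] using e
    · rintro ⟨x⟩ ⟨y⟩ he
      refine Quotient.sound (QuotientGroup.leftRel_apply.2 ?_)
      rw [Subgroup.mem_subgroupOf]
      simpa [mul_assoc] using QuotientGroup.eq.1 (congrArg Subtype.val he)
    · rintro ⟨b, hb⟩
      obtain ⟨y, rfl⟩ := QuotientGroup.mk_surjective b
      exact ⟨Quotient.mk'' ⟨g⁻¹ * y, (hmem y).1 hb⟩, Subtype.ext (by simp)⟩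
  rw [LTG.locAct, ← hg, Finset.sum_congr rfl (g := fun _ => (((lev S w).relIndex H : ℂ))⁻¹ * Φ p),
    Finset.sum_const, hcard, nsmul_eq_mul, mul_inv_cancel_left₀ (Nat.cast_ne_zero.2 hfin)]
  intro b hb
  obtain ⟨y, rfl⟩ := QuotientGroup.mk_surjective b
  rw [hl, if_pos ((hmem y).1 hb)]
  congr 1
  have := h p g (g⁻¹ * y) hg.symm ((hmem y).1 hb)
  rwa [mul_inv_cancel_left] at this

/-- The kernel of a double coset is invariant on the left. -/
lemma left_inv_doubleCoset {w : Place F} {H : Subgroup (GL (Fin 2) F)} (l : LKer S w)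
    (m : GL (Fin 2) F) (hl : ∀ a b : GL (Fin 2) F, l (a : Vert S w) (b : Vert S w)
      = if ∃ k₁ ∈ H, ∃ k₂ ∈ H, a⁻¹ * b = k₁ * m * k₂ then 1 else 0)
    (g k : GL (Fin 2) F) (y : Vert S w) (hk : k ∈ H) :
    l ((g * k : GL (Fin 2) F) : Vert S w) y = l (g : Vert S w) y := by
  obtain ⟨y, rfl⟩ := QuotientGroup.mk_surjective y
  rw [hl, hl]
  refine if_congr ⟨?_, ?_⟩ rfl rfl
  · rintro ⟨k₁, h₁, k₂, h₂, e⟩
    refine ⟨k * k₁, mul_mem hk h₁, k₂, h₂, ?_⟩
    rw [show g⁻¹ * y = k * ((g * k)⁻¹ * y) by group, e]; group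
  · rintro ⟨k₁, h₁, k₂, h₂, e⟩
    refine ⟨k⁻¹ * k₁, mul_mem (inv_mem hk) h₁, k₂, h₂, ?_⟩
    rw [show (g * k)⁻¹ * y = k⁻¹ * (g⁻¹ * y) by group, e]; group

/-- A multiple of the indicator of a group is invariant on the left. -/
lemma left_inv_coset {w : Place F} {H : Subgroup (GL (Fin 2) F)} (l : LKer S w) {c : ℂ}
    (hl : ∀ a b : GL (Fin 2) F, l (a : Vert S w) (b : Vert S w) = if a⁻¹ * b ∈ H then c else 0)
    (g k : GL (Fin 2) F) (y : Vert S w) (hk : k ∈ H) :
    l ((g * k : GL (Fin 2) F) : Vert S w) y = l (g : Vert S w) y := by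
  obtain ⟨y, rfl⟩ := QuotientGroup.mk_surjective y
  rw [hl, hl, show (g * k)⁻¹ * y = k⁻¹ * (g⁻¹ * y) by group,
    H.mul_mem_cancel_left (inv_mem hk)]

end Lvl

variable {K L : Type} [Field K] [NumberField K] [Field L] [NumberField L] [Algebra K L]
  {σ : L ≃ₐ[K] L}

/-- The operator of a list of places of the level. -/
noncomputable def actList (B : Block K L σ) (l : List (Place L)) (Φ : Pt L B.T → ℂ) :
    Pt L B.T → ℂ :=
  l.foldr (fun w Ψ => locAct w (B.locL w) Ψ) Φ

/-- The operator at the level. -/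
noncomputable def actT (B : Block K L σ) (Φ : Pt L B.T → ℂ) : Pt L B.T → ℂ :=
  actList B B.T.places.toList Φ

/-- The empty list acts as the identity. -/
@[simp] lemma actList_nil (B : Block K L σ) (Φ : Pt L B.T → ℂ) : actList B [] Φ = Φ := rfl

/-- The action of a longer list. -/
@[simp] lemma actList_cons (B : Block K L σ) (w : Place L) (l : List (Place L)) (Φ : Pt L B.T → ℂ) :
    actList B (w :: l) Φ = locAct w (B.locL w) (actList B l Φ) := rfl

variable [IsTotallyComplex L]

variable (σ) in
/-- A block, exponents and a basis on which the operator at the level has nonzero trace. -/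
structure LevelData (W : Set (Place L)) (lam : Place L → ℝ) where
  /-- The levels and matching kernels. -/
  B : Block K L σ
  /-- The exponents of the level on `L`. -/
  N : Place L → ℕ
  /-- A basis of the functions of these exponents. -/
  V : VecBasis B.T N W lam
  /-- The upper level is stable under the inverse automorphism. -/
  stable' : Stable (σ : L ≃+* L).symm B.T
  /-- The excepted places lie in the upper level. -/
  mem_T : ∀ w ∈ W, w ∈ B.T
  /-- The exponents are at most the depths of the upper level. -/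
  N_le : ∀ w, N w ≤ B.T.depth w
  /-- The exponents are invariant under the inverse of `σ`. -/
  N_map' : ∀ w, N (mapPlace (σ : L ≃+* L).symm w) = N w
  /-- The operator at the level has values of exponents `N`. -/
  range : ∀ Ψ : Pt L B.T → ℂ, IsU0Inv N (actT B Ψ)
  /-- The operator at the level twisted by `σ` has nonzero trace. -/
  trace : V.TraceNe fun Φ p => actT B Φ (Pt.amap stable' p)

variable {ρ : (AlgebraicClosure ℚ ≃ₐ[ℚ] AlgebraicClosure ℚ) →* GL (Fin 2) (ZMod 3)}
  {ι : L →+* AlgebraicClosure ℚ} {lam : Place L → ℝ} {R : Finset (Place L)}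

/-- The exponents of the level: one at the wild place, elsewhere the minimal ones, raised to one
at the exceptional and at the ramified places. -/
private lemma exists_exponents (hc : Cyc3 K L σ) {W : Set (Place L)} (hWf : W.Finite)
    (hW : ∀ w, Loc.IsWild σ w → w ∉ W) {n : Place L → ℕ} (hn : NewLevel W lam n)
    (hlam : {v | lam (mapPlace (σ : L ≃+* L) v) ≠ lam v}.Finite) :
    ∃ N : Place L → ℕ, (∀ w, Loc.IsWild σ w → N w = 1) ∧ (∀ w, n w ≤ N w) ∧ (∀ w ∈ W, N w ≠ 0) ∧
      (∀ w, N (mapPlace (σ : L ≃+* L) w) = N w) ∧ (∀ w, below K w ∈ ramSet K L → 1 ≤ N w) ∧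
      {w | N w ≠ 0}.Finite := by
  set P : Place L → Prop := fun w => below K w ∈ below K '' W ∪ ramSet K L
  refine ⟨fun w => if Loc.IsWild σ w then 1 else max (n w) (if P w then 1 else 0),
    fun w h => if_pos h, fun w => ?_, fun w h => ?_, fun w => ?_, fun w hr => ?_, ?_⟩
  · by_cases h : Loc.IsWild σ w
    · simp only [if_pos h, hn.eq_zero w (hW w h)]; omega
    · simp only [if_neg h]; exact le_max_left _ _
  · simp only [if_neg (fun h' => hW w h' h), if_pos (show P w from Or.inl ⟨w, h, rfl⟩)]; omega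
  · have hbelow : below K (mapPlace (σ : L ≃+* L) w) = below K w :=
      liesOver_iff_below.1 ((liesOver_below w).mapPlace σ)
    simp only [P, Loc.IsWild, hbelow, (mapPlace (σ : L ≃+* L)).injective.eq_iff,
      hn.invariant _ hlam]
  · by_cases h : Loc.IsWild σ w
    · simp only [if_pos h]; omega
    · simp only [if_neg h, if_pos (show P w from Or.inr hr)]; omega
  have hram : {w : Place L | P w}.Finite :=
    (((hWf.image (below K)).union (LT.Sys.finite_ramSet (K := K) (L := L))).biUnion
      fun v _ => hc.finite_placesOver v).subset fun w hw => Set.mem_biUnion hw (liesOver_below w)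
  have hsupp : {w | n w ≠ 0}.Finite :=
    hWf.subset fun w hw => by_contra fun h => hw (hn.eq_zero w h)
  have hwild : {w : Place L | Loc.IsWild σ w}.Finite := by
    have h3 : {v : Place K | v.valuation K 3 ≠ 1}.Finite :=
      eventually_cofinite.1 (eventually_valuation_eq_one (three_ne_zero : (3 : K) ≠ 0))
    exact (h3.biUnion fun v _ => hc.finite_placesOver v).subset fun w hw =>
      Set.mem_biUnion (x := below K w) hw.2 (liesOver_below w)
  refine (hwild.union (hsupp.union hram)).subset fun w hw => ?_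
  by_contra h
  simp only [Set.mem_union, Set.mem_ofPred_eq, not_or, not_not] at h
  exact hw (by simp [h.1, h.2.1, h.2.2])

omit [IsTotallyComplex L] in
/-- There is at most one wild place. -/
private lemma isWild_unique (hc : Cyc3 K L σ) (hG : GalData K L ρ ι lam R) {w w' : Place L}
    (h : Loc.IsWild σ w) (h' : Loc.IsWild σ w') : w = w' := by
  obtain ⟨v, -, -, hv, -⟩ := hG.exists_v3
  obtain ⟨ζ, hζ⟩ := hG.zeta3
  have e := hv _ (Loc.valuation_three hG.degreeK hζ _ h.2).1
  rw [← hv _ (Loc.valuation_three hG.degreeK hζ _ h'.2).1] at e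
  rcases hc.eq_or_eq_mapPlace (liesOver_below w)
    (liesOver_iff_below.2 e.symm : LiesOver K L w' (below K w))
    with r | r | r
  · exact r.symm
  · rw [r, h.1]
  · rw [r, h.1, h.1]

omit [IsTotallyComplex L] in
/-- At a wild place the square of the eigenvalue is not twice the norm. -/
private lemma lam_sq_ne_two_mul (hc : Cyc3 K L σ) (hG : GalData K L ρ ι lam R) {w : Place L}
    (hw : Loc.IsWild σ w) : lam w ^ 2 ≠ 2 * (pnorm w : ℝ) := by
  have hq : (0 : ℝ) < pnorm w := by rw [(Loc.isWild_data hc hG hw).2.2.1]; norm_num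
  have hs := Real.sq_sqrt hq.le
  rcases hG.lam_cases w with h | h | h <;> rw [h] <;> intro e <;> nlinarith

omit [IsTotallyComplex L] in
/-- Kernels invariant on the left project: the product of any of them is invariant there. -/
private lemma invAt_actList (B : Block K L σ) {H : Place L → Subgroup (GL (Fin 2) L)}
    (hleft : ∀ w ∈ B.T, ∀ (g k : GL (Fin 2) L) (y : Vert B.T w), k ∈ H w →
      B.locL w ((g * k : GL (Fin 2) L) : Vert B.T w) y = B.locL w (g : Vert B.T w) y)
    {l : List (Place L)} (hnd : l.Nodup) (hT : ∀ x ∈ l, x ∈ B.T) (Ψ : Pt L B.T → ℂ) :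
    ∀ w ∈ l, Lvl.InvAt w (H w) (actList B l Ψ) := by
  induction l with
  | nil => exact fun w hw => absurd hw List.not_mem_nil
  | cons a l ih =>
    intro w hw
    rw [List.nodup_cons] at hnd
    rw [actList_cons]
    by_cases h : w = a
    · subst h
      exact Lvl.invAt_locAct _ (hleft w (hT w (List.mem_cons.2 (Or.inl rfl)))) _
    · exact (ih hnd.2 (fun x hx => hT x (List.mem_cons_of_mem _ hx)) w
        ((List.mem_cons.1 hw).resolve_left h)).locAct (Ne.symm h) _

omit [IsTotallyComplex L] in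
/-- The operator at the level projects to the functions of the exponents. -/
private lemma isU0Inv_actT (B : Block K L σ) {N : Place L → ℕ} (hNle : ∀ w, N w ≤ B.T.depth w)
    (hleft : ∀ w ∈ B.T, ∀ (g k : GL (Fin 2) L) (y : Vert B.T w), k ∈ U0N (w.valuation L) (N w) →
      B.locL w ((g * k : GL (Fin 2) L) : Vert B.T w) y = B.locL w (g : Vert B.T w) y)
    (Ψ : Pt L B.T → ℂ) : IsU0Inv N (actT B Ψ) := fun p w g k hp hk => by
  by_cases hw : w ∈ B.T
  · exact invAt_actList B hleft B.T.places.nodup_toList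
      (fun x hx => Lev.mem_places.1 (Finset.mem_toList.1 hx)) Ψ w
      (Finset.mem_toList.2 (Lev.mem_places.2 hw)) p g k hp hk
  · have h0 : N w = 0 := Nat.le_zero.1 ((hNle w).trans (Lev.notMem_iff.1 hw).le)
    rw [h0] at hk
    have e : ((g * k : GL (Fin 2) L) : Vert B.T w) = (g : Vert B.T w) := by
      rw [QuotientGroup.eq, lev_of_not_mem hw, show (g * k)⁻¹ * g = k⁻¹ by group]
      obtain ⟨c, hc'⟩ := hk
      exact inv_mem ⟨c, hc'.1⟩
    rw [e, ← hp, FinPt.set_eq_self]

omit [IsTotallyComplex L] in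
/-- If all factors but at most one fix the functions of the level, only that factor is left. -/
private lemma actList_eq (B : Block K L σ) {N : Place L → ℕ} {P : Place L → Prop}
    (huniq : ∀ w w', P w → P w' → w = w')
    (hfix : ∀ w ∈ B.T, ¬ P w → ∀ Φ : Pt L B.T → ℂ,
      Lvl.InvAt w (U0N (w.valuation L) (N w)) Φ → locAct w (B.locL w) Φ = Φ)
    {Φ : Pt L B.T → ℂ} (hΦ : IsU0Inv N Φ) {l : List (Place L)} (hnd : l.Nodup)
    (hT : ∀ x ∈ l, x ∈ B.T) :
    (∀ w, P w → w ∈ l → actList B l Φ = locAct w (B.locL w) Φ) ∧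
      ((∀ w ∈ l, ¬ P w) → actList B l Φ = Φ) := by
  induction l with
  | nil => exact ⟨fun w _ hw => absurd hw List.not_mem_nil, fun _ => rfl⟩
  | cons a l ih =>
    rw [List.nodup_cons] at hnd
    obtain ⟨ih1, ih2⟩ := ih hnd.2 fun x hx => hT x (List.mem_cons_of_mem _ hx)
    have haT : a ∈ B.T := hT a (List.mem_cons.2 (Or.inl rfl))
    refine ⟨fun w hw hwl => ?_, fun h => ?_⟩
    · rw [actList_cons]
      by_cases ha : P a
      · obtain rfl := huniq a w ha hw
        rw [ih2 fun x hx hx' => hnd.1 (by rwa [huniq x a hx' ha] at hx)]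
      · have hwl' : w ∈ l := (List.mem_cons.1 hwl).resolve_left fun e => ha (e ▸ hw)
        have hne : w ≠ a := fun e => ha (e ▸ hw)
        rw [ih1 w hw hwl', hfix a haT ha _ ((Lvl.invAt_of_isU0Inv hΦ a).locAct hne _)]
    · rw [actList_cons, ih2 fun x hx => h x (List.mem_cons_of_mem _ hx),
        hfix a haT (h a (List.mem_cons.2 (Or.inl rfl))) _ (Lvl.invAt_of_isU0Inv hΦ a)]

/-- **Levels exist.** A new level of the eigenvalues, exceptional only at finitely many places not
wild for `σ`, gives the level data `LevelData`. -/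
theorem exists_levelData (hc : Cyc3 K L σ) (hG : GalData K L ρ ι lam R) {W : Set (Place L)}
    (hWf : W.Finite) (hW : ∀ w, Loc.IsWild σ w → w ∉ W) {n : Place L → ℕ}
    (hn : NewLevel W lam n) : Nonempty (LevelData σ W lam) := by
  set τ := (σ : L ≃+* L).symm
  have hlam : ∀ g : L ≃+* L, {v | lam (mapPlace g v) ≠ lam v}.Finite := fun g =>
    Set.finite_empty.subset fun v hv => hv (hG.invariant g v)
  obtain ⟨N, hNwild, hle, hNW, hmap, hram, hfin⟩ :=
    exists_exponents hc hWf hW hn (hlam (σ : L ≃+* L))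
  have hn0 : ∀ w, Loc.IsWild σ w → n w = 0 := fun w h => hn.eq_zero w (hW w h)
  have hmap' : ∀ w, N (mapPlace τ w) = N w := fun w => by
    conv_rhs => rw [← mapPlace_symm_right (σ : L ≃+* L) w, hmap]
  obtain ⟨B, hmemT, hNle, hker, hkerW⟩ :=
    Loc.exists_block hc N hfin (fun w _ hr => hram w hr)
      (fun w hw => ⟨hNwild w hw, (Loc.isWild_data hc hG hw).1,
        (Loc.isWild_data hc hG hw).2.1⟩)
  obtain ⟨V⟩ := hn.basis B.T N hle hNle
  have hS' : Stable τ B.T := fun w => by
    conv_rhs => rw [← mapPlace_symm_right (σ : L ≃+* L) w, B.stable]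
  -- the wild places are in the level, and there is at most one
  have hwT : ∀ w, Loc.IsWild σ w → w ∈ B.T := fun w h => (hmemT w).2 (Or.inr (Or.inr h.2))
  -- each kernel projects
  have hrange : ∀ Ψ : Pt L B.T → ℂ, IsU0Inv N (actT B Ψ) := isU0Inv_actT B hNle fun w hw => by
    by_cases h : Loc.IsWild σ w
    · obtain ⟨u, -, hu⟩ := hkerW w h
      rw [hNwild w h]
      exact Lvl.left_inv_doubleCoset _ _ hu
    · exact Lvl.left_inv_coset _ (hker w hw h)
  -- on the functions of the level only the wild factor is left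
  have hact := fun (Φ : Pt L B.T → ℂ) (hΦ : IsU0Inv N Φ) => actList_eq B
    (P := Loc.IsWild σ) (fun w w' => isWild_unique hc hG)
    (fun w hw h Φ hΦ => Lvl.locAct_normInd (Loc.relIndex_U0N_ne_zero w _ _) _ (hker w hw h) hΦ)
    hΦ B.T.places.nodup_toList fun x hx => Lev.mem_places.1 (Finset.mem_toList.1 hx)
  refine ⟨⟨B, N, V, hS', fun w hw =>
    (hmemT w).2 (Or.inl ⟨w, liesOver_below w, hNW w hw⟩), hNle, hmap', hrange, ?_⟩⟩
  by_cases hex : ∃ w, Loc.IsWild σ w
  · obtain ⟨w, hw⟩ := hex
    obtain ⟨u, hu, hl⟩ := hkerW w hw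
    have hfixw : mapPlace τ w = w :=
      (mapPlace (σ : L ≃+* L)).injective ((mapPlace_symm_right _ w).trans hw.1.symm)
    obtain ⟨M, hM, hM0⟩ := hn.trace_two B.T N V τ hS' (hlam _) hmap' hle hNle w hfixw (hW w hw)
      (hn0 w hw) (hNwild w hw) (lam_sq_ne_two_mul hc hG hw) u hu (B.locL w) hl
    refine ⟨M, fun i => (funext fun p => ?_).trans (hM i), hM0⟩
    change actT B (V.f i) _ = locAct w (B.locL w) (V.f i) _
    rw [actT, (hact _ (V.mem i).2).1 w hw
      (Finset.mem_toList.2 (Lev.mem_places.2 (hwT w hw)))]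
  · obtain ⟨M, hM, hM0⟩ := hn.trace B.T N V τ hS' (hlam _) hmap' hle hNle
    refine ⟨M, fun i => (funext fun p => ?_).trans (hM i), hM0⟩
    change actT B (V.f i) _ = V.f i _
    rw [actT, (hact _ (V.mem i).2).2 fun x _ hx => hex ⟨x, hx⟩]

end Fermat.LTG.Sys
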