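import Fermat.Agent.LTG.SOperators
import Fermat.Agent.LTG.SphKer
import Fermat.Agent.LT.Sys.Act

/-!
# Systems: algebra of the operations at one place, on kernels and on functions

`steps` and `acts` apply a list of operations to kernels and to functions; `acts_map` evaluates
them on a common eigenfunction.
-/

set_option autoImplicit false
open MeasureTheory Filter Set NumberField Polynomial
open scoped Classical
namespace Fermat.LTG.Sys
open Fermat.LT
open Fermat.LT.Sys (AEq Rad aeq_comp_assoc)
variable {F : Type*} [Field F] [NumberField F] {S : Lev F}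

/-! ### local kernels on functions -/

section Loc

variable {v : Place F}

/-- The action of a local kernel as a finite sum over all vertices. -/
lemma locAct_eq_finsum (l : LKer S v) (Φ : Pt F S → ℂ) (p : Pt F S) :
    locAct v l Φ p = ∑ᶠ y, l (p.1.1 v) y * Φ (p.1.set v y, p.2) := by
  rw [finsum_eq_sum_of_support_subset _ (s := l.row (p.1.1 v)) fun y hy =>
    Finset.mem_coe.2 (LKer.mem_row.2 (left_ne_zero_of_mul hy)), locAct]

/-- The identity kernel acts as the identity. -/
lemma locAct_one (Φ : Pt F S → ℂ) (p : Pt F S) : locAct v (LKer.one S v) Φ p = Φ p := by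
  rw [locAct_eq_finsum, finsum_eq_single _ (p.1.1 v) fun y hy => by simp [Ne.symm hy]]
  simp

/-- The action of a composite local kernel is the composite action. -/
lemma locAct_comp (k l : LKer S v) (Φ : Pt F S → ℂ) (p : Pt F S) :
    locAct v (k.comp l) Φ p = locAct v k (locAct v l Φ) p := by
  set T := (k.row (p.1.1 v)).biUnion fun b => l.row b
  have h1 : locAct v (k.comp l) Φ p = ∑ c ∈ T, k.comp l (p.1.1 v) c * Φ (p.1.set v c, p.2) := by
    rw [locAct_eq_finsum]
    refine finsum_eq_sum_of_support_subset _ fun c hc => ?_
    have := left_ne_zero_of_mul hc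
    rw [LKer.comp_eq_sum] at this
    obtain ⟨b, hb, hne⟩ := Finset.exists_ne_zero_of_sum_ne_zero this
    exact Finset.mem_coe.2 (Finset.mem_biUnion.2 ⟨b, hb, LKer.mem_row.2 (right_ne_zero_of_mul hne)⟩)
  rw [h1]
  simp only [LKer.comp_eq_sum, Finset.sum_mul]
  rw [Finset.sum_comm, locAct]
  refine Finset.sum_congr rfl fun b hb => ?_
  rw [locAct, Finset.mul_sum]
  symm
  refine Finset.sum_subset_zero_on_sdiff ?_ ?_ ?_
  · intro c hc
    simp only [FinPt.set_self] at hc
    exact Finset.mem_biUnion.2 ⟨b, hb, hc⟩
  · intro c hc
    simp only [FinPt.set_self, Finset.mem_sdiff, LKer.mem_row, not_not] at hc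
    rw [hc.2, mul_zero, zero_mul]
  · intro c _
    simp [FinPt.set_set, mul_assoc]

/-- Local actions at different places commute. -/
lemma locAct_comm {u : Place F} (hne : v ≠ u) (k : LKer S v) (l : LKer S u) (Φ : Pt F S → ℂ)
    (p : Pt F S) : locAct v k (locAct u l Φ) p = locAct u l (locAct v k Φ) p := by
  simp only [locAct, FinPt.set_of_ne _ hne.symm, FinPt.set_of_ne _ hne, Finset.mul_sum]
  rw [Finset.sum_comm]
  refine Finset.sum_congr rfl fun z _ => Finset.sum_congr rfl fun y _ => ?_
  rw [FinPt.set_comm p.1 hne]
  ring

/-- The action of a local kernel is homogeneous in the function. -/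
lemma locAct_smul_fun (l : LKer S v) (c : ℂ) (Φ : Pt F S → ℂ) (p : Pt F S) :
    locAct v l (fun q => c * Φ q) p = c * locAct v l Φ p := by
  simp only [locAct, Finset.mul_sum]
  exact Finset.sum_congr rfl fun y _ => by ring

/-- The action is linear in the kernel. -/
lemma locAct_linear {k k₁ k₂ : LKer S v} (c₁ c₂ : ℂ) (h : ∀ a b, k a b = c₁ * k₁ a b + c₂ * k₂ a b)
    (Φ : Pt F S → ℂ) (p : Pt F S) :
    locAct v k Φ p = c₁ * locAct v k₁ Φ p + c₂ * locAct v k₂ Φ p := by
  set a := p.1.1 v
  set T := k.row a ∪ k₁.row a ∪ k₂.row a
  have e : ∀ m : LKer S v, m.row a ⊆ T →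
      locAct v m Φ p = ∑ y ∈ T, m a y * Φ (p.1.set v y, p.2) := fun m hm =>
    Finset.sum_subset hm fun y _ hy => by
      rw [LKer.mem_row, not_not] at hy; rw [hy, zero_mul]
  rw [e k (Finset.subset_union_left.trans Finset.subset_union_left),
    e k₁ (Finset.subset_union_right.trans Finset.subset_union_left),
    e k₂ Finset.subset_union_right, Finset.mul_sum, Finset.mul_sum, ← Finset.sum_add_distrib]
  exact Finset.sum_congr rfl fun y _ => by rw [h]; ring

end Loc

/-- A polynomial of the neighbour kernel acts on an eigenfunction by its value. -/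
lemma locAct_sphKer_eval {v : Place F} (hv : v ∉ S) {Φ : Pt F S → ℂ} {e : ℂ}
    (h : ∀ p, locAct v (sphKer hv X) Φ p = e * Φ p) (q : ℂ[X]) (p : Pt F S) :
    locAct v (sphKer hv q) Φ p = q.eval e * Φ p := by
  induction q using Polynomial.induction_on generalizing p with
  | C c =>
    rw [locAct_linear c 0 (k₁ := LKer.one S v) (k₂ := LKer.one S v) fun a b => by
      rw [← mul_one (Polynomial.C c), sphKer_C_mul, sphKer_one]; ring]
    simp [locAct_one]
  | add f g hf hg =>
    rw [locAct_linear 1 1 (k₁ := sphKer hv f) (k₂ := sphKer hv g) fun a b => by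
      rw [sphKer_add]; ring, hf, hg, eval_add]
    ring
  | monomial n c ih =>
    have e' : Polynomial.C c * X ^ (n + 1) = X * (Polynomial.C c * X ^ n) := by ring
    rw [e', ← sphKer_X_comp hv, locAct_comp,
      show locAct v (sphKer hv (Polynomial.C c * X ^ n)) Φ =
        fun q => (Polynomial.C c * X ^ n).eval e * Φ q from
        funext ih, locAct_smul_fun, h, eval_mul (p := X), eval_X]
    ring

/-- A local action preserves continuity in the archimedean variables. -/
lemma continuous_locAct {v : Place F} (l : LKer S v) {Φ : Pt F S → ℂ}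
    (hc : ∀ ω, Continuous fun x : InfinitePlace F → H3 => Φ (ω, x)) (ω : FinPt F S) :
    Continuous fun x : InfinitePlace F → H3 => locAct v l Φ (ω, x) := by
  change Continuous fun x : InfinitePlace F →
    H3 => ∑ y ∈ l.row (ω.1 v), l (ω.1 v) y * Φ (ω.set v y, x)
  exact continuous_finsetSum _ fun y _ => continuous_const.mul (hc _)

/-- A local kernel preserves boundedness. -/
lemma bounded_locAct {v : Place F} (l : LKer S v) {Φ : Pt F S → ℂ} (hb : ∃ C : ℝ, ∀ p, ‖Φ p‖ ≤ C) :
    ∃ C : ℝ, ∀ p, ‖locAct v l Φ p‖ ≤ C := by
  obtain ⟨C, hC⟩ := hb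
  exact ⟨_, norm_locAct_le v l hC⟩

/-- A local action preserves invariance. -/
lemma isInvariant_locAct {v : Place F} (l : LKer S v) {Φ : Pt F S → ℂ} (h : IsInvariant Φ) :
    IsInvariant fun p => locAct v l Φ p := by
  refine isInvariant_iff.2 fun g p => ?_
  rw [locAct_eq_finsum, locAct_eq_finsum]
  refine (finsum_eq_of_bijective (g • ·) (MulAction.bijective g) fun y => ?_).symm
  change l (p.1.1 v) y * Φ (p.1.set v y, p.2) =
    l ((g • p).1.1 v) (g • y) * Φ ((g • p).1.set v (g • y), (g • p).2)
  rw [Pt.smul_fst, FinPt.smul_apply, l.invariant, ← isInvariant_iff.1 h g (p.1.set v y, p.2)]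
  congr 2
  refine Prod.ext ?_ rfl
  change g • p.1.set v y = _
  rw [FinPt.smul_set]

/-- Archimedean and local actions commute on continuous bounded functions. -/
lemma archAct_locAct {v : Place F} (l : LKer S v) (u : InfinitePlace F) (a : AKer) {Φ : Pt F S → ℂ}
    (hc : ∀ ω, Continuous fun x : InfinitePlace F → H3 => Φ (ω, x)) (hb : ∃ C : ℝ, ∀ p, ‖Φ p‖ ≤ C)
    (p : Pt F S) : archAct u a (locAct v l Φ) p = locAct v l (archAct u a Φ) p := by
  obtain ⟨C, hC⟩ := hb
  simp only [archAct, locAct, Finset.mul_sum]
  rw [integral_finsetSum]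
  · refine Finset.sum_congr rfl fun y _ => ?_
    rw [← integral_const_mul]
    congr 1
    funext z
    ring
  · intro y _
    refine (a.integrable (p.2 u)).mul_bdd ?_ (c := ‖l (p.1.1 v) y‖ * C)
      (Eventually.of_forall fun z => ?_)
    · exact (continuous_const.mul
        ((hc _).comp (continuous_const.update u continuous_id))).aestronglyMeasurable
    · rw [norm_mul]; exact mul_le_mul_of_nonneg_left (hC _) (norm_nonneg _)

/-! ### archimedean kernels on functions -/

/-- The archimedean action is linear in the function. -/
lemma archAct_smul_fun (u : InfinitePlace F) (a : AKer) (c : ℂ) (Φ : Pt F S → ℂ) (p : Pt F S) :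
    archAct u a (fun q => c * Φ q) p = c * archAct u a Φ p := by
  simp only [archAct, ← integral_const_mul]
  congr 1
  funext y
  ring

/-- A radial kernel acts by an integral over the hyperbolic space. -/
lemma archAct_rad (u : InfinitePlace F) (k : Rad) {Φ : Pt F S → ℂ}
    (hc : ∀ ω, Continuous fun x : InfinitePlace F → H3 => Φ (ω, x)) (p : Pt F S) :
    archAct u k.ker Φ p
      = hIntegral (fun y => (k.1 (coshd (p.2 u) y) : ℂ) * Φ (p.1, Function.update p.2 u y)) := by
  rw [hIntegral_eq_integral]
  · rfl
  · exact ((k.ker.continuous_right (p.2 u)).mul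
      ((hc p.1).comp (continuous_const.update u continuous_id))).aestronglyMeasurable

/-- On an eigenfunction a radial kernel acts by its transform. -/
lemma IsArchEigen.archAct_eq {Φ : Pt F S → ℂ} (h : IsArchEigen Φ)
    (hc : ∀ ω, Continuous fun x : InfinitePlace F → H3 => Φ (ω, x)) (u : InfinitePlace F) (k : Rad)
    (p : Pt F S) : archAct u k.ker Φ p = hhat0 k.1 * Φ p := by
  rw [archAct_rad u k hc]
  convert h u k.1 k.2.1 k.2.2 p

/-! ### kernels with equal values -/

/-- Local factors equal, infinite factors equal as functions. -/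
structure PEq (P Q : PKer F S) : Prop where
  /-- The local factors are equal. -/
  loc : ∀ v, P.loc v = Q.loc v
  /-- The infinite factors agree as functions. -/
  arch : ∀ w, AEq (P.arch w) (Q.arch w)

/-- Equivalent kernels have the same values. -/
lemma PEq.val {P Q : PKer F S} (h : PEq P Q) (p q : Pt F S) : P.val p q = Q.val p q := by
  simp only [PKer.val, PKer.fin, PKer.inf, h.loc, h.arch _ _ _]

/-- Equivalent kernels have the same automorphised values. -/
lemma PEq.kap {P Q : PKer F S} (h : PEq P Q) (p q : Pt F S) : P.kap p q = Q.kap p q :=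
  PKer.kap_congr h.val p q

/-- Equivalence of kernels is reflexive. -/
lemma PEq.refl (P : PKer F S) : PEq P P := ⟨fun _ => rfl, fun _ => AEq.refl _⟩

/-- Equivalence of kernels is transitive. -/
lemma PEq.trans {P Q R : PKer F S} (h : PEq P Q) (h' : PEq Q R) : PEq P R :=
  ⟨fun v => (h.loc v).trans (h'.loc v), fun w => (h.arch w).trans (h'.arch w)⟩

/-- An elementary operation: a kernel at one finite or one infinite place. -/
abbrev Op (F : Type*) [Field F] [NumberField F] (S : Lev F) : Type _ :=
  (Σ v : Place F, LKer S v) ⊕ (InfinitePlace F × AKer)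

/-- Compose a product kernel with an operation on the left. -/
noncomputable def step : Op F S → PKer F S → PKer F S
  | Sum.inl ⟨v, l⟩, P => P.actLoc v l
  | Sum.inr (u, a), P => P.actArch u a

/-- An operation on functions. -/
noncomputable def opAct : Op F S → (Pt F S → ℂ) → Pt F S → ℂ
  | Sum.inl ⟨v, l⟩, Φ => locAct v l Φ
  | Sum.inr (u, a), Φ => archAct u a Φ

/-- The kernel obtained by applying a list of operations in turn. -/
noncomputable def steps (l : List (Op F S)) (P : PKer F S) : PKer F S := l.foldr step P

/-- An operation respects equality of kernels as functions. -/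
lemma step_congr (o : Op F S) {P Q : PKer F S} (h : PEq P Q) : PEq (step o P) (step o Q) := by
  rcases o with ⟨v, l⟩ | ⟨u, a⟩
  · refine ⟨fun x => ?_, h.arch⟩
    change Function.update P.loc v _ x = Function.update Q.loc v _ x
    rw [h.loc v, show P.loc = Q.loc from funext h.loc]
  · refine ⟨h.loc, fun x => ?_⟩
    change AEq (Function.update P.arch u _ x) (Function.update Q.arch u _ x)
    by_cases hx : x = u
    · subst hx
      rw [Function.update_self, Function.update_self]
      exact (AEq.refl a).comp (h.arch x)
    · rw [Function.update_of_ne hx, Function.update_of_ne hx]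
      exact h.arch x

/-- A list of operations respects equality of kernels as functions. -/
lemma steps_congr (l : List (Op F S)) {P Q : PKer F S} (h : PEq P Q) :
    PEq (steps l P) (steps l Q) := by
  induction l with
  | nil => exact h
  | cons o l ih => exact step_congr o ih

/-- An operation on the left commutes with composition on the right. -/
lemma step_comp (o : Op F S) (P Q : PKer F S) : PEq ((step o P).comp Q) (step o (P.comp Q)) := by
  rcases o with ⟨v, l⟩ | ⟨u, a⟩
  · refine ⟨fun x => ?_, fun _ => AEq.refl _⟩
    change (Function.update P.loc v _ x).comp (Q.loc x)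
      = Function.update (fun x => (P.loc x).comp (Q.loc x)) v _ x
    by_cases hx : x = v
    · subst hx
      rw [Function.update_self, Function.update_self, LKer.comp_assoc]
      rfl
    · rw [Function.update_of_ne hx, Function.update_of_ne hx]
  · refine ⟨fun _ => rfl, fun x => ?_⟩
    change AEq ((Function.update P.arch u _ x).comp (Q.arch x))
      (Function.update (fun x => (P.arch x).comp (Q.arch x)) u _ x)
    by_cases hx : x = u
    · subst hx
      rw [Function.update_self, Function.update_self]
      exact aeq_comp_assoc _ _ _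
    · rw [Function.update_of_ne hx, Function.update_of_ne hx]
      exact AEq.refl _

/-- A list of operations on the left commutes with composition on the right. -/
lemma steps_comp (l : List (Op F S)) (P Q : PKer F S) :
    PEq ((steps l P).comp Q) (steps l (P.comp Q)) := by
  induction l with
  | nil => exact PEq.refl _
  | cons o l ih => exact (step_comp o _ Q).trans (step_congr o ih)

/-- Steps along a concatenation compose. -/
lemma steps_append (l m : List (Op F S)) (P : PKer F S) : steps (l ++ m) P = steps l (steps m P) :=
  List.foldr_append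

/-- A list of operations applied to every kernel of a combination. -/
noncomputable def stepsS (l : List (Op F S)) (A : SKer F S) : SKer F S :=
  ⟨A.n, A.coef, fun i => steps l (A.ker i)⟩
/-- The index of the fixed operations: places outside the level and archimedean radial kernels. -/
abbrev Coord (F : Type*) [Field F] [NumberField F] (S : Lev F) : Type _ :=
  {v : Place F // v ∉ S} ⊕ (InfinitePlace F × Rad)
/-- The operation with the given index. -/
noncomputable def coordOp : Coord F S → Op F S
  | Sum.inl v => Sum.inl ⟨v.1, sphKer v.2 Polynomial.X⟩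
  | Sum.inr (u, k) => Sum.inr (u, k.ker)

/-! ### operations on functions -/

/-- An elementary operation is linear in the function. -/
lemma opAct_smul_fun (o : Op F S) (c : ℂ) (Φ : Pt F S → ℂ) (p : Pt F S) :
    opAct o (fun q => c * Φ q) p = c * opAct o Φ p := by
  rcases o with ⟨v, l⟩ | ⟨u, a⟩
  · exact locAct_smul_fun l c Φ p
  · exact archAct_smul_fun u a c Φ p

/-- A list of operations on functions. -/
noncomputable def acts (l : List (Op F S)) (Φ : Pt F S → ℂ) : Pt F S → ℂ := l.foldr opAct Φ

/-- Actions along a concatenation compose. -/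
lemma acts_append (l m : List (Op F S)) (Φ : Pt F S → ℂ) : acts (l ++ m) Φ = acts l (acts m Φ) :=
  List.foldr_append

/-- A list of operations is linear in the function. -/
lemma acts_smul_fun (l : List (Op F S)) (c : ℂ) (Φ : Pt F S → ℂ) :
    acts l (fun q => c * Φ q) = fun q => c * acts l Φ q := by
  induction l with
  | nil => rfl
  | cons o l ih =>
    change opAct o (acts l _) = _
    rw [ih]
    exact funext fun q => opAct_smul_fun o c _ q

/-- A list of operations with a common eigenfunction acts by the product of the eigenvalues. -/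
lemma acts_map {α : Type*} (f : α → Op F S) {Φ : Pt F S → ℂ} (c : α → ℂ) (l : List α)
    (h : ∀ a ∈ l, ∀ q, opAct (f a) Φ q = c a * Φ q) :
    acts (l.map f) Φ = fun q => (l.map c).prod * Φ q := by
  induction l with
  | nil => simp [acts]
  | cons a l ih =>
    change opAct (f a) (acts (l.map f) Φ) = _
    rw [ih fun b hb => h b (List.mem_cons_of_mem _ hb)]
    funext q
    rw [opAct_smul_fun, h a List.mem_cons_self, List.map_cons, List.prod_cons]
    ring

/-! ### combinations -/

/-- A list of operations preserves boundedness. -/
lemma stepsS_bdd (l : List (Op F S)) {A : SKer F S} (hA : A.Bdd) : (stepsS l A).Bdd := by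
  induction l with
  | nil => exact hA
  | cons o l ih =>
    rcases o with ⟨v, a⟩ | ⟨u, a⟩
    · exact ih.actLoc v a
    · exact ih.actArch u a

/-- The operations of a list act on the image. -/
lemma appP_stepsS {D : Set (Pt F S)} [IsFiniteMeasure (domMeasure D)] {A : SKer F S} (hA : A.Bdd)
    (φ : DomL2 D) (l : List (Op F S)) :
    (fun p => (stepsS l A).appP φ p) = acts l fun p => A.appP φ p := by
  induction l with
  | nil => rfl
  | cons o l ih =>
    change _ = opAct o (acts l _)
    rw [← ih]
    rcases o with ⟨v, a⟩ | ⟨u, a⟩
    · exact funext fun p => (SKer.locAct_appP (stepsS_bdd l hA) v a φ p).symm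
    · exact funext fun p => (SKer.archAct_appP (stepsS_bdd l hA) u a φ p).symm

end Fermat.LTG.Sys
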