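import Fermat.Agent.LTG.Sys.Act
import Fermat.Agent.LTG.H.Basic

/-!
# Systems: combinations with spherical terms, preserved by the operations

`Good` is this class of combinations, commuting by `Good.comm`; `good_ker` puts the operator `h`
in it.
-/

set_option autoImplicit false
open MeasureTheory Set Polynomial
open scoped Classical ComplexConjugate

namespace Fermat.LTG.Sys

open Fermat.LT

variable {F : Type*} [Field F] [NumberField F] {S : Lev F}

/-- Real combination of terms: trivial at the level, real polynomials of the neighbour kernel
outside it, real at the infinite places. -/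
structure Good (A : SKer F S) : Prop where
  /-- The coefficients are real. -/
  coef_real : ∀ i, conj (A.coef i) = A.coef i
  /-- Every term is the identity at the level. -/
  level : ∀ i v, v ∈ S → (A.ker i).loc v = LKer.one S v
  /-- Outside the level every term is a real polynomial in the neighbour kernel. -/
  good : ∀ i v (h : v ∉ S), ∃ p : ℝ[X],
    (A.ker i).loc v = sphKer h (p.map (algebraMap ℝ ℂ))
  /-- The infinite kernels are real. -/
  arch : ∀ i w, ((A.ker i).arch w).IsReal

/-- A good combination is hermitian. -/
lemma Good.isHerm {A : SKer F S} (h : Good A) : A.IsHerm :=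
  SKer.isHerm_of_forall h.coef_real fun i =>
    ⟨fun v => by
      by_cases hv : v ∈ S
      · rw [h.level i v hv]; exact LKer.isHerm_one v
      · obtain ⟨p, hp⟩ := h.good i v hv
        rw [hp]; exact sphKer_isHerm hv p, h.arch i⟩

/-- Good combinations commute. -/
lemma Good.comm {A B : SKer F S} (hA : Good A) (hB : Good B) : SKer.Comm A B :=
  SKer.comm_of_locComm fun i j v => by
    by_cases hv : v ∈ S
    · rw [hA.level i v hv, hB.level j v hv]
    · obtain ⟨p, hp⟩ := hA.good i v hv
      obtain ⟨q, hq⟩ := hB.good j v hv
      rw [hp, hq, sphKer_comm hv]

/-- A coordinate preserves these combinations. -/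
lemma Good.step {A : SKer F S} (h : Good A) (j : Coord F S) : Good (stepsS [coordOp j] A) where
  coef_real := h.coef_real
  level i v hv := by
    rcases j with ⟨w, hw⟩ | ⟨u, k⟩
    · change Function.update (A.ker i).loc w _ v = _
      rw [Function.update_of_ne (fun e : v = w => hw (e ▸ hv))]
      exact h.level i v hv
    · exact h.level i v hv
  good i v hv := by
    rcases j with ⟨w, hw⟩ | ⟨u, k⟩
    · change ∃ p : ℝ[X], Function.update (A.ker i).loc w _ v = _
      by_cases e : v = w
      · subst e
        obtain ⟨p, hp⟩ := h.good i v hv
        exact ⟨X * p, by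
          rw [Function.update_self, Polynomial.map_mul, Polynomial.map_X, ← sphKer_X_comp hv]
          exact congrArg ((sphKer hv X).comp ·) hp⟩
      · rw [Function.update_of_ne e]
        exact h.good i v hv
    · exact h.good i v hv
  arch i w := by
    rcases j with ⟨v, hv⟩ | ⟨u, k⟩
    · exact h.arch i w
    · change AKer.IsReal (Function.update (A.ker i).arch u (k.ker.comp ((A.ker i).arch u)) w)
      by_cases e : w = u
      · subst e
        rw [Function.update_self]
        exact (AKer.isReal_ofRadial _ k.2.1 k.2.2).comp (h.arch i w)
      · rw [Function.update_of_ne e]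
        exact h.arch i w

/-- The operator `h` is of this kind. -/
theorem good_ker (H : H.Data F S) : Good H.ker where
  coef_real i := by
    change conj (Fermat.LTG.H.coef _) = Fermat.LTG.H.coef _
    simp [Fermat.LTG.H.coef]
  level i v hv := H.term_loc_not _ fun h => H.notMem v h hv
  good i v hv := by
    by_cases h : v ∈ H.T
    · exact ⟨_, H.term_loc_mem _ h⟩
    · exact ⟨1, by rw [Polynomial.map_one, sphKer_one]; exact H.term_loc_not _ h⟩
  arch i w := AKer.isReal_ofRadial _ (H.contDiff_radF _ w).continuous (H.hasCompactSupport_radF _ w)

end Fermat.LTG.Sys
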