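import Fermat.Agent.LTG.Sys.Kernels

/-!
# Systems: the difference of the traces of the composites has a density

The geometric comparison, applied to the test data of a list of coordinates and an odd polynomial at
a split place, rewritten for the two operators with lists of operations.
-/

set_option autoImplicit false
open NumberField MeasureTheory Filter Set Polynomial
open scoped Classical

namespace Fermat.LTG.Sys

open Fermat.LT

section General

variable {F : Type} [Field F] [NumberField F] {S : Lev F}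

/-- A combination of bounded kernels is bounded. -/
lemma bdd_sum {ι : Type*} [Fintype ι] (c : ι → ℂ) (P : ι → SKer F S) (h : ∀ i, (P i).Bdd)
    {Q : SKer F S} (hQ : ∀ p q, Q.kap p q = ∑ i, c i * (P i).kap p q) : Q.Bdd := by
  choose C hC using h
  exact ⟨∑ i, ‖c i‖ * C i, fun p q => by
    rw [hQ]
    exact (norm_sum_le _ _).trans (Finset.sum_le_sum fun i _ => by
      rw [norm_mul]; exact mul_le_mul_of_nonneg_left (hC i p q) (norm_nonneg _))⟩

/-- A bounded kernel along a measurable map is integrable on the domain. -/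
lemma integrableOn_bdd [IsTotallyComplex F] {D : Set (Pt F S)}
    (hD : IsFundamentalDomain (PG F) D ptMeasure) {P : SKer F S} (hP : P.Bdd)
    {φ : Pt F S → Pt F S} (hφ : Measurable φ) :
    IntegrableOn (fun p => P.kap p (φ p)) D ptMeasure := by
  obtain ⟨C, hC⟩ := hP
  exact IntegrableOn.of_bound (domain_finite hD)
    ((P.measurable_kap.comp (measurable_id.prodMk hφ))).aestronglyMeasurable C
    (Eventually.of_forall fun p => hC p _)

end General

variable {K L : Type} [Field K] [NumberField K] [Field L] [NumberField L] [Algebra K L]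
  {σ : L ≃ₐ[K] L} {B : Block K L σ} (HL : H.Data L B.T) {HK : H.Data K B.S} (G : Lifted (L := L) HK)

/-- The composite on `L` of a list of operations and two terms on `K`. -/
noncomputable def compL (ops : List (Op L B.T))
    (F : Finset (HK.Idx → Bool) × Finset (HK.Idx → Bool)) :
    SKer L B.T :=
  (stepsS (ops ++ fixL G F.1 F.2) HL.ker).comp HL.ker

/-- The composite on `K` of a list of operations and two terms on `L`. -/
noncomputable def compK (HK : H.Data K B.S) (ops : List (Op K B.S))
    (E : Finset (HL.Idx → Bool) × Finset (HL.Idx → Bool)) : SKer K B.S :=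
  (stepsS (ops ++ fixK HL E.1 E.2) HK.ker).comp HK.ker

/-- The test sum on `L` as a combination of composites. -/
lemma kap_sumL {v0 : Place K} (hv0 : v0 ∉ B.S) {w0 : Place L} (hw0 : LiesOver K L w0 v0)
    (hw0T : w0 ∉ B.T) (l : List (Coord L B.T))
    (h1 : ∀ z, (qData HL G l z).h w0 = 1) (p : ℂ[X]) (a b : Pt L B.T) :
    (sumL (qCoef HL) fun z => (qData HL G l z).upd hv0 hw0 p).kap a b
      = ∑ F : Finset (HK.Idx → Bool) × Finset (HK.Idx → Bool), H.coef F.1 * H.coef F.2 *
        (compL HL G ((Sum.inl ⟨w0, sphKer hw0T p⟩ : Op L B.T) :: l.map coordOp) F).kap a b := by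
  rw [sumL, SKer.kap_ofFintype, Fintype.sum_prod_type]
  refine Finset.sum_congr rfl fun F _ => ?_
  rw [compL, H.Data.ker, kap_stepsS_comp, Finset.mul_sum, Fintype.sum_prod_type]
  refine Finset.sum_congr rfl fun E₁ _ => ?_
  rw [Finset.mul_sum]
  refine Finset.sum_congr rfl fun E₂ _ => ?_
  rw [List.cons_append, (kerL_qData HL G hv0 hw0 hw0T l (F, (E₁, E₂)) (h1 _) p).kap]
  simp only [qCoef]
  ring

variable (hc : Cyc3 K L σ) [IsTotallyComplex K]
include hc

/-- The test sum on `K` as a combination of composites. -/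
lemma kap_sumK {v0 : Place K} (hv0 : v0 ∉ B.S) {w0 : Place L} (hw0 : LiesOver K L w0 v0)
    (hn : pnorm w0 = pnorm v0) (hw0T : w0 ∉ B.T) (l : List (Coord L B.T))
    (h1 : ∀ z, (qData HL G l z).h w0 = 1) (p : ℂ[X]) (a b : Pt K B.S) :
    (sumK σ (qCoef HL) fun z => (qData HL G l z).upd hv0 hw0 p).kap a b
      = ∑ E : Finset (HL.Idx → Bool) × Finset (HL.Idx → Bool), H.coef E.1 * H.coef E.2 *
        (compK HL HK ((Sum.inl ⟨v0, sphKer hv0 p⟩ : Op K B.S) :: l.map opBC) E).kap a b := by
  rw [sumK, SKer.kap_ofFintype, Fintype.sum_prod_type, Finset.sum_comm]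
  refine Finset.sum_congr rfl fun E _ => ?_
  rw [compK, H.Data.ker, kap_stepsS_comp, Finset.mul_sum, Fintype.sum_prod_type]
  refine Finset.sum_congr rfl fun F₁ _ => ?_
  rw [Finset.mul_sum]
  refine Finset.sum_congr rfl fun F₂ _ => ?_
  rw [List.cons_append, (kerK_qData HL G hc hv0 hw0 hn hw0T l ((F₁, F₂), E) (h1 _) p).kap]
  simp only [qCoef]
  ring

/-- **The density.** At a split place the difference of the composite traces on `K` and `L`, as a
function of an odd polynomial in its operator, is integration against a continuous density. -/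
theorem exists_traceDensity [IsTotallyComplex L] (hζ : ∃ ζ : K, IsPrimitiveRoot ζ 3)
    (geo : GeometricStatement K L)
    {DK : Set (Pt K B.S)} (hDK : IsFundamentalDomain (PG K) DK ptMeasure)
    {DL : Set (Pt L B.T)} (hDL : IsFundamentalDomain (PG L) DL ptMeasure)
    {v0 : Place K} (hv0 : v0 ∉ B.S) (hbad : v0 ∉ badSet HL (HK := HK)) {w0 : Place L}
    (hw0 : LiesOver K L w0 v0) (hn : pnorm w0 = pnorm v0) (hw0T : w0 ∉ B.T)
    (l : List (Coord L B.T)) (hl : ∀ x, Sum.inl x ∈ l → below K x.1 ≠ v0) :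
    ∃ g : ℝ → ℂ, Continuous g ∧ ∀ r : ℝ[X],
      (∑ E : Finset (HL.Idx → Bool) × Finset (HL.Idx → Bool), H.coef E.1 * H.coef E.2 *
          ∫ q in DK, (compK HL HK ((Sum.inl ⟨v0, sphKer hv0 (oddP r)⟩ : Op K B.S) :: l.map opBC)
            E).kap q q ∂ptMeasure)
      - (∑ F : Finset (HK.Idx → Bool) × Finset (HK.Idx → Bool), H.coef F.1 * H.coef F.2 *
          ∫ q in DL, (compL HL G ((Sum.inl ⟨w0, sphKer hw0T (oddP r)⟩ : Op L B.T) :: l.map coordOp)
            F).kap q (Pt.amap B.stable q) ∂ptMeasure)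
      = ∫ θ in (0 : ℝ)..(2 * Real.pi),
          (((2 * Real.sqrt (pnorm v0)) * Real.cos θ
            * r.eval (((2 * Real.sqrt (pnorm v0)) * Real.cos θ) ^ 2) : ℝ) : ℂ) * g θ := by
  have : IsFiniteMeasure (domMeasure DK) := isFiniteMeasure_domMeasure hDK
  have : IsFiniteMeasure (domMeasure DL) := isFiniteMeasure_domMeasure hDL
  -- the data of the comparison are trivial above `v0`
  have hone : ∀ z, ∀ w, LiesOver K L w v0 → (qData HL G l z).h w = 1 := fun z w hw =>
    qData_h_eq_one HL G hbad l hl z hw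
  have h1 : ∀ z, (qData HL G l z).h w0 = 1 := fun z => hone z w0 hw0
  -- all composite kernels are bounded
  have hBK : ∀ r : ℝ[X], ∀ E,
      (compK HL HK ((Sum.inl ⟨v0, sphKer hv0 (oddP r)⟩ : Op K B.S) :: l.map opBC)
      E).Bdd := fun r E => (stepsS_bdd _ HK.bdd).comp hDK HK.bdd
  have hBL : ∀ r : ℝ[X], ∀ F,
      (compL HL G ((Sum.inl ⟨w0, sphKer hw0T (oddP r)⟩ : Op L B.T) :: l.map coordOp)
      F).Bdd := fun r F => (stepsS_bdd _ HL.bdd).comp hDL HL.bdd
  -- the geometric comparison gives the density; then expand both traces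
  obtain ⟨g, hg, hgr⟩ := geo σ hc inferInstance hζ B DK hDK DL hDL v0 hv0 w0 hw0 hn _
    (qCoef HL) (qData HL G l) hone fun r =>
      ⟨bdd_sum _ _ (hBK r) (kap_sumK HL G hc hv0 hw0 hn hw0T l h1 _),
        bdd_sum _ _ (hBL r) (kap_sumL HL G hv0 hw0 hw0T l h1 _)⟩
  refine ⟨g, hg, fun r => ?_⟩
  refine Eq.trans ?_ (hgr r)
  simp only [kap_sumK HL G hc hv0 hw0 hn hw0T l h1, kap_sumL HL G hv0 hw0 hw0T l h1]
  rw [integral_finsetSum _ fun E _ =>
    ((integrableOn_bdd hDK (hBK r E) (φ := fun q => q) measurable_id).const_mul _),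
    integral_finsetSum _ fun F _ => ((integrableOn_bdd hDL (hBL r F)
      (measurePreserving_amap B.stable).measurable).const_mul _)]
  simp only [integral_const_mul]

end Fermat.LTG.Sys
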