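import Fermat.Agent.LTG.Sys.Base
import Fermat.Agent.LTG.CuspAuto
import Fermat.Agent.LTG.AutAct
import Fermat.Agent.LT.Sys.Unfold
import Fermat.Agent.LT.Sys.Eigenbasis

/-!
# Systems: joint eigenfunctions, the orthonormal family, traces, expansions, values

`exists_eigFam` gives the orthonormal family `EigFam` of joint eigenfunctions (`Joint`);
`appP_ker` evaluates the operator on them.
-/

set_option autoImplicit false
open MeasureTheory Filter Set NumberField Polynomial
open scoped Classical ComplexConjugate InnerProductSpace ENNReal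

namespace Fermat.LTG.Sys

open Fermat.LT
open Fermat.LT.Sys (Rad integral_prod_eigen hhat0_real)

variable {F : Type} [Field F] [NumberField F] {S : Lev F}

/-! ### joint eigenfunctions -/

/-- Eigenfunction at the good finite and at the infinite places. -/
structure Joint (e : Coord F S → ℝ) (Φ : Pt F S → ℂ) : Prop where
  /-- The function is invariant under `GL₂(F)`. -/
  invariant : IsInvariant Φ
  /-- The function is continuous in the archimedean variables. -/
  continuous : ∀ ω : FinPt F S, Continuous fun x : InfinitePlace F → H3 => Φ (ω, x)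
  /-- The function is bounded. -/
  bounded : ∃ C : ℝ, ∀ p, ‖Φ p‖ ≤ C
  /-- Outside `S` the neighbour kernel at `v` acts by its eigenvalue in `e`. -/
  good : ∀ (v : {v : Place F // v ∉ S}) p,
    locAct v.1 (sphKer v.2 X) Φ p = (e (Sum.inl v) : ℂ) * Φ p
  /-- Each radial kernel `k` at an infinite place `u` acts by its eigenvalue in `e`. -/
  arch : ∀ (u : InfinitePlace F) (k : Rad) p,
    archAct u k.ker Φ p = (e (Sum.inr (u, k)) : ℂ) * Φ p

variable {e : Coord F S → ℝ} {Φ : Pt F S → ℂ}

/-- A joint eigenfunction is an eigenfunction of every coordinate operation. -/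
lemma Joint.eig (h : Joint e Φ) (j : Coord F S) (p : Pt F S) :
    opAct (coordOp j) Φ p = (e j : ℂ) * Φ p := by
  rcases j with v | ⟨u, k⟩
  · exact h.good v p
  · exact h.arch u k p

/-- Multiples of joint eigenfunctions are joint eigenfunctions. -/
lemma Joint.smul (h : Joint e Φ) (c : ℂ) : Joint e fun p => c * Φ p where
  invariant := fun g p q h1 h2 => congrArg (c * ·) (h.invariant g p q h1 h2)
  continuous ω := continuous_const.mul (h.continuous ω)
  bounded := by
    obtain ⟨C, hC⟩ := h.bounded
    exact ⟨‖c‖ * C,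
      fun p => by rw [norm_mul]; exact mul_le_mul_of_nonneg_left (hC p) (norm_nonneg _)⟩
  good v p := by rw [locAct_smul_fun, h.good]; ring
  arch u k p := by rw [archAct_smul_fun, h.arch]; ring

/-- Local operators at the level preserve joint eigenfunctions. -/
lemma Joint.locAct (h : Joint e Φ) {v : Place F} (hvS : v ∈ S) (l : LKer S v) :
    Joint e (Fermat.LTG.locAct v l Φ) where
  invariant := isInvariant_locAct l h.invariant
  continuous := continuous_locAct l h.continuous
  bounded := bounded_locAct l h.bounded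
  good u p := by
    rw [locAct_comm (fun e : u.1 = v => u.2 (e ▸ hvS)),
      show Fermat.LTG.locAct u.1 (sphKer u.2 X) Φ = fun q => (e (Sum.inl u) : ℂ) * Φ q from
        funext (h.good u), locAct_smul_fun]
  arch u k p := by
    rw [archAct_locAct l u k.ker h.continuous h.bounded,
      show archAct u k.ker Φ = fun q => (e (Sum.inr (u, k)) : ℂ) * Φ q from funext (h.arch u k),
      locAct_smul_fun]

/-- The coordinates of the eigenvalues `lam` with parameter zero. -/
noncomputable def lamCoord (lam : Place F → ℝ) : Coord F S → ℝ :=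
  Sum.elim (fun v => lam v.1) fun j => (hhat0 j.2.1).re

/-- The coordinates at infinity are the spherical values. -/
lemma lamCoord_inr (lam : Place F → ℝ) (j : InfinitePlace F × Rad) :
    ((lamCoord (S := S) lam (Sum.inr j) : ℝ) : ℂ) = hhat0 j.2.1 :=
  Complex.conj_eq_iff_re.1 (hhat0_real j.2.1)

/-- An eigenfunction with eigenvalues `lam` is a joint eigenfunction. -/
lemma joint_of_isEigFn [IsTotallyComplex F] {Z : Set (Place F)} (hZ : ∀ v ∈ Z, v ∈ S)
    {lam : Place F → ℝ} (h : IsEigFn S Z lam Φ) : Joint (lamCoord lam) Φ where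
  invariant := h.invariant
  continuous := h.continuous
  bounded := h.bounded
  good v p := by
    rw [← heckeT_eq_locAct v.2]
    exact h.hecke v.1 v.2 (fun hv => v.2 (hZ v.1 hv)) p
  arch u k p := by
    rw [IsArchEigen.archAct_eq h.arch h.continuous, lamCoord_inr]

/-! ### functions with continuous slices as square integrable classes -/

/-- A function with continuous slices is measurable. -/
lemma measurable_of_slices (hc : ∀ ω, Continuous fun x : InfinitePlace F → H3 => Φ (ω, x)) :
    Measurable Φ := by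
  have : DiscreteMeasurableSpace (FinPt F S) := ⟨fun _ => trivial⟩
  exact measurable_from_prod_countable_right fun ω => (hc ω).measurable

variable {D : Set (Pt F S)}

/-- The class of a bounded function. -/
noncomputable def toL2 [IsFiniteMeasure (domMeasure D)]
    (hc : ∀ ω, Continuous fun x : InfinitePlace F → H3 => Φ (ω, x))
    (hb : ∃ C : ℝ, ∀ p, ‖Φ p‖ ≤ C) : DomL2 D :=
  (MemLp.of_bound (μ := domMeasure D) (measurable_of_slices hc).aestronglyMeasurable hb.choose
    (Eventually.of_forall hb.choose_spec)).toLp Φ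

/-- The class of a bounded function is that function almost everywhere. -/
lemma toL2_ae [IsFiniteMeasure (domMeasure D)]
    (hc : ∀ ω, Continuous fun x : InfinitePlace F → H3 => Φ (ω, x))
    (hb : ∃ C : ℝ, ∀ p, ‖Φ p‖ ≤ C) : toL2 (D := D) hc hb =ᵐ[domMeasure D] Φ :=
  MemLp.coeFn_toLp _

/-! ### the family -/

/-- The orthonormal family of the joint eigenfunctions not killed by `A`. -/
structure EigFam (A : SKer F S) (D : Set (Pt F S)) where
  /-- The index type of the family. -/
  I : Type
  /-- The eigenvalue of `A`. -/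
  lam : I → ℝ
  /-- The eigenvalues of the operations. -/
  eig : I → Coord F S → ℝ
  /-- The eigenfunctions. -/
  Φ : I → Pt F S → ℂ
  /-- Each member is an eigenfunction with its eigenvalues. -/
  data : ∀ i, Joint (eig i) (Φ i)
  /-- Each member is not identically zero. -/
  nonzero : ∀ i, ∃ p, Φ i p ≠ 0
  /-- Each member represents a square integrable class on which `A` acts by `lam i`. -/
  appA : ∀ i, ∃ b : DomL2 D, b =ᵐ[domMeasure D] Φ i ∧ ∀ p, A.appP b p = (lam i : ℂ) * Φ i p
  /-- The members are orthonormal on the domain. -/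
  orth : ∀ i k, ∫ p, conj (Φ i p) * Φ k p ∂domMeasure D = if i = k then 1 else 0
  /-- The eigenvalues of `A` are square summable. -/
  summ : Summable fun i => lam i ^ 2
  /-- Twisted trace of a list of operations after the square of `A`. -/
  trace : ∀ (τ : F ≃+* F) (hS : Stable τ S) (X : List (Op F S)),
    HasSum (fun i => (lam i : ℂ) ^ 2 *
        ∫ p, conj (Φ i (Pt.amap hS p)) * acts X (Φ i) p ∂domMeasure D)
      (∫ p in D, ((stepsS X A).comp A).kap p (Pt.amap hS p) ∂ptMeasure)
  /-- The series of twisted inner products weighted by `lam i ^ 2` converges absolutely. -/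
  summ_amap : ∀ (τ : F ≃+* F) (hS : Stable τ S) (X : List (Op F S)),
    Summable fun i => ‖(lam i : ℂ) ^ 2 *
        ∫ p, conj (Φ i (Pt.amap hS p)) * acts X (Φ i) p ∂domMeasure D‖
  /-- A joint eigenfunction not killed by `A` is a finite combination of members with its
  eigenvalues. -/
  expand : ∀ (e : Coord F S → ℝ) (Ψ : Pt F S → ℂ), Joint e Ψ → ∀ c : ℂ, c ≠ 0 →
    (∀ ψ : DomL2 D, ψ =ᵐ[domMeasure D] Ψ → ∀ p, A.appP ψ p = c * Ψ p) →
    ∃ (s : Finset I) (a : I → ℂ), (∀ i ∈ s, eig i = e) ∧ Ψ = fun p => ∑ i ∈ s, a i * Φ i p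

section Basis

variable {A : SKer F S} {D : Set (Pt F S)} [IsFiniteMeasure (domMeasure D)]

/-- A kernel with a scalar action on a representative acts by that scalar. -/
lemma opK_eq_smul_of_ae {P : SKer F S} (hP : P.Bdd) {φ : DomL2 D} {Ψ : Pt F S → ℂ}
    (hφ : φ =ᵐ[domMeasure D] Ψ) {c : ℂ} (h : ∀ p, P.appP φ p = c * Ψ p) : P.opK hP φ = c • φ := by
  refine Lp.ext ?_
  filter_upwards [SKer.opK_coeFn hP φ, Lp.coeFn_smul c φ, hφ] with p h1 h2 h3
  rw [h1, h2, h, Pi.smul_apply, smul_eq_mul, h3]

/-- The kernel is linear on finite combinations. -/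
lemma appP_sum_smul (hA : A.Bdd) {ι : Type*} (v : ι → DomL2 D) (s : Finset ι) (a : ι → ℂ)
    (p : Pt F S) :
    A.appP (∑ x ∈ s, a x • v x) p = ∑ x ∈ s, a x * A.appP (v x) p := by
  simp only [← SKer.appP_const_smul]
  simp only [SKer.appP]
  rw [← integral_finsetSum _ fun x _ => SKer.integrable_kap_mul hA _ p]
  refine integral_congr_ae ?_
  filter_upwards [Lp.coeFn_finsetSum s fun x => a x • v x] with q hq
  rw [hq, Finset.sum_apply, Finset.mul_sum]

/-- The kernel twisted by an automorphism in the first variable. -/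
lemma exists_amap_kernel [IsTotallyComplex F] (hA : A.Bdd) {τ : F ≃+* F} (hS : Stable τ S) :
    ∃ A' : SqKernel (domMeasure D), A'.toFun = fun x y => A.kap (Pt.amap hS x) y := by
  obtain ⟨C, hC⟩ := id hA
  exact ⟨⟨fun x y => A.kap (Pt.amap hS x) y, MemLp.of_bound (A.measurable_kap.comp
    (((measurePreserving_amap hS).measurable.comp measurable_fst).prodMk
      measurable_snd)).aestronglyMeasurable
    C (Eventually.of_forall fun z => hC _ _)⟩, rfl⟩

/-- The twisted kernel kills what the kernel kills. -/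
lemma op_amap_kernel_eq_zero [IsTotallyComplex F] (hA : A.Bdd)
    (hD : IsFundamentalDomain (PG F) D ptMeasure) {τ : F ≃+* F} (hS : Stable τ S)
    {A' : SqKernel (domMeasure D)} (hA' : A'.toFun = fun x y => A.kap (Pt.amap hS x) y)
    {φ : DomL2 D} (h0 : A.opK hA φ = 0) :
    A'.op φ = 0 := by
  have h1 : ptMeasure {p | A.appP φ p ≠ 0} = 0 := by
    refine hD.measure_zero_of_invariant _ (fun γ => ?_) ?_
    · ext p
      simp only [Set.mem_smul_set_iff_inv_smul_mem, Set.mem_ofPred_eq, SKer.appP_smul]
    · have h := SKer.opK_coeFn hA φ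
      rw [h0] at h
      have h2 : (fun p => A.appP φ p) =ᵐ[domMeasure D] 0 := by
        filter_upwards [h, Lp.coeFn_zero (E := ℂ) 2 (domMeasure D)] with p h1 h2
        rw [← h1, h2]
      have h3 := ae_iff.1 h2
      rwa [Measure.restrict_apply₀' hD.nullMeasurableSet] at h3
  have h2 : ∀ᵐ p ∂domMeasure D, A.appP φ (Pt.amap hS p) = 0 :=
    ae_restrict_of_ae ((measurePreserving_amap hS).quasiMeasurePreserving.ae (ae_iff.2 h1))
  refine Lp.ext ?_
  filter_upwards [A'.op_coeFn φ, Lp.coeFn_zero (E := ℂ) 2 (domMeasure D), h2] with p e1 e2 e3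
  rw [e1, e2, SqKernel.appFun, hA']
  exact e3

omit [IsFiniteMeasure (domMeasure D)] in
/-- The Hilbert–Schmidt pairing with the twisted kernel is the twisted trace. -/
lemma integral_amap_kernel_eq (hAh : A.IsHerm)
    (hD : IsFundamentalDomain (PG F) D ptMeasure) {τ : F ≃+* F} (hS : Stable τ S)
    {A' : SqKernel (domMeasure D)} (hA' : A'.toFun = fun x y => A.kap (Pt.amap hS x) y)
    (P : SKer F S) :
    ∫ p, ∫ q, conj (A'.toFun p q) * P.kap p q ∂domMeasure D ∂domMeasure D
      = ∫ p in D, (P.comp A).kap p (Pt.amap hS p) ∂ptMeasure := by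
  refine integral_congr_ae (Eventually.of_forall fun p => ?_)
  change _ = (P.comp A).kap p (Pt.amap hS p)
  rw [hA', ← SKer.integral_kap_mul _ _ hD]
  refine integral_congr_ae (Eventually.of_forall fun q => ?_)
  change conj (A.kap (Pt.amap hS p) q) * _ = _
  rw [← SKer.kap_conj hAh, mul_comm]

variable {x : DomL2 D} {lam : ℂ} {χ : Coord F S → ℂ}
  (h : SKer.SysData A (fun j => stepsS [coordOp j] A) x lam χ Φ)
include h

/-- Operations on the kernel act on the representative. -/
lemma sysData_appP_steps (hA : A.Bdd) (X : List (Op F S)) (p : Pt F S) :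
    (stepsS X A).appP x p = lam * acts X Φ p := by
  rw [congrFun (appP_stepsS hA x X) p,
    show (fun q => A.appP x q) = fun q => lam * Φ q from funext h.appA, acts_smul_fun]

/-- The representative is an eigenfunction of every coordinate. -/
lemma sysData_opAct (hA : A.Bdd) (j : Coord F S) (p : Pt F S) :
    opAct (coordOp j) Φ p = (((χ j).re / lam.re : ℝ) : ℂ) * Φ p := by
  have h2 := h.appT j p
  rw [sysData_appP_steps h hA] at h2
  change lam * opAct (coordOp j) Φ p = _ at h2
  rw [Complex.ofReal_div, Complex.conj_eq_iff_re.1 h.lam_real,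
    Complex.conj_eq_iff_re.1 (h.chi_real j), div_mul_eq_mul_div, eq_div_iff h.lam_ne, mul_comm, h2]

/-- The representative is a joint eigenfunction. -/
lemma sysData_joint (hA : A.Bdd) : Joint (fun j => (χ j).re / lam.re) Φ :=
  ⟨h.invariant, h.continuous, h.bounded, fun v p => sysData_opAct h hA (Sum.inl v) p,
    fun u k p => sysData_opAct h hA (Sum.inr (u, k)) p⟩

/-- Matrix coefficients of the twisted kernel on an eigenvector. -/
lemma sysData_inner_amap (hA : A.Bdd) {τ : F ≃+* F} (hS : Stable τ S)
    {A' : SqKernel (domMeasure D)} (hA' : A'.toFun = fun x y => A.kap (Pt.amap hS x) y)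
    (X : List (Op F S)) :
    ⟪A'.op x, ((stepsS X A).toSq (stepsS_bdd X hA)).op x⟫_ℂ
      = (lam.re : ℂ) ^ 2 * ∫ p, conj (Φ (Pt.amap hS p)) * acts X Φ p ∂domMeasure D := by
  rw [SqKernel.inner_op_op, ← integral_const_mul]
  refine integral_congr_ae (Eventually.of_forall fun p => ?_)
  change conj (∫ q, A'.toFun p q * _ ∂domMeasure D) * (stepsS X A).appP x p = _
  rw [hA']
  change conj (A.appP x (Pt.amap hS p)) * _ = _
  rw [h.appA, sysData_appP_steps h hA, map_mul, h.lam_real, Complex.conj_eq_iff_re.1 h.lam_real]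
  ring

/-- An eigenvector meeting a joint eigenfunction has its eigenvalues. -/
lemma sysData_eig_eq (hA : A.Bdd) (hg : Good A) {e' : Coord F S → ℝ}
    {ψ : DomL2 D} {Ψ : Pt F S → ℂ} (hψ : ψ =ᵐ[domMeasure D] Ψ) (hΨ : Joint e' Ψ) {c : ℂ}
    (hAψ : ∀ p, A.appP ψ p = c * Ψ p) (hx : ⟪x, ψ⟫_ℂ ≠ 0) :
    (fun j => (χ j).re / lam.re) = e' ∧ (lam.re : ℂ) = c := by
  have hlr : (lam.re : ℂ) = lam := Complex.conj_eq_iff_re.1 h.lam_real
  have hne : lam.re ≠ 0 := fun h0 => h.lam_ne (by rw [← hlr, h0]; simp)
  have hl : lam = c := by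
    rw [← h.lam_real]
    exact conj_eigenvalue_eq (SKer.isSymmetric_opK hA hg.isHerm) hx
      (opK_eq_smul_of_ae hA h.ae_eq.symm h.appA) (opK_eq_smul_of_ae hA hψ hAψ)
  refine ⟨funext fun j => ?_, by rw [hlr, hl]⟩
  have hT := stepsS_bdd [coordOp j] hA
  have h2 := conj_eigenvalue_eq (SKer.isSymmetric_opK hT (hg.step j).isHerm) hx
    (opK_eq_smul_of_ae hT h.ae_eq.symm (h.appT j))
    (opK_eq_smul_of_ae hT hψ (c := (e' j : ℂ) * c) fun p => by
      rw [congrFun (appP_stepsS hA ψ [coordOp j]) p,
        show (fun q => A.appP ψ q) = fun q => c * Ψ q from funext hAψ, acts_smul_fun]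
      change c * opAct (coordOp j) Ψ p = _
      rw [hΨ.eig]
      ring)
  rw [h.chi_real, ← Complex.conj_eq_iff_re.1 (h.chi_real j), ← hl, ← hlr, ← Complex.ofReal_mul,
    Complex.ofReal_inj] at h2
  change (χ j).re / lam.re = e' j
  rw [h2, mul_div_assoc, div_self hne, mul_one]

end Basis

/-- **Existence of the family.** A good bounded kernel has an orthonormal eigenfamily `EigFam` on a
fundamental domain. -/
theorem exists_eigFam [IsTotallyComplex F] {A : SKer F S} (hg : Good A) (hA : A.Bdd)
    (hD : IsFundamentalDomain (PG F) D ptMeasure) : Nonempty (EigFam A D) := by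
  have : IsFiniteMeasure (domMeasure D) := isFiniteMeasure_domMeasure hD
  have : Fact ((2 : ℝ≥0∞) ≠ ⊤) := ⟨ENNReal.ofNat_ne_top⟩
  set T : Coord F S → SKer F S := fun j => stepsS [coordOp j] A
  -- a joint orthonormal eigenbasis; keep the vectors not killed by `A`
  obtain ⟨w, b, hb, hw⟩ := SKer.exists_sysBasis hD A T hA (fun j => stepsS_bdd _ hA) hg.isHerm
    (fun j => (hg.step j).isHerm) (fun j => hg.comm (hg.step j)) (fun i j _ =>
      (hg.step i).comm (hg.step j))
  have hcw : Countable w := countable_of_orthonormal b.orthonormal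
  have hsys : ∀ i : {x : w // A.opK hA (b x) ≠ 0}, ∃ lam χ Φ, SKer.SysData A T (b i.1) lam χ Φ :=
    fun i => by
      have h := i.2
      rw [congrFun hb i.1] at h ⊢
      exact (hw _ i.1.2).resolve_left h
  choose lam χ Φ hdata using hsys
  have hlamR : ∀ i, ((lam i).re : ℂ) = lam i := fun i => Complex.conj_eq_iff_re.1 (hdata i).lam_real
  set e : {x : w // A.opK hA (b x) ≠ 0} → Coord F S → ℝ := fun i j => (χ i j).re / (lam i).re
  have horth : ∀ i k, ∫ p, conj (Φ i p) * Φ k p ∂domMeasure D = if i = k then 1 else 0 :=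
    integral_conj_mul_of_orthonormal b.orthonormal Subtype.val_injective fun i => (hdata i).ae_eq
  have hsumm : Summable fun i => (lam i).re ^ 2 := by
    refine (((A.toSq hA).summable_norm_op_sq b.orthonormal).subtype {x | A.opK hA (b x) ≠ 0}).congr
      fun i => ?_
    change ‖A.opK hA (b i.1)‖ ^ 2 = _
    rw [opK_eq_smul_of_ae hA (hdata i).ae_eq.symm (hdata i).appA, norm_smul,
      b.orthonormal.1, mul_one, ← hlamR i, Complex.norm_real, Real.norm_eq_abs, sq_abs]
    simp
  refine ⟨{
    I := {x : w // A.opK hA (b x) ≠ 0}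
    lam := fun i => (lam i).re
    eig := e
    Φ := Φ
    data := fun i => sysData_joint (hdata i) hA
    nonzero := fun i => exists_ne_zero_of_integral_eq_one (by rw [horth, if_pos rfl])
    appA := fun i => ⟨b i.1, (hdata i).ae_eq.symm, fun p => by rw [hlamR]; exact (hdata i).appA p⟩
    orth := fun i k => (horth i k).trans (by congr)
    summ := hsumm
    trace := fun τ hS X => ?_
    summ_amap := fun τ hS X => ?_
    expand := fun e' Ψ hΨ c hc hval => ?_ }⟩
  · obtain ⟨A', hA'⟩ := exists_amap_kernel (D := D) hA hS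
    have h := A'.hasSum_inner_op_subtype ((stepsS X A).toSq (stepsS_bdd X hA)) b
      (P := fun x => A.opK hA (b x) ≠ 0) fun x hx =>
        op_amap_kernel_eq_zero hA hD hS hA' (not_not.1 hx)
    rw [← integral_amap_kernel_eq hg.isHerm hD hS hA']
    exact h.congr_fun fun i => (sysData_inner_amap (hdata i) hA hS hA' X).symm
  · obtain ⟨A', hA'⟩ := exists_amap_kernel (D := D) hA hS
    exact ((A'.summable_norm_inner_op ((stepsS X A).toSq (stepsS_bdd X hA))
      b.orthonormal).subtype _).congr fun i => congrArg _ (sysData_inner_amap (hdata i) hA hS hA' X)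
  · set ψ : DomL2 D := toL2 hΨ.continuous hΨ.bounded
    have hψ := toL2_ae (D := D) hΨ.continuous hΨ.bounded
    have hfin := finite_level_of_summable_sq hsumm hc
    refine ⟨hfin.toFinset.filter fun i => e i = e', _, fun i hi => (Finset.mem_filter.1 hi).2,
      eq_finite_expansion b (Subtype.val : {x : w // A.opK hA (b x) ≠ 0} → w)
        Subtype.val_injective
        (fun φ p => A.appP φ p) (fun s a p => appP_sum_smul hA _ s a p) (fun i p =>
          (hdata i).appA p) hc
        (hval ψ hψ) _ (fun i hi =>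
          (hlamR i).symm.trans (hfin.mem_toFinset.1 (Finset.mem_filter.1 hi).1))
        fun x hx => ?_⟩
    -- eigenvectors of other eigenvalues are orthogonal to `Ψ`
    have hAx : A.opK hA (b x) ≠ 0 := fun h0 => hc <| by
      have h1 := conj_eigenvalue_eq (SKer.isSymmetric_opK hA hg.isHerm) hx (c := 0)
        (by rw [zero_smul]; exact h0) (opK_eq_smul_of_ae hA hψ (hval ψ hψ))
      simpa using h1.symm
    obtain ⟨he, hl⟩ := sysData_eig_eq (hdata ⟨x, hAx⟩) hA hg hψ hΨ (hval ψ hψ) hx
    exact ⟨⟨x, hAx⟩, Finset.mem_filter.2 ⟨hfin.mem_toFinset.2 hl, he⟩, rfl⟩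

variable {A : SKer F S}

/-- Eigenvalues are bounded independently of the function. -/
lemma EigFam.eig_bound (Z : EigFam A D) (j : Coord F S) : ∃ M : ℝ, ∀ i, |Z.eig i j| ≤ M := by
  obtain ⟨m, hm⟩ : ∃ m : ℝ, ∀ (Φ : Pt F S → ℂ) (C : ℝ), (∀ p, ‖Φ p‖ ≤ C) →
      ∀ p, ‖opAct (coordOp j) Φ p‖ ≤ m * C := by
    rcases hj : coordOp j with ⟨v, l⟩ | ⟨u, a⟩
    · exact ⟨l.mass, fun Φ C hC p => norm_locAct_le v l hC p⟩
    · exact ⟨a.mass, fun Φ C hC p => norm_archAct_le u a hC p⟩
  refine ⟨m, fun i => ?_⟩
  obtain ⟨C₀, hC₀⟩ := (Z.data i).bounded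
  obtain ⟨p₀, hp₀⟩ := Z.nonzero i
  have : Nonempty (Pt F S) := ⟨p₀⟩
  set s := ⨆ p, ‖Z.Φ i p‖ with hs
  have hbdd : BddAbove (Set.range fun p => ‖Z.Φ i p‖) := ⟨C₀, by rintro _ ⟨p, rfl⟩; exact hC₀ p⟩
  have hsp : ∀ p, ‖Z.Φ i p‖ ≤ s := le_ciSup hbdd
  have hs0 : 0 < s := (norm_pos_iff.2 hp₀).trans_le (hsp p₀)
  refine le_of_mul_le_mul_right ?_ hs0
  rw [hs, Real.mul_iSup_of_nonneg (abs_nonneg _)]
  refine ciSup_le fun p => ?_
  rw [← Real.norm_eq_abs, ← Complex.norm_real, ← norm_mul, ← (Z.data i).eig j]
  exact hm _ _ hsp p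

/-- The eigenvalue of `A` on a system is its value there. -/
lemma EigFam.lam_eq (Z : EigFam A D) {c : ℂ} {e : Coord F S → ℝ}
    (hval : ∀ Ψ : Pt F S → ℂ, Joint e Ψ → ∀ ψ : DomL2 D, ψ =ᵐ[domMeasure D] Ψ →
      ∀ p, A.appP ψ p = c * Ψ p) {i : Z.I} (hi : Z.eig i = e) : (Z.lam i : ℂ) = c := by
  obtain ⟨b, hb, hAb⟩ := Z.appA i
  obtain ⟨p, hp⟩ := Z.nonzero i
  exact mul_right_cancel₀ hp ((hAb p).symm.trans (hval _ (hi ▸ Z.data i) b hb p))

/-- A system with nonzero value is finite. -/
lemma EigFam.finite_sys (Z : EigFam A D) {c : ℂ} (hc : c ≠ 0) {e : Coord F S → ℝ}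
    (hval : ∀ Ψ : Pt F S → ℂ, Joint e Ψ → ∀ ψ : DomL2 D, ψ =ᵐ[domMeasure D] Ψ →
      ∀ p, A.appP ψ p = c * Ψ p) : {i | Z.eig i = e}.Finite := by
  have h0 : (0 : ℝ) < ‖c‖ ^ 2 := by positivity
  refine (Z.summ.tendsto_cofinite_zero.eventually (gt_mem_nhds h0)).subset fun i hi => ?_
  simp only [Set.mem_compl_iff, Set.mem_ofPred_eq, not_lt] at hi ⊢
  rw [← Z.lam_eq hval hi, Complex.norm_real, Real.norm_eq_abs, sq_abs]

/-! ### the value of an operator on a joint eigenfunction -/

/-- The finite part of a product kernel applied to a function. -/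
noncomputable def finApp (K : PKer F S) (Φ : Pt F S → ℂ) (p : Pt F S) : ℂ :=
  ∑ ν ∈ (K.finite_row p.1).toFinset, K.fin p.1 ν * Φ (ν, p.2)

/-- The finite sum over any larger finite set. -/
lemma finApp_eq (K : PKer F S) (Φ : Pt F S → ℂ) (p : Pt F S) {T : Finset (FinPt F S)}
    (hT : (K.finite_row p.1).toFinset ⊆ T) : finApp K Φ p = ∑ ν ∈ T, K.fin p.1 ν * Φ (ν, p.2) :=
  Finset.sum_subset hT fun ν _ hν => by
    simp only [Set.Finite.mem_toFinset, Set.mem_ofPred_eq, not_not] at hν
    rw [hν, zero_mul]

/-- The finite sums scale an eigenfunction of all the factors by the product of its eigenvalues. -/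
theorem finApp_eigen {Φ : Pt F S → ℂ} : ∀ (T : Finset (Place F)) (K : PKer F S) (c : Place F → ℂ),
    (∀ v ∉ T, K.loc v = LKer.one S v) → (∀ v ∈ T, ∀ p, locAct v (K.loc v) Φ p = c v * Φ p) →
    ∀ p, finApp K Φ p = (∏ v ∈ T, c v) * Φ p := by
  intro T
  induction T using Finset.induction with
  | empty =>
    intro K c hK _ p
    have hone : ∀ ν, K.fin p.1 ν = if ν = p.1 then 1 else 0 := fun ν => by
      split_ifs with h
      · subst h
        exact finprod_eq_one_of_forall_eq_one fun v => by rw [hK v (by simp)]; simp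
      · by_contra hne
        refine h (Subtype.ext (funext fun v => ?_))
        have := (K.fin_ne_zero.1 hne) v
        rw [hK v (by simp)] at this
        simp at this
        exact this.symm
    rw [finApp_eq K Φ p (T := insert p.1 (K.finite_row p.1).toFinset) (Finset.subset_insert _ _)]
    simp [hone]
  | insert v T hv ih =>
    intro K c hK hfix p
    -- peel off the kernel at `v`
    set K' : PKer F S := ⟨Function.update K.loc v (LKer.one S v), by
      filter_upwards [K.ae_one] with u hu
      by_cases h : u = v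
      · subst h; rw [Function.update_self]
      · rw [Function.update_of_ne h]; exact hu, K.arch⟩ with hK'
    have h1 : ∀ ν, K.fin p.1 ν
        = ∑ y ∈ (K.loc v).row (p.1.1 v), K.loc v (p.1.1 v) y * K'.fin (p.1.set v y) ν := by
      intro ν
      have hloc : (K'.actLoc v (K.loc v)).loc = K.loc := funext fun u => by
        by_cases h : u = v
        · subst h
          simp [PKer.actLoc, hK', LKer.comp_one]
        · simp [PKer.actLoc, hK', Function.update_of_ne h]
      rw [← K'.fin_actLoc v (K.loc v), PKer.fin, PKer.fin, hloc]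
    have h2 : ∀ q, finApp K' Φ q = (∏ v ∈ T, c v) * Φ q := ih K' c (fun u hu => by
        by_cases h : u = v
        · subst h; simp [hK']
        · simp only [hK', Function.update_of_ne h]
          exact hK u (by simp [h, hu]))
      (fun u hu q => by
        have h : u ≠ v := fun h => hv (h ▸ hu)
        have hh := hfix u (Finset.mem_insert_of_mem hu) q
        simp only [hK', Function.update_of_ne h]
        exact hh)
    set T' := (K.finite_row p.1).toFinset ∪
      ((K.loc v).row (p.1.1 v)).biUnion fun y => (K'.finite_row (p.1.set v y)).toFinset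
    rw [finApp_eq K Φ p (T := T') Finset.subset_union_left]
    simp only [h1, Finset.sum_mul]
    rw [Finset.sum_comm, Finset.prod_insert hv, mul_comm (c v), mul_assoc,
      ← hfix v (Finset.mem_insert_self v T) p, locAct, Finset.mul_sum]
    refine Finset.sum_congr rfl fun y hy => ?_
    rw [mul_left_comm, ← h2 (p.1.set v y, p.2), finApp_eq K' Φ (p.1.set v y, p.2) (T := T'),
      Finset.mul_sum]
    · exact Finset.sum_congr rfl fun ν _ => mul_assoc _ _ _
    · exact (Finset.subset_biUnion_of_mem (fun y =>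
        (K'.finite_row (p.1.set v y)).toFinset) hy).trans Finset.subset_union_right

/-- A product kernel times a bounded function is integrable. -/
lemma integrable_val_fun (P : PKer F S) (p : Pt F S) (hm : Measurable Φ) {C : ℝ}
    (hC : ∀ q, ‖Φ q‖ ≤ C) : Integrable (fun q => P.val p q * Φ q) ptMeasure := by
  have : DiscreteMeasurableSpace (FinPt F S) := ⟨fun _ => trivial⟩
  have hIinf : Integrable (fun y : InfinitePlace F → H3 => P.inf p.2 y)
      (Measure.pi fun _ => hmeas) :=
    Integrable.fintype_prod (f := fun w y => P.arch w (p.2 w) y) fun w =>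
      (P.arch w).integrable (p.2 w)
  refine Integrable.mul_bdd ?_ hm.aestronglyMeasurable (Eventually.of_forall hC)
  rw [show P.val p = fun q => ∑ ω ∈ (P.finite_row p.1).toFinset,
      (Set.indicator {ω} (fun _ => P.fin p.1 ω) q.1) * P.inf p.2 q.2 from funext fun q => by
    rw [P.val_eq_sum]
    refine Finset.sum_congr rfl fun ω _ => ?_
    by_cases h : q.1 = ω
    · subst h; simp
    · simp [h]]
  refine integrable_finsetSum _ fun ω _ => ?_
  unfold ptMeasure
  refine Integrable.mul_prod (f := Set.indicator {ω} fun _ => P.fin p.1 ω) ?_ hIinf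
  rw [integrable_indicator_iff (measurableSet_singleton ω)]
  exact integrableOn_const (by simp)

/-- A product kernel scales an eigenfunction of all its factors by the product of the
eigenvalues. -/
theorem integral_val_eigen (P : PKer F S) {T : Finset (Place F)} {c : Place F → ℂ}
    {d : InfinitePlace F → ℂ} (hout : ∀ v ∉ T, P.loc v = LKer.one S v)
    (hfin : ∀ v ∈ T, ∀ p, locAct v (P.loc v) Φ p = c v * Φ p)
    (harch : ∀ w p, archAct w (P.arch w) Φ p = d w * Φ p)
    (hc : ∀ ω, Continuous fun x : InfinitePlace F → H3 => Φ (ω, x)) {C : ℝ}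
    (hC : ∀ q, ‖Φ q‖ ≤ C) (p : Pt F S) :
    ∫ q, P.val p q * Φ q ∂ptMeasure = (∏ v ∈ T, c v) * (∏ w, d w) * Φ p := by
  have : DiscreteMeasurableSpace (FinPt F S) := ⟨fun _ => trivial⟩
  have hint : Integrable (fun q => P.val p q * Φ q)
      ((Measure.count : Measure (FinPt F S)).prod (Measure.pi fun _ => hmeas)) :=
    integrable_val_fun P p (measurable_of_slices hc) hC
  change ∫ q, P.val p q *
    Φ q ∂((Measure.count : Measure (FinPt F S)).prod (Measure.pi fun _ => hmeas)) = _
  rw [integral_prod _ hint, integral_countable hint.integral_prod_left,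
    tsum_eq_sum (s := (P.finite_row p.1).toFinset) fun ν hν => ?_]
  swap
  · simp only [Set.Finite.mem_toFinset, Set.mem_ofPred_eq, not_not] at hν
    simp [PKer.val, hν]
  rw [mul_comm (∏ v ∈ T, c v), mul_assoc, ← finApp_eigen T P c hout hfin p, finApp, Finset.mul_sum]
  refine Finset.sum_congr rfl fun ν _ => ?_
  have h2 : ∀ y : InfinitePlace F → H3, P.val p (ν, y) * Φ (ν, y)
      = P.fin p.1 ν * ((∏ w, P.arch w (p.2 w) (y w)) * Φ (ν, y)) := fun y => mul_assoc _ _ _
  simp only [h2, integral_const_mul, measureReal_def, Measure.count_singleton, ENNReal.toReal_one,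
    one_smul]
  rw [integral_prod_eigen P.arch d (fun y => Φ (ν, y)) (hc ν) C (fun y => hC _)
    (fun w x => harch w (ν, x))]
  ring

/-- An infinite radial kernel of the operator. -/
noncomputable def radH (H : H.Data F S) (E : Finset (H.Idx → Bool)) (w : InfinitePlace F) : Rad :=
  ⟨H.radF E w, (H.contDiff_radF E w).continuous, H.hasCompactSupport_radF E w⟩

/-- The value of the operator at a point of the spectrum. -/
noncomputable def valH (H : H.Data F S) (e : Coord F S → ℝ) : ℂ :=
  ∑ E : Finset (H.Idx → Bool), Fermat.LTG.H.coef E *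
    ((∏ v : H.T, (Fermat.LTG.H.halfSym (pnorm v.1) (H.expAt E v)).eval
        (e (Sum.inl ⟨v.1, H.notMem v.1 v.2⟩) : ℂ)) *
      ∏ w, (e (Sum.inr (w, radH H E w)) : ℂ))

/-- The value of the operator at the point of `lam` as a sum over patterns. -/
lemma valH_lamCoord (H : H.Data F S) (lam : Place F → ℝ) :
    valH H (lamCoord lam) = ∑ E : Finset (H.Idx → Bool), Fermat.LTG.H.coef E *
      ((∏ v : H.T, (Fermat.LTG.H.halfSym (pnorm v.1) (H.expAt E v)).eval (lam v.1 : ℂ)) *
        ∏ w, hhat0 (H.radF E w)) := by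
  refine Finset.sum_congr rfl fun E _ => ?_
  congr 2
  exact Finset.prod_congr rfl fun w _ => lamCoord_inr lam _

/-- **Joint eigenfunctions are eigenvectors of the operator.** -/
theorem appP_ker (hD : IsFundamentalDomain (PG F) D ptMeasure) (H : H.Data F S) (h : Joint e Φ)
    {φ : DomL2 D} (hφ : φ =ᵐ[domMeasure D] Φ) (p : Pt F S) :
    H.ker.appP φ p = valH H e * Φ p := by
  obtain ⟨C, hC⟩ := h.bounded
  have hm := measurable_of_slices h.continuous
  -- the kernel is a finite sum of terms, each integrable against `Φ`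
  have hval : ∀ q, H.ker.val p q * Φ q
      = ∑ E : Finset (H.Idx → Bool), Fermat.LTG.H.coef E * ((H.term E).val p q * Φ q) := fun q => by
    rw [H.Data.ker, SKer.val_ofFintype, Finset.sum_mul]
    exact Finset.sum_congr rfl fun E _ => mul_assoc _ _ _
  have hintE : ∀ E : Finset (H.Idx → Bool),
      Integrable (fun q => Fermat.LTG.H.coef E * ((H.term E).val p q * Φ q)) ptMeasure := fun E =>
    (integrable_val_fun (H.term E) p hm hC).const_mul _
  have hint : Integrable (fun q => H.ker.val p q * Φ q) ptMeasure := by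
    simp only [hval]
    exact integrable_finsetSum _ fun E _ => hintE E
  -- unfold the sum over `PG F` by the invariance of `Φ`
  have h1 : H.ker.appP φ p = ∫ q, H.ker.val p q * Φ q ∂ptMeasure := by
    rw [← integral_domain_tsum hD hint, SKer.appP]
    refine integral_congr_ae ?_
    filter_upwards [hφ] with q hq
    rw [hq, SKer.kap, ← tsum_mul_right]
    refine tsum_congr fun γ => ?_
    obtain ⟨g, rfl⟩ := QuotientGroup.mk_surjective γ
    rw [PG.mk_smul, isInvariant_iff.1 h.invariant]
  simp only [h1, hval]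
  -- each term acts on `Φ` by the product of its local eigenvalues
  rw [integral_finsetSum _ fun E _ => hintE E, valH, Finset.sum_mul]
  refine Finset.sum_congr rfl fun E _ => ?_
  rw [integral_const_mul, integral_val_eigen (H.term E) (T := H.T)
    (c := fun v => if hv : v ∈ H.T then
      (Fermat.LTG.H.halfSym (pnorm v) (H.expAt E ⟨v, hv⟩)).eval
        (e (Sum.inl ⟨v, H.notMem v hv⟩) : ℂ) else 0)
    (d := fun w => (e (Sum.inr (w, radH H E w)) : ℂ))
    (fun v hv => H.term_loc_not E hv)
    (fun v hv q => by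
      rw [dif_pos hv, H.term_loc_mem E hv,
        locAct_sphKer_eval (H.notMem v hv) (h.good ⟨v, H.notMem v hv⟩)])
    (fun w q => h.arch w (radH H E w) q) h.continuous hC p, ← mul_assoc, ← mul_assoc,
    ← Finset.prod_coe_sort H.T]
  rw [Finset.prod_congr rfl fun (v : ↥H.T) _ => dif_pos v.2]
  exact congrArg (· * Φ p) (mul_assoc _ _ _)

end Fermat.LTG.Sys
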