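import Fermat.Agent.LT.Sys.Assembly
import Fermat.Agent.LTG.Test

/-!
# Systems: the flip of the atoms

Two weighted families of points with the same densities at odd polynomials at split good places:
if the upper atom at the point of `lam` is nonzero, some lower point is the point of `lam`.
-/

set_option autoImplicit false
open MeasureTheory Filter Set NumberField Polynomial
open scoped Classical

namespace Fermat.LTG.Sys

open Fermat.LT

variable {K L : Type} [Field K] [NumberField K] [Field L] [NumberField L] [Algebra K L]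
  {σ : L ≃ₐ[K] L}

/-- Coordinates: the places of `L` off the level and the radial functions at infinity. -/
abbrev FlipJ (B : Block K L σ) : Type :=
  {w : Place L // w ∉ B.T} ⊕ (InfinitePlace L × LT.Sys.Rad)

variable {B : Block K L σ}

/-- The values of the coordinates at `lam` and at parameter zero at infinity. -/
noncomputable def flipPt (lam : Place L → ℝ) : FlipJ B → ℝ :=
  Sum.elim (fun w => lam w.1) fun j => (hhat0 j.2.1).re

/-- Coordinates allowed in the flip at `w0` over `v0`. -/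
def FlipOkay (v0 : Place K) (w0 : Place L) : FlipJ B → Prop
  | Sum.inl w => below K w.1 = v0 → w.1 = w0
  | Sum.inr _ => True

/-- Coordinates avoiding `v0`. -/
def FlipAvoid (v0 : Place K) : FlipJ B → Prop
  | Sum.inl w => below K w.1 ≠ v0
  | Sum.inr _ => True

/-- The densities of the comparison at a split place. -/
def FlipDens {I : Type*} (a : I → ℂ) (x : I → FlipJ B → ℝ) (v0 : Place K)
    (w0 : {w : Place L // w ∉ B.T}) : Prop :=
  ∀ l : List (FlipJ B), (∀ j ∈ l, FlipAvoid v0 j) → ∃ g : ℝ → ℂ, Continuous g ∧ ∀ r : ℝ[X],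
    HasSum (fun i => a i * (((l.map fun j => x i j).prod *
        (x i (Sum.inl w0) * r.eval (x i (Sum.inl w0) ^ 2)) : ℝ) : ℂ))
      (∫ θ in (0 : ℝ)..(2 * Real.pi),
          (((2 * Real.sqrt (pnorm v0)) * Real.cos θ
            * r.eval (((2 * Real.sqrt (pnorm v0)) * Real.cos θ) ^ 2) : ℝ) : ℂ) * g θ)

/-- **The atoms are symmetric under a flip.** -/
theorem atom_flip {I : Type*} {a : I → ℂ} {x : I → FlipJ B → ℝ} (ha : Summable fun i => ‖a i‖)
    (hb : ∀ j, ∃ M : ℝ, ∀ i, |x i j| ≤ M) {v0 : Place K} {w0 : {w : Place L // w ∉ B.T}}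
    (hdens : FlipDens a x v0 w0) (y : FlipJ B → ℝ) (hy : y (Sum.inl w0) ≠ 0) :
    let j0 : {j : FlipJ B // FlipOkay v0 w0.1 j} := ⟨Sum.inl w0, fun _ => rfl⟩
    atom a (fun i (j : {j : FlipJ B // FlipOkay v0 w0.1 j}) => x i j.1) (fun j => y j.1)
      = atom a (fun i (j : {j : FlipJ B // FlipOkay v0 w0.1 j}) => x i j.1)
          (setCoord j0 (-(y (Sum.inl w0))) fun j => y j.1) := by
  intro j0
  have hR : (0 : ℝ) < 2 * Real.sqrt (pnorm v0) := by
    have h0 : 0 < pnorm v0 := Nat.pos_of_ne_zero fun h => v0.ne_bot (Ideal.absNorm_eq_zero_iff.1 h)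
    have : (0 : ℝ) < (pnorm v0 : ℝ) := by exact_mod_cast h0
    positivity
  refine atom_eq_flip_of_lists ha hb (av := FlipAvoid v0) (fun j hj => ?_) j0 (fun j hne => ?_)
    hR hdens y hy
  · rcases j with (w | w)
    · exact fun e => absurd e hj
    · trivial
  · rcases j with ⟨(w | w), hok⟩
    · exact fun e => hne (Subtype.ext (congrArg Sum.inl (Subtype.ext (hok e))))
    · trivial

/-- The bounds of two families bound their union. -/
lemma exists_bound_elim {I I' : Type*} {J : Type*} {x : I → J → ℝ} {x' : I' → J → ℝ}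
    (hb : ∀ j, ∃ M : ℝ, ∀ i, |x i j| ≤ M) (hb' : ∀ j, ∃ M : ℝ, ∀ i, |x' i j| ≤ M) :
    ∀ j, ∃ M : ℝ, ∀ i, |Sum.elim x x' i j| ≤ M := fun j => by
  obtain ⟨M, hM⟩ := hb j
  obtain ⟨M', hM'⟩ := hb' j
  exact ⟨max M M', fun i => Sum.rec (fun a => (hM a).trans (le_max_left _ _))
    (fun b => (hM' b).trans (le_max_right _ _)) i⟩

/-- The atom of the difference of two families is the difference of the atoms. -/
lemma atom_elim_neg {I I' J : Type*} {a : I → ℂ} {a' : I' → ℂ} (ha : Summable fun i => ‖a i‖)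
    (ha' : Summable fun i => ‖a' i‖) (x : I → J → ℝ) (x' : I' → J → ℝ) {J' : Type*} (p : J' → J)
    (y : J' → ℝ) :
    atom (Sum.elim a fun i => -a' i) (fun i j => Sum.elim x x' i (p j)) y
      = (∑' i, Set.indicator {i : I | (fun j => x i (p j)) = y} a i)
        - ∑' i, Set.indicator {i : I' | (fun j => x' i (p j)) = y} a' i := by
  rw [atom, Summable.tsum_sum, sub_eq_add_neg, ← tsum_neg]
  · congr 1
    refine tsum_congr fun i => ?_
    by_cases hi : (fun j => x' i (p j)) = y
    · rw [Set.indicator_of_mem (show Sum.inr i ∈ _ from hi),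
        Set.indicator_of_mem (show i ∈ _ from hi)]
      rfl
    · rw [Set.indicator_of_notMem (show Sum.inr i ∉ _ from hi),
        Set.indicator_of_notMem (show i ∉ _ from hi), neg_zero]
  · exact ((Summable.of_norm ha).indicator {i : I | (fun j => x i (p j)) = y}).congr fun i => rfl
  · exact ((Summable.of_norm (f := fun i => -a' i) (by simpa using ha')).indicator
      {i : I' | (fun j => x' i (p j)) = y}).congr fun i => rfl

/-- The restriction of `y` to the coordinates allowed in the flip at `w0` over `v0`. -/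
abbrev flipRes (v0 : Place K) (w0 : Place L) (y : FlipJ B → ℝ) :
    {j : FlipJ B // FlipOkay v0 w0 j} → ℝ :=
  fun j => y j.1

/-- The point of `lam` flipped at `w0`, over `v0`. -/
noncomputable def flipNeg (lam : Place L → ℝ) (v0 : Place K) (w0 : {w : Place L // w ∉ B.T}) :
    {j : FlipJ B // FlipOkay v0 w0.1 j} → ℝ :=
  setCoord ⟨Sum.inl w0, fun _ => rfl⟩ (-(flipPt lam (Sum.inl w0))) (flipRes v0 w0.1 (flipPt lam))

/-- Off the place `w0` the flipped point is the point of `lam`. -/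
lemma flipNeg_apply_ne {lam : Place L → ℝ} {v0 : Place K} {w0 : {w : Place L // w ∉ B.T}}
    {j : {j : FlipJ B // FlipOkay v0 w0.1 j}} (hj : j.1 ≠ Sum.inl w0) :
    flipNeg lam v0 w0 j = flipPt lam j.1 :=
  LT.Sys.setCoord_ne (fun e => hj (congrArg Subtype.val e)) _ _

/-- At the place `w0` the flipped point is minus the value of `lam`. -/
lemma flipNeg_apply_self {lam : Place L → ℝ} {v0 : Place K} {w0 : {w : Place L // w ∉ B.T}}
    (h : FlipOkay v0 w0.1 (Sum.inl w0 : FlipJ B)) : flipNeg lam v0 w0 ⟨Sum.inl w0, h⟩ = -lam w0.1 :=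
  LT.Sys.setCoord_self _ _ _

/-- The flipped points at different places differ. -/
lemma flipNeg_disjoint {lam : Place L → ℝ} {s t : Place K} {ws wt : {w : Place L // w ∉ B.T}}
    (hs : LiesOver K L ws.1 s) (ht : LiesOver K L wt.1 t) (hne : lam ws.1 ≠ 0) (hst : s ≠ t)
    {y : FlipJ B → ℝ} (h : flipRes s ws.1 y = flipNeg lam s ws) :
    flipRes t wt.1 y ≠ flipNeg lam t wt := by
  intro h'
  have h1 := (congrFun h ⟨Sum.inl ws, fun _ => rfl⟩).trans (flipNeg_apply_self _)
  have h2 := congrFun h' ⟨Sum.inl ws, fun e => absurd ((liesOver_iff_below.1 hs).symm.trans e) hst⟩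
  rw [flipNeg_apply_ne fun e => hst (by
    rw [← liesOver_iff_below.1 hs, show ws = wt from Sum.inl.inj e]
    exact liesOver_iff_below.1 ht)] at h2
  simp only [flipRes, flipPt, Sum.elim_inl] at h1 h2
  exact hne (by linarith)

/-- Below, a point equal to the point of `lam` at the allowed coordinates is that point. -/
lemma flip_lower_full (hc : Cyc3 K L σ) {lam : Place L → ℝ}
    (hlam : ∀ w, lam (mapPlace (σ : L ≃+* L) w) = lam w) {IK : Type*} {xK : IK → FlipJ B → ℝ}
    {eK : IK → {v : Place K // v ∉ B.S} → ℝ}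
    (hxK : ∀ i w, xK i (Sum.inl w) = LT.Sys.bcVal K w.1 (eK i ⟨below K w.1, below_notMem w.2⟩))
    {v : Place K} {w0 : {w : Place L // w ∉ B.T}} (hw : LiesOver K L w0.1 v)
    (hwn : pnorm w0.1 = pnorm v) :
    {i : IK | flipRes v w0.1 (xK i) = flipRes v w0.1 (flipPt lam)} =
    {i | ∀ j, xK i j = flipPt lam j} := by
  ext i
  simp only [Set.mem_ofPred_eq]
  refine ⟨fun hi j => ?_, fun hi => funext fun j => hi j.1⟩
  by_cases hok : FlipOkay v w0.1 j
  · exact congrFun hi ⟨j, hok⟩
  rcases j with w | j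
  · simp only [FlipOkay, not_forall] at hok
    obtain ⟨hb, -⟩ := hok
    have h0 := congrFun hi ⟨Sum.inl w0, fun _ => rfl⟩
    simp only [flipRes, hxK, flipPt, Sum.elim_inl] at h0 ⊢
    have hbv : below K w0.1 = v := liesOver_iff_below.1 hw
    have hn : pnorm w.1 = pnorm v ∧ lam w.1 = lam w0.1 := by
      rcases hc.eq_or_eq_mapPlace hw (liesOver_iff_below.2 hb) with e | e | e <;> rw [e] <;>
        simp [LT.pnorm_mapPlace, hwn, hlam]
    simp only [LT.Sys.bcVal, hb, hbv, hn.1, if_true] at h0 ⊢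
    rw [hn.2, ← h0, if_pos hwn]
  · exact absurd trivial hok

/-- Above, the sub-sum at the allowed coordinates is the sub-sum at the point of `lam`. -/
lemma flip_upper_full (hc : Cyc3 K L σ) {lam : Place L → ℝ} {IL : Type*} {aL : IL → ℂ}
    {xL : IL → FlipJ B → ℝ}
    (hsep : ∀ i : IL, ∀ Z : Set (Place L), Z.Finite →
      (∀ w : {w : Place L // w ∉ B.T}, w.1 ∉ Z → xL i (Sum.inl w) = lam w.1) →
      (∀ j, xL i (Sum.inr j) = flipPt (B := B) lam (Sum.inr j)) →
        aL i = 0 ∨ ∀ j, xL i j = flipPt lam j)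
    (v : Place K) (w0 : Place L) (i : IL) :
    Set.indicator {i : IL | flipRes v w0 (xL i) = flipRes v w0 (flipPt lam)} aL i
      = Set.indicator {i | ∀ j, xL i j = flipPt lam j} aL i := by
  simp only [Set.indicator_apply, Set.mem_ofPred_eq]
  by_cases hfull : ∀ j, xL i j = flipPt lam j
  · rw [if_pos hfull]
    exact if_pos (funext fun j : {j : FlipJ B // FlipOkay v w0 j} => hfull j.1)
  · rw [if_neg hfull]
    split_ifs with hi
    · refine (hsep i (placesOver K L v) (hc.finite_placesOver v) (fun w hwZ => ?_) fun j =>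
        ?_).resolve_right hfull
      · exact congrFun hi ⟨Sum.inl w, fun e => absurd (liesOver_iff_below.2 e) hwZ⟩
      · exact congrFun hi ⟨Sum.inr j, trivial⟩
    · rfl

/-- Above, no nonzero atom sits on a flipped point. -/
lemma flip_upper_flipped (hc : Cyc3 K L σ) {lam : Place L → ℝ} {IL : Type*} {aL : IL → ℂ}
    {xL : IL → FlipJ B → ℝ}
    (hsep : ∀ i : IL, ∀ Z : Set (Place L), Z.Finite →
      (∀ w : {w : Place L // w ∉ B.T}, w.1 ∉ Z → xL i (Sum.inl w) = lam w.1) →
      (∀ j, xL i (Sum.inr j) = flipPt (B := B) lam (Sum.inr j)) →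
        aL i = 0 ∨ ∀ j, xL i j = flipPt lam j)
    {v : Place K} {w0 : {w : Place L // w ∉ B.T}} (hw : LiesOver K L w0.1 v) (hwl : lam w0.1 ≠ 0)
    (i : IL) : Set.indicator {i : IL | flipRes v w0.1 (xL i) = flipNeg lam v w0} aL i = 0 := by
  simp only [Set.indicator_apply_eq_zero, Set.mem_ofPred_eq]
  intro hi
  have hne : ∀ (j : FlipJ B) (hj : FlipOkay v w0.1 j), j ≠ Sum.inl w0 → xL i j = flipPt lam j :=
    fun j hj hne => (congrFun hi ⟨j, hj⟩).trans (flipNeg_apply_ne hne)
  refine (hsep i (placesOver K L v) (hc.finite_placesOver v) (fun w hwZ => ?_) fun j =>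
    ?_).resolve_right fun hfull => ?_
  · refine hne (Sum.inl w) (fun e => absurd (liesOver_iff_below.2 e) hwZ) fun e => hwZ ?_
    rw [Sum.inl.inj e]
    exact hw
  · exact hne (Sum.inr j) trivial Sum.inr_ne_inl
  · have h0 := (congrFun hi ⟨Sum.inl w0, fun _ => rfl⟩).trans (flipNeg_apply_self _)
    simp only [flipRes, hfull, flipPt, Sum.elim_inl] at h0
    exact hwl (by linarith)

/-- The differences of the atoms of two families are symmetric under a flip. -/
lemma atom_flip_elim {IK IL : Type*} {aK : IK → ℂ} {aL : IL → ℂ} (haK : Summable fun i => ‖aK i‖)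
    (haL : Summable fun i => ‖aL i‖) {xK : IK → FlipJ B → ℝ} {xL : IL → FlipJ B → ℝ}
    (hbK : ∀ j, ∃ M : ℝ, ∀ i, |xK i j| ≤ M) (hbL : ∀ j, ∃ M : ℝ, ∀ i, |xL i j| ≤ M) {v0 : Place K}
    {w0 : {w : Place L // w ∉ B.T}}
    (hdens : FlipDens (Sum.elim aK fun i => -aL i) (Sum.elim xK xL) v0 w0) {lam : Place L → ℝ}
    (hwl : lam w0.1 ≠ 0) :
    (∑' i, Set.indicator {i : IK | flipRes v0 w0.1 (xK i) = flipRes v0 w0.1 (flipPt lam)} aK i)
        - ∑' i, Set.indicator {i : IL | flipRes v0 w0.1 (xL i) = flipRes v0 w0.1 (flipPt lam)} aL i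
      = (∑' i, Set.indicator {i : IK | flipRes v0 w0.1 (xK i) = flipNeg lam v0 w0} aK i)
        - ∑' i, Set.indicator {i : IL | flipRes v0 w0.1 (xL i) = flipNeg lam v0 w0} aL i := by
  have haa : Summable fun i => ‖Sum.elim aK (fun i => -aL i) i‖ :=
    Summable.sum _ haK (by simpa [Function.comp_def] using haL)
  have h := atom_flip haa (exists_bound_elim hbK hbL) hdens (flipPt lam) hwl
  dsimp only at h
  rw [atom_elim_neg haK haL xK xL, atom_elim_neg haK haL xK xL] at h
  exact h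

/-- **Some lower point is the point of `lam`.** -/
theorem exists_eq_flipPt (hc : Cyc3 K L σ) {lam : Place L → ℝ}
    (hlam : ∀ w, lam (mapPlace (σ : L ≃+* L) w) = lam w) {Bad : Set (Place K)} (hBad : Bad.Finite)
    {IK IL : Type*} {aK : IK → ℂ} {aL : IL → ℂ} (haK : Summable fun i => ‖aK i‖)
    (haL : Summable fun i => ‖aL i‖) {xK : IK → FlipJ B → ℝ} {xL : IL → FlipJ B → ℝ}
    (hbK : ∀ j, ∃ M : ℝ, ∀ i, |xK i j| ≤ M) (hbL : ∀ j, ∃ M : ℝ, ∀ i, |xL i j| ≤ M)
    {eK : IK → {v : Place K // v ∉ B.S} → ℝ}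
    (hxK : ∀ i w, xK i (Sum.inl w) = LT.Sys.bcVal K w.1 (eK i ⟨below K w.1, below_notMem w.2⟩))
    (hdens : ∀ v0 : Place K, v0 ∉ B.S → v0 ∉ Bad → ∀ w0 : {w : Place L // w ∉ B.T},
      LiesOver K L w0.1 v0 → pnorm w0.1 = pnorm v0 →
        FlipDens (Sum.elim aK fun i => -aL i) (Sum.elim xK xL) v0 w0)
    (hsep : ∀ i : IL, ∀ Z : Set (Place L), Z.Finite →
      (∀ w : {w : Place L // w ∉ B.T}, w.1 ∉ Z → xL i (Sum.inl w) = lam w.1) →
      (∀ j, xL i (Sum.inr j) = flipPt (B := B) lam (Sum.inr j)) →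
        aL i = 0 ∨ ∀ j, xL i j = flipPt lam j)
    (hsum : ∑' i, Set.indicator {i | ∀ j, xL i j = flipPt lam j} aL i ≠ 0)
    (hsplit : {v : Place K | ∃ w : Place L, LiesOver K L w v ∧ pnorm w = pnorm v ∧
      lam w ≠ 0}.Infinite) :
    ∃ i : IK, ∀ j, xK i j = flipPt lam j := by
  by_contra hno
  set A0 : ℂ := (∑' i, Set.indicator {i | ∀ j, xK i j = flipPt lam j} aK i)
    - ∑' i, Set.indicator {i | ∀ j, xL i j = flipPt lam j} aL i with hA0def
  set N : Set (Place K) :=
    {v : Place K | ∃ w : Place L, LiesOver K L w v ∧ pnorm w = pnorm v ∧ lam w ≠ 0} \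
      ({v | v ∈ B.S} ∪ Bad)
  have hN : N.Infinite := hsplit.sdiff (B.S.finite.union hBad)
  have : Nonempty (Place L) := ⟨(exists_liesOver (L := L) hN.nonempty.choose).choose⟩
  choose! wOf hw hwn hwl using fun (v : Place K) (h : v ∈ N) => h.1
  have hwT : ∀ v ∈ N, wOf v ∉ B.T := fun v hv h => hv.2 (Or.inl ((B.mem_iff (hw v hv)).1 h))
  -- flipping at infinitely many split places gives disjoint sets, all of total `A0`
  let flipSet : Place K → Set IK := fun v =>
    {i | ∀ h : v ∈ N, flipRes v (wOf v) (xK i) = flipNeg lam v ⟨wOf v, hwT v h⟩}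
  have hd : ∀ s ∈ N, ∀ t ∈ N, s ≠ t → Disjoint (flipSet s) (flipSet t) := fun s hs t ht hst =>
    Set.disjoint_left.2 fun i hi hi' => flipNeg_disjoint (ws := ⟨wOf s, hwT s hs⟩)
      (wt := ⟨wOf t, hwT t ht⟩) (hw s hs) (hw t ht) (hwl s hs) hst (hi hs) (hi' ht)
  have hflip : ∀ v ∈ N, ∑' i, (flipSet v).indicator aK i = A0 := by
    intro v hv
    set w0 : {w : Place L // w ∉ B.T} := ⟨wOf v, hwT v hv⟩
    have h' := atom_flip_elim haK haL hbK hbL
      (hdens v (fun e => hv.2 (Or.inl e)) (fun e => hv.2 (Or.inr e)) w0 (hw v hv)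
        (hwn v hv)) (hwl v hv)
    rw [flip_lower_full (w0 := w0) hc hlam hxK (hw v hv) (hwn v hv),
      tsum_congr (flip_upper_full hc hsep v w0.1),
      tsum_congr (flip_upper_flipped (w0 := w0) hc hsep (hw v hv) (hwl v hv)), tsum_zero,
        sub_zero] at h'
    rw [show flipSet v = {i | flipRes v w0.1 (xK i) = flipNeg lam v w0} from
      Set.ext fun i => ⟨fun hi => hi hv, fun hi _ => hi⟩]
    exact h'.symm
  have hA0 : A0 = 0 := LT.Sys.eq_zero_of_disjoint haK flipSet hN hd hflip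
  refine hsum ?_
  rw [hA0def, sub_eq_zero] at hA0
  have hz : ∀ i, Set.indicator {i : IK | ∀ j, xK i j = flipPt lam j} aK i = 0 := fun i =>
    Set.indicator_of_notMem (s := {i : IK | ∀ j, xK i j = flipPt lam j}) (fun h => hno ⟨i, h⟩) _
  rw [← hA0, tsum_congr hz, tsum_zero]

end Fermat.LTG.Sys
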