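import Fermat.Agent.LT.Sys.Compare
import Fermat.Agent.LTG.CuspAuto
import Fermat.Agent.LTG.Test

/-!
# Systems: a system on `K` at the point of `lam` is a form lifting to it

`isForm_of_eig` gives the form and `lifts_of_bcVal` the lifting.
-/

set_option autoImplicit false
open MeasureTheory Filter Set NumberField Polynomial
open scoped Classical

namespace Fermat.LTG.Sys

open Fermat.LT
open Fermat.LT.Sys (Rad bcVal)

variable {F : Type} [Field F] [NumberField F] {S : Lev F}

/-- Extend eigenvalues to all places. -/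
noncomputable def extEig (e : {v : Place F // v ∉ S} → ℝ) (v : Place F) : ℝ :=
  if h : v ∉ S then e ⟨v, h⟩ else 0

omit [NumberField F] in
/-- The extended eigenvalues outside the level are the given ones. -/
lemma extEig_apply (e : {v : Place F // v ∉ S} → ℝ) {v : Place F} (h : v ∉ S) :
    extEig e v = e ⟨v, h⟩ := dif_pos h

/-- Acting by the transform of every radial kernel gives an archimedean eigenfunction. -/
lemma isArchEigen_of_archAct {Φ : Pt F S → ℂ}
    (hc : ∀ ω, Continuous fun x : InfinitePlace F → H3 => Φ (ω, x))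
    (h : ∀ (u : InfinitePlace F) (k : Rad) p, archAct u k.ker Φ p = hhat0 k.1 * Φ p) :
    IsArchEigen Φ := by
  intro u k hk hs p
  rw [← h u ⟨k, hk, hs⟩ p, hIntegral_eq_integral]
  · rfl
  · exact (((Rad.ker ⟨k, hk, hs⟩).continuous_right (p.2 u)).mul
      ((hc p.1).comp (continuous_const.update u continuous_id))).aestronglyMeasurable

/-- Eigenfunctions of parameter zero are forms. -/
theorem isForm_of_eig [IsTotallyComplex F] {Φ : Pt F S → ℂ} (h0 : ∃ p, Φ p ≠ 0)
    (hinv : IsInvariant Φ) (hc : ∀ ω, Continuous fun x : InfinitePlace F → H3 => Φ (ω, x))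
    (hb : ∃ C : ℝ, ∀ p, ‖Φ p‖ ≤ C) {e : {v : Place F // v ∉ S} → ℝ}
    (hg : ∀ (v : {v : Place F // v ∉ S}) p, locAct v.1 (sphKer v.2 X) Φ p = (e v : ℂ) * Φ p)
    (ha : ∀ (u : InfinitePlace F) (k : Rad) p, archAct u k.ker Φ p = hhat0 k.1 * Φ p) :
    IsForm S ∅ (extEig e) Φ := by
  have harch := isArchEigen_of_archAct hc ha
  exact ⟨h0, hinv, hc, hb, harch, hasZeroConst_of_archEigen hinv hc hb harch, fun v hv _ p => by
    rw [heckeT_eq_locAct hv, hg ⟨v, hv⟩, extEig_apply e hv]⟩

variable {K L : Type} [Field K] [NumberField K] [Field L] [NumberField L] [Algebra K L]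
  {σ : L ≃ₐ[K] L}

/-- Eigenvalues whose base change is `lam` lift to it. -/
lemma lifts_of_bcVal {B : Block K L σ} {e : {v : Place K // v ∉ B.S} → ℝ} {lam : Place L → ℝ}
    (h : ∀ (v : Place K) (hv : v ∉ B.S) (w : Place L), LiesOver K L w v →
      bcVal K w (e ⟨v, hv⟩) = lam w)
    {v : Place K} (hv : v ∉ B.S) {w : Place L} (hw : LiesOver K L w v) :
    (pnorm w = pnorm v → lam w = extEig e v) ∧
      (pnorm w ≠ pnorm v → lam w = extEig e v ^ 3 - 3 * (pnorm v : ℝ) * extEig e v) := by
  rw [extEig_apply e hv, ← h v hv w hw, bcVal, liesOver_iff_below.1 hw]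
  exact ⟨fun hn => if_pos hn, fun hn => if_neg hn⟩

end Fermat.LTG.Sys
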