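import Fermat.Agent.LTG.Sys.Lists

/-!
# Systems: the test kernels of a list of coordinates

A list of coordinates on `L` acts on the base test data; at a further split place one polynomial is
put.  The combinations of the kernels are the composites of the two operators with lists of
operations.
-/

set_option autoImplicit false
open NumberField Filter Set Polynomial
open scoped Classical

namespace Fermat.LTG.Sys

open Fermat.LT
open Fermat.LT.Sys (AEq)

variable {K L : Type} [Field K] [NumberField K] [Field L] [NumberField L] [Algebra K L]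
  {σ : L ≃ₐ[K] L} {B : Block K L σ} (HL : H.Data L B.T) {HK : H.Data K B.S} (G : Lifted (L := L) HK)

/-- The operation on `K` of a coordinate on `L`. -/
noncomputable def opBC : Coord L B.T → Op K B.S
  | Sum.inl w => Sum.inl ⟨below K w.1, sphKer (below_notMem w.2) (bcOf K w.1 X)⟩
  | Sum.inr (w, k) => Sum.inr (w.comap (algebraMap K L), k.ker)

/-- The test data modified by the entries of a list of coordinates. -/
noncomputable def tList (t : TestData B) : List (Coord L B.T) → TestData B
  | [] => t
  | Sum.inl w :: l => mulAt (tList t l) w.1 w.2 X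
  | Sum.inr (u, k) :: l => mulArch (tList t l) u k.ker

/-- A list avoiding `w` keeps a trivial factor at `w`. -/
lemma tList_h_eq_one (t : TestData B) {w : Place L} (ht : t.h w = 1) :
    ∀ l : List (Coord L B.T), (∀ x, Sum.inl x ∈ l → x.1 ≠ w) → (tList t l).h w = 1
  | [], _ => ht
  | Sum.inl x :: l, hl => by
      change Function.update _ x.1 _ w = 1
      rw [Function.update_of_ne (Ne.symm (hl x List.mem_cons_self)),
        tList_h_eq_one t ht l fun y hy => hl y (List.mem_cons_of_mem _ hy)]
  | Sum.inr (u, k) :: l, hl => tList_h_eq_one t ht l fun y hy => hl y (List.mem_cons_of_mem _ hy)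

/-- A Hecke step on `L` multiplies the test data at that place. -/
lemma peq_mulAtL (t : TestData B) (w : Place L) (hw : w ∉ B.T) (p : ℂ[X]) :
    PEq (step (Sum.inl ⟨w, sphKer hw p⟩ : Op L B.T) (kerL t)) (kerL (mulAt t w hw p)) :=
  ⟨fun x => kerL_mulAt t w hw p x, fun _ => AEq.refl _⟩

/-- A radial step on `L` multiplies the test data at that infinite place. -/
lemma peq_mulArchL (t : TestData B) (u : InfinitePlace L) (a : AKer) :
    PEq (step (Sum.inr (u, a) : Op L B.T) (kerL t)) (kerL (mulArch t u a)) :=
  ⟨fun _ => rfl, fun _ => AEq.refl _⟩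

/-- The kernel on `L` of a list of steps. -/
lemma kerL_tList (t : TestData B) : ∀ l : List (Coord L B.T),
    PEq (steps (l.map coordOp) (kerL t)) (kerL (tList t l))
  | [] => PEq.refl _
  | Sum.inl w :: l => (step_congr _ (kerL_tList t l)).trans (peq_mulAtL (tList t l) w.1 w.2 X)
  | Sum.inr (u, k) :: l =>
      (step_congr _ (kerL_tList t l)).trans (peq_mulArchL (tList t l) u k.ker)

variable (hc : Cyc3 K L σ) [IsTotallyComplex K]
include hc

omit [IsTotallyComplex K] in
/-- The base changed Hecke step on `K` multiplies the test data. -/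
lemma peq_mulAtK (t : TestData B) (w : Place L) (hw : w ∉ B.T) (p : ℂ[X]) :
    PEq (step (Sum.inl ⟨below K w, sphKer (below_notMem hw) (bcOf K w p)⟩ : Op K B.S) (kerK σ t))
      (kerK σ (mulAt t w hw p)) :=
  ⟨fun x => kerK_mulAt hc t w hw p x, fun _ => AEq.refl _⟩

/-- The radial step on `K` multiplies the test data. -/
lemma peq_mulArchK (t : TestData B) (w : InfinitePlace L) (a : AKer) :
    PEq (step (Sum.inr (w.comap (algebraMap K L), a) : Op K B.S) (kerK σ t))
      (kerK σ (mulArch t w a)) :=
  ⟨fun _ => rfl, kerK_mulArch hc t w a⟩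

/-- The kernel on `K` of a base changed list of steps. -/
lemma kerK_tList (t : TestData B) : ∀ l : List (Coord L B.T),
    PEq (steps (l.map opBC) (kerK σ t)) (kerK σ (tList t l))
  | [] => PEq.refl _
  | Sum.inl w :: l => (step_congr _ (kerK_tList t l)).trans
      (peq_mulAtK hc (tList t l) w.1 w.2 X)
  | Sum.inr (u, k) :: l => (step_congr _ (kerK_tList t l)).trans
      (peq_mulArchK hc (tList t l) u k.ker)

omit hc [IsTotallyComplex K]

/-- The index of the combinations. -/
abbrev Quad : Type :=
  (Finset (HK.Idx → Bool) × Finset (HK.Idx → Bool)) ×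
    (Finset (HL.Idx → Bool) × Finset (HL.Idx → Bool))

/-- The product of the four coefficients of a quadruple. -/
noncomputable def qCoef (z : Quad HL (HK := HK)) : ℂ :=
  H.coef z.1.1 * H.coef z.1.2 * (H.coef z.2.1 * H.coef z.2.2)

/-- The test data of a quadruple and a list. -/
noncomputable def qData (l : List (Coord L B.T)) (z : Quad HL (HK := HK)) : TestData B :=
  tList (tBase HL G z.1.1 z.1.2 z.2.1 z.2.2) l

/-- The places of `K` carrying the operators. -/
noncomputable def badSet : Finset (Place K) := HK.T ∪ HL.T.image (below K)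

/-- At places over an untouched place the test data of a list are trivial. -/
lemma qData_h_eq_one {v0 : Place K} (hv0 : v0 ∉ badSet HL (HK := HK)) (l : List (Coord L B.T))
    (hl : ∀ x, Sum.inl x ∈ l → below K x.1 ≠ v0) (z : Quad HL (HK := HK)) {w : Place L}
    (hw : LiesOver K L w v0) : (qData HL G l z).h w = 1 := by
  have hb := liesOver_iff_below.1 hw
  rw [badSet, Finset.mem_union, not_or] at hv0
  have h1 : w ∉ (cPl K L) '' (HK.T : Set (Place K)) := by
    rintro ⟨v, hv, rfl⟩
    exact hv0.1 (by rw [← hb, below_cPl]; exact hv)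
  have h2 : w ∉ HL.T := fun h => hv0.2 (Finset.mem_image.2 ⟨w, h, hb⟩)
  refine tList_h_eq_one _ ?_ l fun x hx e => hl x hx (by rw [e, hb])
  simp [tBase, gF_eq_one G _ h1, hE_eq_one HL _ h2]

/-- A spherical kernel on `L` at a split place after the operations of a list updates the test data
of the list there. -/
lemma kerL_qData {v0 : Place K} (hv0S : v0 ∉ B.S) {w0 : Place L} (hw0 : LiesOver K L w0 v0)
    (hw0T : w0 ∉ B.T) (l : List (Coord L B.T)) (z : Quad HL (HK := HK))
    (h1 : (qData HL G l z).h w0 = 1) (p : ℂ[X]) :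
    PEq (steps ((Sum.inl ⟨w0, sphKer hw0T p⟩ : Op L B.T) :: (l.map coordOp ++ fixL G z.1.1 z.1.2))
        ((HL.term z.2.1).comp (HL.term z.2.2)))
      (kerL ((qData HL G l z).upd hv0S hw0 p)) := by
  rw [upd_eq_mulAt _ hv0S hw0 hw0T h1]
  refine (step_congr _ ?_).trans (peq_mulAtL (qData HL G l z) w0 hw0T p)
  change PEq (steps (l.map coordOp ++ fixL G z.1.1 z.1.2) _) _
  rw [steps_append]
  exact (steps_congr _ (kerL_base HL G _ _ _ _)).trans (kerL_tList _ l)

include hc in
/-- A spherical kernel on `K` at a split place after the operations of a list updates the test data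
of the list there. -/
lemma kerK_qData [IsTotallyComplex K] {v0 : Place K} (hv0S : v0 ∉ B.S) {w0 : Place L}
    (hw0 : LiesOver K L w0 v0) (hn : pnorm w0 = pnorm v0)
    (hw0T : w0 ∉ B.T) (l : List (Coord L B.T)) (z : Quad HL (HK := HK))
    (h1 : (qData HL G l z).h w0 = 1) (p : ℂ[X]) :
    PEq (steps ((Sum.inl ⟨v0, sphKer hv0S p⟩ : Op K B.S) :: (l.map opBC ++ fixK HL z.2.1 z.2.2))
        ((HK.term z.1.1).comp (HK.term z.1.2)))
      (kerK σ ((qData HL G l z).upd hv0S hw0 p)) := by
  rw [upd_eq_mulAt _ hv0S hw0 hw0T h1]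
  have hb : below K w0 = v0 := liesOver_iff_below.1 hw0
  subst hb
  have hp : bcOf K w0 p = p := if_pos hn
  have h := peq_mulAtK hc (qData HL G l z) w0 hw0T p
  simp only [hp] at h
  refine (step_congr _ ?_).trans h
  change PEq (steps (l.map opBC ++ fixK HL z.2.1 z.2.2) _) _
  rw [steps_append]
  exact (steps_congr _ (kerK_base HL G hc _ _ _ _)).trans (kerK_tList hc _ l)

end Fermat.LTG.Sys
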