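import Fermat.Agent.LTG.Sys.TestOps
import Fermat.Agent.LTG.H.Basic

/-!
# Systems: the base test data of four terms

The test data on `L` of two terms of the operator on `L` and two terms, moved to chosen places, of
the operator on `K`; on `K` their base change is the product of the two terms of the operator on `K`
with the base changes of the two terms on `L`.
-/

set_option autoImplicit false
open NumberField Filter Set Polynomial
open scoped Classical

namespace Fermat.LTG.Sys

open Fermat.LT
open Fermat.LT.Sys (AEq)

/-! ### archimedean kernels up to equality as functions -/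

/-- Equality as functions. -/
instance aSetoid : Setoid AKer :=
  ⟨AEq, fun a => AEq.refl a, fun h => h.symm, fun h h' => h.trans h'⟩

/-- Classes of archimedean kernels. -/
abbrev AQ : Type := Quotient aSetoid

/-- The class of an archimedean kernel up to equality as functions. -/
def AQ.mk (a : AKer) : AQ := Quotient.mk aSetoid a

/-- Classes of kernels multiply by composition. -/
noncomputable instance : Mul AQ :=
  ⟨Quotient.map₂ AKer.comp fun _ _ h _ _ h' => AEq.comp h h'⟩

/-- The class of a composite is the product of the classes. -/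
lemma AQ.mk_comp (a b : AKer) : AQ.mk (a.comp b) = AQ.mk a * AQ.mk b := rfl

/-- Composition of classes is associative and commutative. -/
noncomputable instance : CommSemigroup AQ where
  mul_assoc x y z := Quotient.inductionOn₃ x y z fun a b c =>
    Quotient.sound (Fermat.LT.Sys.aeq_comp_assoc a b c)
  mul_comm x y := Quotient.inductionOn₂ x y fun a b =>
    Quotient.sound (Fermat.LT.Sys.aeq_comp_comm a b)

/-- Kernels with the same class are equivalent. -/
lemma AQ.exact {a b : AKer} (h : AQ.mk a = AQ.mk b) : AEq a b := Quotient.exact h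

/-! ### the base test data -/

variable {K L : Type} [Field K] [NumberField K] [Field L] [NumberField L] [Algebra K L]
  {σ : L ≃ₐ[K] L} {B : Block K L σ}

variable (K L) in
/-- A chosen place over each place. -/
noncomputable def cPl (v : Place K) : Place L := (exists_liesOver (L := L) v).choose

omit [NumberField L] in
/-- The chosen place lies over its place. -/
lemma liesOver_cPl (v : Place K) : LiesOver K L (cPl K L v) v :=
  (exists_liesOver (L := L) v).choose_spec

/-- The place below the chosen place. -/
lemma below_cPl (v : Place K) : below K (cPl K L v) = v :=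
  liesOver_iff_below.1 (liesOver_cPl v)

/-- The chosen place avoids the upper level. -/
lemma cPl_notMem {v : Place K} (hv : v ∉ B.S) : cPl K L v ∉ B.T := fun h =>
  hv ((B.mem_iff (liesOver_cPl v)).1 h)

variable (HL : H.Data L B.T) (HK : H.Data K B.S)

/-- For each term of `HK`, polynomials at the chosen places of `L` whose base changes are the
factors of the term. -/
structure Lifted where
  /-- For each term and place, the polynomial at the chosen place over it. -/
  g : Finset (HK.Idx → Bool) → HK.T → ℂ[X]
  /-- Their base changes are the factors of the terms on `K`. -/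
  bc : ∀ F v, bcOf K (cPl K L v.1) (g F v) = H.halfSym (pnorm v.1) (HK.expAt F v)

/-- The factor of a term on `L`. -/
noncomputable def hE (E : Finset (HL.Idx → Bool)) (w : Place L) : ℂ[X] :=
  if h : w ∈ HL.T then H.halfSym (pnorm w) (HL.expAt E ⟨w, h⟩) else 1

/-- Its base change at a place of `K`. -/
noncomputable def pE (E : Finset (HL.Idx → Bool)) (v : Place K) : ℂ[X] :=
  ∏ᶠ w ∈ placesOver K L v, bcOf K w (hE HL E w)

/-- The factor of a term on `K`. -/
noncomputable def fF (F : Finset (HK.Idx → Bool)) (v : Place K) : ℂ[X] :=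
  if h : v ∈ HK.T then H.halfSym (pnorm v) (HK.expAt F ⟨v, h⟩) else 1

variable {HK} (G : Lifted (L := L) HK)

/-- A term on `K` moved to the chosen places. -/
noncomputable def gF (F : Finset (HK.Idx → Bool)) (w : Place L) : ℂ[X] :=
  if h : below K w ∈ HK.T ∧ w = cPl K L (below K w) then G.g F ⟨below K w, h.1⟩ else 1

/-- At a chosen place the moved term is the chosen polynomial. -/
lemma gF_cPl (F : Finset (HK.Idx → Bool)) (v : HK.T) : gF G F (cPl K L v.1) = G.g F v := by
  have hb : below K (cPl K L v.1) = v.1 := below_cPl v.1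
  rw [gF, dif_pos ⟨by rw [hb]; exact v.2, by rw [hb]⟩]
  congr 1
  exact Subtype.ext hb

/-- The lifted factor is `1` away from the chosen places of the terms. -/
lemma gF_eq_one (F : Finset (HK.Idx → Bool)) {w : Place L}
    (h : w ∉ (cPl K L) '' (HK.T : Set (Place K))) :
    gF G F w = 1 :=
  dif_neg fun hh => h ⟨below K w, hh.1, hh.2.symm⟩

/-- The factor on `L` is `1` outside the places of the terms. -/
lemma hE_eq_one (E : Finset (HL.Idx → Bool)) {w : Place L} (h : w ∉ HL.T) : hE HL E w = 1 :=
  dif_neg h

/-- The factor on `K` is `1` outside the places of the terms. -/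
lemma fF_eq_one (F : Finset (HK.Idx → Bool)) {v : Place K} (h : v ∉ HK.T) : fF HK F v = 1 :=
  dif_neg h

/-- The base changed factor is `1` away from the places below the operator. -/
lemma pE_eq_one (E : Finset (HL.Idx → Bool)) {v : Place K} (h : v ∉ HL.T.image (below K)) :
    pE HL E v = 1 :=
  finprod_mem_of_eqOn_one fun w hw => by
    rw [hE_eq_one HL E fun hT => h (Finset.mem_image.2 ⟨w, hT, liesOver_iff_below.1 hw⟩), bcOf_one]
    rfl

/-- The infinite factor of the test data. -/
noncomputable def kBase (F₁ F₂ : Finset (HK.Idx → Bool)) (E₁ E₂ : Finset (HL.Idx → Bool))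
    (w : InfinitePlace L) : AKer :=
  if w = plAbove L (w.comap (algebraMap K L)) then
    ((HK.term F₁).arch (w.comap (algebraMap K L))).comp
      (((HK.term F₂).arch (w.comap (algebraMap K L))).comp
        (((HL.term E₁).arch w).comp ((HL.term E₂).arch w)))
  else ((HL.term E₁).arch w).comp ((HL.term E₂).arch w)

/-- **The base test data.** The test data of two families of terms on `K` and two on `L`: products
of their polynomials and compositions of their archimedean factors. -/
noncomputable def tBase (F₁ F₂ : Finset (HK.Idx → Bool)) (E₁ E₂ : Finset (HL.Idx → Bool)) :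
    TestData B where
  h w := gF G F₁ w * (gF G F₂ w * (hE HL E₁ w * hE HL E₂ w))
  k := kBase HL F₁ F₂ E₁ E₂
  finite_h := ((HK.T.finite_toSet.image (cPl K L)).union HL.T.finite_toSet).subset fun w hw => by
    by_contra hn
    simp only [Set.mem_union, not_or] at hn
    exact hw (by simp [gF_eq_one G _ hn.1, hE_eq_one HL _ (show w ∉ HL.T from hn.2)])
  h_level w hw := by
    have h1 : w ∉ (cPl K L) '' (HK.T : Set (Place K)) := by
      rintro ⟨v, hv, rfl⟩
      exact HK.notMem v hv ((B.mem_iff (liesOver_cPl v)).1 hw)
    have h2 : w ∉ HL.T := fun h => HL.notMem w h hw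
    simp [gF_eq_one G _ h1, hE_eq_one HL _ h2]

variable (hc : Cyc3 K L σ)
include hc

/-- The base change of the moved term is the factor on `K`. -/
lemma bc_gF (F : Finset (HK.Idx → Bool)) (v : Place K) :
    ∏ᶠ w ∈ placesOver K L v, bcOf K w (gF G F w) = fF HK F v := by
  have hfin := hc.finite_placesOver v
  by_cases hv : v ∈ HK.T
  · rw [finprod_mem_eq_finite_toFinset_prod _ hfin, Finset.prod_eq_single (cPl K L v),
      gF_cPl G F ⟨v, hv⟩]
    · refine (G.bc F ⟨v, hv⟩).trans ?_
      rw [fF, dif_pos hv]
    · intro b hb hne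
      rw [gF_eq_one G F, bcOf_one]
      rintro ⟨u, hu, rfl⟩
      exact hne (congrArg (cPl K L) ((below_cPl u).symm.trans
        (liesOver_iff_below.1 (hfin.mem_toFinset.1 hb))))
    · intro h; exact absurd (hfin.mem_toFinset.2 (liesOver_cPl v)) h
  · rw [fF_eq_one F hv]
    refine finprod_mem_of_eqOn_one fun w hw => ?_
    rw [gF_eq_one G F, bcOf_one]
    · rfl
    rintro ⟨u, hu, rfl⟩
    exact hv (by rw [← liesOver_iff_below.1 hw, below_cPl]; exact hu)

/-- The base changed polynomial of the base test data. -/
lemma bcPoly_tBase (F₁ F₂ : Finset (HK.Idx → Bool)) (E₁ E₂ : Finset (HL.Idx → Bool)) (v : Place K) :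
    (tBase HL G F₁ F₂ E₁ E₂).bcPoly v
      = pE HL E₁ v * (pE HL E₂ v * (fF HK F₁ v * fF HK F₂ v)) := by
  have hfin := hc.finite_placesOver v
  rw [bcPoly_eq]
  simp only [tBase, bcOf_mul]
  rw [finprod_mem_mul_distrib hfin, finprod_mem_mul_distrib hfin, finprod_mem_mul_distrib hfin,
    bc_gF G hc, bc_gF G hc, pE, pE]
  ring

omit hc in
/-- The archimedean kernel on `K` of the base test data. -/
lemma kerK_arch_tBase [IsTotallyComplex K] (F₁ F₂ : Finset (HK.Idx → Bool))
    (E₁ E₂ : Finset (HL.Idx → Bool)) (u : InfinitePlace K) (hc : Cyc3 K L σ) :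
    AEq ((kerK σ (tBase HL G F₁ F₂ E₁ E₂)).arch u)
      (((HL.term E₁).arch (plAbove L u)).comp (((HL.term E₁).arch (σ • plAbove L u)).comp
        (((HL.term E₁).arch (σ • σ • plAbove L u)).comp
          (((HL.term E₂).arch (plAbove L u)).comp (((HL.term E₂).arch (σ • plAbove L u)).comp
            (((HL.term E₂).arch (σ • σ • plAbove L u)).comp
              (((HK.term F₁).arch u).comp ((HK.term F₂).arch u)))))))) := by
  have hcm : ∀ i : Fin 3, i ≠ 0 → pl3 σ (u, i) ≠
      plAbove L ((pl3 σ (u, i)).comap (algebraMap K L)) := fun i hi e => by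
    have e' : (pl3 σ (u, i)).comap (algebraMap K L) = u := by
      rw [pl3, InfinitePlace.comap_mk]
      have e0 : (emb3 σ u i).comp (algebraMap K L) = (emb0 L u).comp (algebraMap K L) := by
        ext x
        fin_cases i <;> simp [emb3]
      rw [e0, emb0_comp, InfinitePlace.mk_embedding]
    rw [e', ← pl3_zero] at e
    exact hi (congrArg Prod.snd ((pl3_bijective hc).1 e))
  have h0 := (plAbove_comap (L := L) u)
  have h1 := hcm 1 (by decide)
  have h2 := hcm 2 (by decide)
  rw [pl3_one hc] at h1
  rw [pl3_two hc] at h2
  change AEq ((kBase HL F₁ F₂ E₁ E₂ (plAbove L u)).comp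
    ((kBase HL F₁ F₂ E₁ E₂ (σ • plAbove L u)).comp (kBase HL F₁ F₂ E₁ E₂ (σ • σ • plAbove L u)))) _
  simp only [kBase, h0, if_true, if_neg h1, if_neg h2]
  refine AQ.exact ?_
  simp only [AQ.mk_comp]
  ac_rfl

end Fermat.LTG.Sys
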