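import Fermat.Agent.CFT.Kummer.LocalPower
import Fermat.Agent.LTG.Sys.TestBase

/-!
# Systems: the elements of the periodisation and the non-vanishing values

From an element separating the eigenvalues from those of Eisenstein series we get the data of the
operators on `L` and on `K` (the latter for its norm), the polynomials at the
chosen places whose base change are the factors on `K`, and the non-vanishing of both values at the
point of the eigenvalues.
-/

set_option autoImplicit false
open NumberField MeasureTheory Filter Set Polynomial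
open scoped Classical

namespace Fermat.LTG.Sys

open Fermat.LT

variable {K L : Type} [Field K] [NumberField K] [Field L] [NumberField L] [Algebra K L]
  {σ : L ≃ₐ[K] L}

variable (K) in
/-- The order summed over the places above. -/
noncomputable def sumOrd (α : Lˣ) (v : Place K) : ℤ :=
  ∑ᶠ w ∈ placesOver K L v, ord (w.valuation L) (α : L)

/-- The polynomial at the chosen place over `v`. -/
noncomputable def gPoly (α : Lˣ) (v : Place K) (m : ℤ) : ℂ[X] :=
  H.halfSym (pnorm (cPl K L v)) (m * sumOrd K α v)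

/-- Every complex number is `z + z⁻¹`. -/
lemma exists_satake (s : ℂ) : ∃ z : ℂˣ, (z : ℂ) + ((z⁻¹ : ℂˣ) : ℂ) = s := by
  obtain ⟨z, hz⟩ := exists_quadratic_eq_zero (a := (1 : ℂ)) (b := -s) (c := 1) one_ne_zero
    (IsAlgClosed.exists_eq_mul_self _)
  have hz0 : z ≠ 0 := fun h => by simp [h] at hz
  refine ⟨Units.mk0 z hz0, ?_⟩
  rw [Units.val_inv_eq_inv_val, Units.val_mk0]
  field_simp
  linear_combination hz

/-- The norm of a place is positive. -/
lemma pnorm_cast_pos {F : Type} [Field F] [NumberField F] (v : Place F) : (0 : ℝ) < pnorm v :=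
  zero_lt_one.trans (H.pnorm_gt_one v)

/-- Cubic base change of a symmetrised monomial. -/
lemma cubicBC_halfSym (q : ℕ) (hq : 0 < q) (m : ℤ) :
    cubicBC q (H.halfSym (q ^ 3) m) = H.halfSym q (3 * m) := by
  refine Polynomial.funext fun x => ?_
  have hs0 : ((Real.sqrt q : ℝ) : ℂ) ≠ 0 :=
    Complex.ofReal_ne_zero.2 (Real.sqrt_ne_zero'.2 (Nat.cast_pos.2 hq))
  obtain ⟨z, hz⟩ := exists_satake (x / ((Real.sqrt q : ℝ) : ℂ))
  rw [Units.val_inv_eq_inv_val] at hz
  have hx : x = ((Real.sqrt q : ℝ) : ℂ) * ((z : ℂ) + (z : ℂ)⁻¹) := by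
    rw [hz, mul_div_cancel₀ _ hs0]
  have hq3 : ((Real.sqrt ((q ^ 3 : ℕ) : ℝ) : ℝ) : ℂ) = ((Real.sqrt q : ℝ) : ℂ) ^ 3 := by
    rw [← Complex.ofReal_pow]; congr 1
    rw [Nat.cast_pow, Real.sqrt_eq_iff_eq_sq (by positivity) (by positivity), ← pow_mul, mul_comm,
      pow_mul, Real.sq_sqrt (Nat.cast_nonneg q)]
  have hs2 : ((Real.sqrt q : ℝ) : ℂ) ^ 2 = (q : ℂ) := by
    rw [← Complex.ofReal_pow, Real.sq_sqrt (Nat.cast_nonneg q), Complex.ofReal_natCast]
  have harg : x ^ 3 - 3 * (q : ℂ) * x =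
      ((Real.sqrt ((q ^ 3 : ℕ) : ℝ) : ℝ) : ℂ) * ((z : ℂ) ^ 3 + ((z : ℂ) ^ 3)⁻¹) := by
    rw [hq3, ← hs2, hx]
    field_simp
    ring
  rw [cubicBC, eval_comp]
  simp only [eval_sub, eval_mul, eval_pow, eval_X, eval_C]
  rw [harg, H.eval_halfSym _ (pow_pos hq 3) (pow_ne_zero 3 z.ne_zero), hx,
    H.eval_halfSym _ hq z.ne_zero, ← zpow_natCast, ← zpow_mul, ← zpow_mul]
  congr 1
  push_cast
  ring_nf

/-- A symmetrised monomial at a Satake parameter. -/
lemma eval_halfSym_satake {F : Type} [Field F] [NumberField F] (v : Place F) {x : ℝ} {z : ℂˣ}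
    (hz : (z : ℂ) + ((z⁻¹ : ℂˣ) : ℂ) = ((x / Real.sqrt (pnorm v) : ℝ) : ℂ)) (m : ℤ) :
    (H.halfSym (pnorm v) m).eval (x : ℂ) = ((z : ℂ) ^ m + (z : ℂ) ^ (-m)) / 2 := by
  rw [Units.val_inv_eq_inv_val] at hz
  have hs : Real.sqrt (pnorm v) ≠ 0 := Real.sqrt_ne_zero'.2 (pnorm_cast_pos v)
  rw [← H.eval_halfSym (pnorm v) (Nat.cast_pos.1 (pnorm_cast_pos v)) z.ne_zero m, hz]
  push_cast
  rw [mul_div_cancel₀ _ (Complex.ofReal_ne_zero.2 hs)]

/-- The spherical values at infinity do not depend on the patterns. -/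
lemma hhat0_radF {F : Type*} [Field F] [NumberField F] {S : Lev F} (D : H.Data F S)
    (E : Finset (D.Idx → Bool)) (u : InfinitePlace F) :
    hhat0 (D.radF E u) = ((2 * ∫ l : ℝ, D.G (Real.cosh l) : ℝ) : ℂ) :=
  H.hhat0_radG_arShift D.smooth D.compact D.supp D.δ_nonneg (D.shiftAt_small E u)

variable {B : Block K L σ}

/-- The order of a norm is the summed order, times three at an inert place. -/
lemma ord_beta (hc : Cyc3 K L σ) {α : Lˣ} {β : Kˣ}
    (hβ : algebraMap K L (β : K) = (α : L) * σ (α : L) * σ (σ (α : L))) {v : Place K}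
    (hv : v ∉ B.S) :
    ord (v.valuation K) (β : K) =
      if pnorm (cPl K L v) = pnorm v then sumOrd K α v else 3 * sumOrd K α v := by
  set w := cPl K L v
  have hw : LiesOver K L w v := liesOver_cPl v
  set w1 := mapPlace (σ : L ≃+* L) w with hw1
  set w2 := mapPlace (σ : L ≃+* L) w1 with hw2
  have h3 : mapPlace (σ : L ≃+* L) w2 = w := hc.mapPlace_three w
  have he : ramE v w = 1 := by
    have hne : ramE v w ≠ 3 := fun h => hv (B.ram_mem v ((hc.mem_ramSet_iff hw).2 h))
    rcases hc.trichotomy hw with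
      ⟨-, h, -⟩ | ⟨-, -, ⟨h, -⟩ | ⟨h, -⟩⟩ <;> first | exact h | exact absurd h hne
  have hα : (α : L) ≠ 0 := α.ne_zero
  have hσα : σ (α : L) ≠ 0 := by simp
  have hσσα : σ (σ (α : L)) ≠ 0 := by simp
  -- the orders of the conjugates
  have e1 : ord (w.valuation L) (σ (α : L)) = ord (w2.valuation L) (α : L) := by
    have h := valuation_mapPlace (σ : L ≃+* L) w2 (α : L)
    rw [h3] at h
    exact congrArg (fun t => -WithZero.log t) h
  have e2 : ord (w.valuation L) (σ (σ (α : L))) = ord (w1.valuation L) (α : L) := by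
    have h := valuation_mapPlace (σ : L ≃+* L) w2 (σ (α : L))
    rw [h3] at h
    have h' := valuation_mapPlace (σ : L ≃+* L) w1 (α : L)
    rw [← hw2] at h'
    exact congrArg (fun t => -WithZero.log t) (h.trans h')
  have key : ord (v.valuation K) (β : K) =
      ord (w.valuation L) (α : L) + ord (w2.valuation L) (α : L) +
          ord (w1.valuation L) (α : L) := by
    have h : ord (v.valuation K) (β : K) = ord (w.valuation L) (algebraMap K L (β : K)) := by
      rw [ord, ord, hw.valuation_algebraMap, he, pow_one]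
    rw [h, hβ, ord_mul _ (mul_ne_zero hα hσα) hσσα, ord_mul _ hα hσα, e1, e2]
  rw [key, sumOrd, hc.placesOver_eq hw, ← hw1, ← hw2]
  -- split or inert
  rcases hc.trichotomy hw with ⟨-, -, hn, hne⟩ | ⟨-, hfix, ⟨h, -⟩ | ⟨-, hn⟩⟩
  · have h21 : w2 ≠ w1 := fun h => hne ((mapPlace (σ : L ≃+* L)).injective h)
    have h20 : w2 ≠ w := fun h => hne (by
      have h' := congrArg (mapPlace (σ : L ≃+* L)) h
      rw [h3] at h'
      exact h'.symm)
    have h10 : w1 ≠ w := hne
    rw [if_pos hn, finsum_mem_insert _ (by simp [Ne.symm h10, Ne.symm h20]) (Set.toFinite _),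
      finsum_mem_insert _ (by simpa using Ne.symm h21) (Set.toFinite _), finsum_mem_singleton]
    ring
  · omega
  · have h1 : w1 = w := hfix
    have h2 : w2 = w := by rw [hw2, h1]; exact hfix
    have hne : pnorm w ≠ pnorm v := by
      intro h
      rw [hn] at h
      have h2q : (1 : ℝ) < pnorm v := H.pnorm_gt_one v
      have h2q' : 1 < pnorm v := by exact_mod_cast h2q
      nlinarith [Nat.mul_le_mul h2q'.le h2q'.le]
    rw [if_neg hne, h1, h2]
    simp only [Set.pair_eq_singleton, finsum_mem_singleton]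
    ring

/-- The base change of the chosen polynomial is the factor on `K`. -/
lemma bc_gPoly (hc : Cyc3 K L σ) {α : Lˣ} {β : Kˣ}
    (hβ : algebraMap K L (β : K) = (α : L) * σ (α : L) * σ (σ (α : L))) {v : Place K} (hv : v ∉ B.S)
    (m : ℤ) : bcOf K (cPl K L v) (gPoly α v m) =
    H.halfSym (pnorm v) (ord (v.valuation K) (β : K) * m) := by
  rw [ord_beta hc hβ hv, bcOf, below_cPl, gPoly]
  by_cases h : pnorm (cPl K L v) = pnorm v
  · rw [if_pos h, if_pos h, h, mul_comm]
  · rw [if_neg h, if_neg h]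
    have hn : pnorm (cPl K L v) = pnorm v ^ 3 := by
      rcases hc.trichotomy (liesOver_cPl (L := L) v) with ⟨-, -, hn, -⟩ | ⟨-, -, ⟨-, hn⟩ | ⟨-, hn⟩⟩
      · exact absurd hn h
      · exact absurd hn h
      · exact hn
    rw [hn, cubicBC_halfSym _ (Nat.cast_pos.1 (pnorm_cast_pos v))]
    ring_nf

/-- The polynomials at the chosen places. -/
noncomputable def Lifted.mkNorm (hc : Cyc3 K L σ) (HL : H.Data L B.T) (HK : H.Data K B.S)
    (hβ : algebraMap K L (HK.α : K) = (HL.α : L) * σ (HL.α : L) * σ (σ (HL.α : L))) :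
    Lifted (L := L) HK where
  g F v := gPoly HL.α v.1 (H.expo F (Sum.inl v))
  bc _ v := bc_gPoly hc hβ (HK.notMem v.1 v.2) _

/-- The value of the operator on `L` at the point of `lam`. -/
noncomputable def valL (HL : H.Data L B.T) (lam : Place L → ℝ) : ℂ :=
  ∑ E : Finset (HL.Idx → Bool), H.coef E *
    (∏ v : HL.T, (H.halfSym (pnorm v.1) (HL.expAt E v)).eval (lam v.1 : ℂ)) *
    ∏ u, hhat0 (HL.radF E u)

/-- The value of the operator on `K`, moved to the chosen places, at the point of `lam`. -/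
noncomputable def valG {HK : H.Data K B.S} (G : Lifted (L := L) HK) (lam : Place L → ℝ) : ℂ :=
  ∑ E : Finset (HK.Idx → Bool), H.coef E *
    (∏ v : HK.T, (G.g E v).eval (lam (cPl K L v.1) : ℂ)) * ∏ u, hhat0 (HK.radF E u)

variable (L) in
/-- `α` separates `lam` from the parameters of Eisenstein series. -/
def Kills (T : Set (Place L)) (lam : Place L → ℝ) (α : L) : Prop :=
  ∀ z : Place L → ℂˣ,
    (∀ w, w ∉ T → (z w : ℂ) + (((z w)⁻¹ : ℂˣ) : ℂ) = ((lam w / Real.sqrt (pnorm w) : ℝ) : ℂ)) →
      ∏ᶠ w : Place L, (if w ∈ T then 1 else z w ^ ord (w.valuation L) α) ≠ 1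

/-- If no pattern of parameters has product one, the signed sum over patterns is nonzero. -/
lemma sum_patterns_ne_zero {F : Type} [Field F] [NumberField F] {S : Lev F} (D : H.Data F S)
    (hpos : 0 < ∫ l : ℝ, D.G (Real.cosh l)) (x : D.T → ℂˣ)
    (h : ∀ ε : D.T → Bool, ∏ v, x v ^ H.sg (ε v) ≠ 1) :
    ∑ E : Finset (D.Idx → Bool), H.coef E *
      (∏ v : D.T, (((x v : ℂ) ^ H.expo E (Sum.inl v) + (x v : ℂ) ^ (-H.expo E (Sum.inl v))) / 2)) *
      ∏ u, hhat0 (D.radF E u) ≠ 0 := by
  let zz : D.Idx → ℂ := Sum.elim (fun v => (x v : ℂ)) fun _ => 1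
  have hzz : ∀ p, zz p ≠ 0 := fun p => by rcases p with v | u <;> simp [zz]
  have key := H.expand_zpow_ne_zero zz hzz fun ε => by
    rw [Fintype.prod_sum_type]
    simp only [zz, Sum.elim_inl, Sum.elim_inr, one_zpow, Finset.prod_const_one, mul_one]
    intro he
    refine h (fun v => ε (Sum.inl v)) (Units.ext ?_)
    push_cast
    exact he
  simp only [hhat0_radF, Finset.prod_const, ← Finset.sum_mul]
  refine mul_ne_zero ?_ (pow_ne_zero _ (Complex.ofReal_ne_zero.2 (by positivity)))
  convert key using 1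
  rw [H.expand]
  refine Finset.sum_congr (by ext; simp) fun E _ => ?_
  rw [Fintype.prod_sum_type]
  simp [zz, H.symm2]

/-- A separating element makes the value on `L` nonzero. -/
theorem valL_ne {HL : H.Data L B.T} (hpos : 0 < ∫ l : ℝ, HL.G (Real.cosh l)) {lam : Place L → ℝ}
    (hT : ∀ w, w ∈ HL.T ↔ ord (w.valuation L) (HL.α : L) ≠ 0)
    (hk : Kills L {w | w ∈ B.T} lam (HL.α : L)) : valL HL lam ≠ 0 := by
  choose z hz using fun w : Place L => exists_satake ((lam w / Real.sqrt (pnorm w) : ℝ) : ℂ)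
  have h := sum_patterns_ne_zero HL hpos (fun v => z v.1 ^ ord (v.1.valuation L) (HL.α : L)) ?_
  · convert h using 1
    refine Finset.sum_congr rfl fun E _ => ?_
    congr 2
    refine Finset.prod_congr rfl fun v _ => ?_
    rw [eval_halfSym_satake v.1 (hz v.1)]
    simp only [H.Data.expAt, Units.val_zpow_eq_zpow_val, ← zpow_mul, mul_neg]
  -- a pattern with product `1` would contradict `Kills` at the parameters `z'`
  intro ε he
  let z' : Place L → ℂˣ := fun w => if h : w ∈ HL.T then z w ^ H.sg (ε ⟨w, h⟩) else z w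
  refine hk z' (fun w _ => ?_) ?_
  · by_cases h : w ∈ HL.T
    · rcases hε : ε ⟨w, h⟩ with _ | _
      · simp only [z', dif_pos h, hε, H.sg]
        simpa [add_comm] using hz w
      · simp only [z', dif_pos h, hε, H.sg]
        simpa using hz w
    · simp only [z', dif_neg h]
      exact hz w
  rw [finprod_eq_finsetProd_of_mulSupport_subset (s := HL.T) _ fun w hw => by
    by_contra hn
    refine hw ?_
    change ite _ _ _ = _
    rw [not_not.1 (mt (hT w).2 hn), zpow_zero, ite_self]]
  rw [← Finset.prod_coe_sort]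
  refine Eq.trans (Finset.prod_congr rfl fun v _ => ?_) he
  rw [if_neg (show ¬ v.1 ∈ {w | w ∈ B.T} from HL.notMem v.1 v.2)]
  simp only [z', dif_pos v.2, ← zpow_mul, mul_comm]

/-- A separating element makes the value on `K` nonzero. -/
theorem valG_ne (hc : Cyc3 K L σ) {HL : H.Data L B.T} {HK : H.Data K B.S}
    (hpos : 0 < ∫ l : ℝ, HK.G (Real.cosh l)) {lam : Place L → ℝ}
    (hlam : ∀ w, lam (mapPlace (σ : L ≃+* L) w) = lam w)
    (hβ : algebraMap K L (HK.α : K) = (HL.α : L) * σ (HL.α : L) * σ (σ (HL.α : L)))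
    (hT : ∀ w, w ∈ HL.T ↔ ord (w.valuation L) (HL.α : L) ≠ 0)
    (hS : ∀ v, v ∈ HK.T ↔ ord (v.valuation K) (HK.α : K) ≠ 0)
    (hk : Kills L {w | w ∈ B.T} lam (HL.α : L)) :
    valG (Lifted.mkNorm hc HL HK hβ) lam ≠ 0 := by
  choose z hz using fun w : Place L => exists_satake ((lam w / Real.sqrt (pnorm w) : ℝ) : ℂ)
  -- the value is a sum over sign patterns of Satake parameters raised to the orders of `α`
  have h := sum_patterns_ne_zero HK hpos (fun v => z (cPl K L v.1) ^ sumOrd K HL.α v.1) ?_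
  · convert h using 1
    refine Finset.sum_congr rfl fun E _ => ?_
    congr 2
    refine Finset.prod_congr rfl fun v _ => ?_
    simp only [Lifted.mkNorm, gPoly]
    rw [eval_halfSym_satake _ (hz _)]
    simp only [Units.val_zpow_eq_zpow_val, ← zpow_mul]
    ring_nf
  -- a pattern with product one gives parameters of `lam` that `α` does not separate
  intro ε he
  let y : Place K → ℂˣ := fun v =>
    if h : v ∈ HK.T then z (cPl K L v) ^ H.sg (ε ⟨v, h⟩) else z (cPl K L v)
  let z' : Place L → ℂˣ := fun w => y (below K w)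
  refine hk z' (fun w _ => ?_) ?_
  · have hfib : lam w = lam (cPl K L (below K w)) ∧ pnorm w = pnorm (cPl K L (below K w)) := by
      rcases hc.eq_or_eq_mapPlace (liesOver_cPl (L := L) (below K w)) (liesOver_below w) with
        e | e | e <;>
        constructor <;> conv_lhs => rw [e]
      all_goals simp [hlam, LT.pnorm_mapPlace]
    rw [hfib.1, hfib.2]
    by_cases h : below K w ∈ HK.T
    · rcases hε : ε ⟨below K w, h⟩ with _ | _
      · simp only [z', y, dif_pos h, hε, H.sg]
        simpa [add_comm] using hz (cPl K L (below K w))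
      · simp only [z', y, dif_pos h, hε, H.sg]
        simpa using hz (cPl K L (below K w))
    · simp only [z', y, dif_neg h]
      exact hz _
  -- regroup by the places below
  rw [finprod_eq_finsetProd_of_mulSupport_subset (s := HL.T) _ fun w hw => by
    by_contra hn
    refine hw ?_
    change ite _ _ _ = _
    rw [not_not.1 (mt (hT w).2 hn), zpow_zero, ite_self]]
  set V : Finset (Place K) := HL.T.image (below K) ∪ HK.T with hV
  rw [Finset.prod_congr rfl (g := fun w => z' w ^ ord (w.valuation L) (HL.α : L)) fun w hw =>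
      if_neg (show ¬ w ∈ {w | w ∈ B.T} from HL.notMem w hw),
    ← Finset.prod_fiberwise_of_maps_to (g := below K) (t := V) fun w hw =>
      Finset.mem_union_left _ (Finset.mem_image_of_mem _ hw)]
  have hsum : ∀ v ∈ V, ∏ w ∈ HL.T.filter (fun w => below K w = v),
      z' w ^ ord (w.valuation L) (HL.α : L)
      = y v ^ sumOrd K HL.α v := by
    intro v _
    have e : ∀ w ∈ HL.T.filter (fun w => below K w = v),
        z' w ^ ord (w.valuation L) (HL.α : L) = y v ^ ord (w.valuation L) (HL.α : L) :=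
            fun w hw => by
      simp only [z', (Finset.mem_filter.1 hw).2]
    have hf : ∑ᶠ w ∈ placesOver K L v, ord (w.valuation L) (HL.α : L)
        = ∑ w ∈ HL.T.filter (fun w => below K w = v), ord (w.valuation L) (HL.α : L) :=
      finsum_mem_eq_sum_of_subset _
        (fun w hw => by
          rw [Finset.mem_coe, Finset.mem_filter]
          exact ⟨(hT w).2 hw.2, liesOver_iff_below.1 hw.1⟩)
        (fun w hw => liesOver_iff_below.2 (Finset.mem_filter.1 (Finset.mem_coe.1 hw)).2)
    rw [Finset.prod_congr rfl e, sumOrd, hf]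
    exact (map_sum (zpowersHom ℂˣ (y v)).toAdditiveRight _ _).symm
  have hzero : ∀ v ∈ V, v ∉ HK.T → y v ^ sumOrd K HL.α v = 1 := by
    intro v hv hn
    have hvS : v ∉ B.S := by
      rcases Finset.mem_union.1 hv with h | h
      · obtain ⟨w, hw, rfl⟩ := Finset.mem_image.1 h
        exact below_notMem (HL.notMem w hw)
      · exact absurd h hn
    have h0 : ord (v.valuation K) (HK.α : K) = 0 := not_not.1 (mt (hS v).2 hn)
    rw [ord_beta hc hβ hvS] at h0
    rw [show sumOrd K HL.α v = 0 by split_ifs at h0 <;> omega, zpow_zero]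
  rw [Finset.prod_congr rfl hsum, ← Finset.prod_subset (Finset.subset_union_right) hzero,
    ← Finset.prod_coe_sort]
  refine Eq.trans (Finset.prod_congr rfl fun v _ => ?_) he
  simp only [y, dif_pos v.2, ← zpow_mul, mul_comm]

/-- **The elements**: close to one at both levels, and separating. -/
theorem exists_elements (hc : Cyc3 K L σ) (B : Block K L σ) {lam : Place L → ℝ}
    (hkill : ∀ (S : Finset (Place L)) (n : ℕ), ∃ α : Lˣ,
      (∀ w ∈ S, CFT.CloseOne w ((n + 1 : ℕ) : ℤ) (α : L)) ∧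
        ∀ z : Place L → ℂˣ, (∀ w ∉ S, (z w : ℂ) + ((z w)⁻¹ : ℂˣ) =
          ((lam w / Real.sqrt (pnorm w) : ℝ) : ℂ)) →
        ∏ᶠ w : Place L, (if w ∈ S then 1 else z w ^ CFT.ord w (α : L)) ≠ 1) :
    ∃ (α : Lˣ) (β : Kˣ), algebraMap K L (β : K) = (α : L) * σ (α : L) * σ (σ (α : L)) ∧
      (∀ v, v ∈ B.S → v.valuation K ((β : K) - 1) ≤ WithZero.exp (-(B.S.depth v : ℤ))) ∧
      (∀ w, w ∈ B.T → w.valuation L ((α : L) - 1) ≤ WithZero.exp (-(B.T.depth w : ℤ))) ∧
      Kills L {w | w ∈ B.T} lam (α : L) := by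
  -- close enough to `1` for the norm to be close below, ramification included
  set n : ℕ := B.T.places.sup B.T.depth + 3 * B.S.places.sup B.S.depth with hn
  obtain ⟨α, hα, hz⟩ := hkill B.T.places n
  have hclose : ∀ w, w ∈ B.T → w.valuation L ((α : L) - 1) ≤ WithZero.exp (-(n : ℤ)) := by
    intro w hw
    by_cases h0 : (α : L) - 1 = 0
    · simp [h0]
    rcases hα w (Lev.mem_places.2 hw) with h | h
    · exact absurd (by rw [h, sub_self]) h0
    · rw [CFT.valuation_eq_exp_neg_ord w h0, WithZero.exp_le_exp]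
      push_cast at h
      omega
  -- `β` is the norm of `α`
  obtain ⟨b, hb⟩ := hc.fix (x := (α : L) * σ (α : L) * σ (σ (α : L))) (by
    rw [map_mul, map_mul, hc.apply_three]; ring)
  have hb0 : b ≠ 0 := fun h => by
    rw [h, map_zero] at hb
    simp at hb
  refine ⟨α, Units.mk0 b hb0, hb, fun v hv => ?_, fun w hw => ?_, ?_⟩
  -- the norm is close to one, with depth at least a third of that of `α`
  · obtain ⟨w, hw⟩ := exists_liesOver (L := L) v
    set w1 := mapPlace (σ : L ≃+* L) w with hw1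
    set w2 := mapPlace (σ : L ≃+* L) w1 with hw2
    have h3 : mapPlace (σ : L ≃+* L) w2 = w := hc.mapPlace_three w
    have hmem : ∀ u : Place L, LiesOver K L u v → u ∈ B.T := fun u hu => (B.mem_iff hu).2 hv
    have h0 := hclose w (hmem w hw)
    have h1 : w.valuation L (σ (α : L) - 1) ≤ WithZero.exp (-(n : ℤ)) := by
      have h := valuation_mapPlace (σ : L ≃+* L) w2 ((α : L) - 1)
      rw [h3, map_sub, map_one] at h
      exact h.trans_le (hclose w2 (hmem w2 ((hw.mapPlace σ).mapPlace σ)))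
    have h2 : w.valuation L (σ (σ (α : L)) - 1) ≤ WithZero.exp (-(n : ℤ)) := by
      have h := valuation_mapPlace (σ : L ≃+* L) w2 (σ (α : L) - 1)
      have h' := valuation_mapPlace (σ : L ≃+* L) w1 ((α : L) - 1)
      rw [h3, map_sub, map_one] at h
      rw [← hw2, map_sub, map_one] at h'
      exact (h.trans h').trans_le (hclose w1 (hmem w1 (hw.mapPlace σ)))
    set V := w.valuation L
    have hexp : WithZero.exp (-(n : ℤ)) ≤ 1 := by
      rw [← WithZero.exp_zero, WithZero.exp_le_exp]; omega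
    have hle : ∀ {a : L}, V (a - 1) ≤ WithZero.exp (-(n : ℤ)) → V a ≤ 1 := fun {a} h => by
      have h' := V.map_add (a - 1) 1
      rw [sub_add_cancel, map_one] at h'
      exact h'.trans (max_le (h.trans hexp) le_rfl)
    have hmul : ∀ {a c : L}, V (a - 1) ≤ WithZero.exp (-(n : ℤ)) →
        V (c - 1) ≤ WithZero.exp (-(n : ℤ)) →
        V (a * c - 1) ≤ WithZero.exp (-(n : ℤ)) := fun {a c} ha hc' => by
      rw [show a * c - 1 = (a - 1) * c + (c - 1) by ring]
      refine (V.map_add _ _).trans (max_le ?_ hc')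
      rw [map_mul]
      exact (mul_le_mul' ha (hle hc')).trans (by rw [mul_one])
    have hB : V (algebraMap K L (b - 1)) ≤ WithZero.exp (-(n : ℤ)) := by
      rw [map_sub, map_one, hb]
      exact hmul (hmul h0 h1) h2
    rw [hw.valuation_algebraMap] at hB
    change v.valuation K (b - 1) ≤ _
    by_cases hb1 : b - 1 = 0
    · simp [hb1]
    rw [CFT.valuation_eq_exp_neg_ord v hb1] at hB ⊢
    rw [← WithZero.exp_nsmul, WithZero.exp_le_exp, nsmul_eq_mul] at hB
    rw [WithZero.exp_le_exp]
    have he : ramE v w = 1 ∨ ramE v w = 3 := by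
      rcases hc.trichotomy hw with ⟨-, h, -⟩ | ⟨-, -, ⟨h, -⟩ | ⟨h, -⟩⟩ <;> simp [h]
    have hd : B.S.depth v ≤ B.S.places.sup B.S.depth := Finset.le_sup (Lev.mem_places.2 hv)
    rcases he with he | he <;> rw [he] at hB <;> push_cast at hB <;> omega
  · refine (hclose w hw).trans ?_
    have hd : B.T.depth w ≤ B.T.places.sup B.T.depth := Finset.le_sup (Lev.mem_places.2 hw)
    rw [WithZero.exp_le_exp]
    omega
  · intro z hz' he
    refine hz z (fun w hw => hz' w fun h => hw (Lev.mem_places.2 h)) ?_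
    refine Eq.trans ?_ he
    exact finprod_congr fun w => if_congr Lev.mem_places rfl rfl

/-- **The data of the operators, the lifted polynomials and the non-vanishing values.** -/
theorem exists_killData (hc : Cyc3 K L σ) (B : Block K L σ) {lam : Place L → ℝ}
    (hlam : ∀ w, lam (mapPlace (σ : L ≃+* L) w) = lam w)
    (hkill : ∀ (S : Finset (Place L)) (n : ℕ), ∃ α : Lˣ,
      (∀ w ∈ S, CFT.CloseOne w ((n + 1 : ℕ) : ℤ) (α : L)) ∧
        ∀ z : Place L → ℂˣ, (∀ w ∉ S, (z w : ℂ) + ((z w)⁻¹ : ℂˣ) =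
          ((lam w / Real.sqrt (pnorm w) : ℝ) : ℂ)) →
        ∏ᶠ w : Place L, (if w ∈ S then 1 else z w ^ CFT.ord w (α : L)) ≠ 1) :
    ∃ (HL : H.Data L B.T) (HK : H.Data K B.S) (G : Lifted (L := L) HK),
      valL HL lam ≠ 0 ∧ valG G lam ≠ 0 := by
  obtain ⟨α, β, hβ, hSd, hTd, hk⟩ := exists_elements hc B hkill
  obtain ⟨HL, hαL, hTL, hposL⟩ := H.exists_data B.T α hTd
  obtain ⟨HK, hαK, hTK, hposK⟩ := H.exists_data B.S β hSd
  subst hαL hαK
  exact ⟨HL, HK, Lifted.mkNorm hc HL HK hβ, valL_ne hposL hTL hk,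
    valG_ne hc hposK hlam hβ hTL hTK hk⟩

end Fermat.LTG.Sys
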