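import Fermat.Agent.LTG.Sys.Act
import Fermat.Agent.LTG.Sys.TestBase

/-!
# Systems: the test kernels as lists of operations on the two squared operators

`fixL` are the operations on `L` at the level and of two terms of the operator on `K` moved to the
chosen places; `fixK` those on `K` at the level and of the base change of two terms on `L`.
-/

set_option autoImplicit false
open NumberField Filter Set
open scoped Classical

namespace Fermat.LTG.Sys

open Fermat.LT
open Fermat.LT.Sys (AEq)

/-! ### the effect of lists -/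

section General

variable {F : Type} [Field F] [NumberField F] {S : Lev F}

/-- Local operations at distinct places change exactly those local factors. -/
lemma steps_loc_map {ι : Type*} (f : ι → Place F) (hf : Function.Injective f)
    (r : ∀ i, LKer S (f i)) (l : List ι) (hl : l.Nodup) (P : PKer F S) :
    (∀ i ∈ l, (steps (l.map fun i => (Sum.inl ⟨f i, r i⟩ : Op F S)) P).loc (f i)
      = (r i).comp (P.loc (f i))) ∧
    (∀ x, (∀ i ∈ l, f i ≠ x) →
      (steps (l.map fun i => (Sum.inl ⟨f i, r i⟩ : Op F S)) P).loc x = P.loc x) ∧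
    (steps (l.map fun i => (Sum.inl ⟨f i, r i⟩ : Op F S)) P).arch = P.arch := by
  induction l with
  | nil => exact ⟨by simp, fun x _ => rfl, rfl⟩
  | cons a l ih =>
    rw [List.nodup_cons] at hl
    obtain ⟨h1, h2, h3⟩ := ih hl.2
    refine ⟨fun i hi => ?_, fun x hx => ?_, h3⟩
    · change Function.update (steps (l.map _) P).loc (f a)
        ((r a).comp ((steps (l.map _) P).loc (f a))) (f i) = _
      rcases List.mem_cons.1 hi with rfl | hi'
      · rw [Function.update_self, h2 (f i) fun j hj e => hl.1 (by rw [← hf e]; exact hj)]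
      · rw [Function.update_of_ne fun e => hl.1 (by rw [← hf e]; exact hi'), h1 i hi']
    · change Function.update (steps (l.map _) P).loc (f a) _ x = _
      rw [Function.update_of_ne (Ne.symm (hx a List.mem_cons_self)),
        h2 x fun i hi => hx i (List.mem_cons_of_mem _ hi)]

/-- Archimedean operations at distinct places change exactly those factors. -/
lemma steps_arch_map {ι : Type*} (f : ι → InfinitePlace F) (hf : Function.Injective f)
    (a : ι → AKer) (l : List ι) (hl : l.Nodup) (P : PKer F S) :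
    (∀ i ∈ l, (steps (l.map fun i => (Sum.inr (f i, a i) : Op F S)) P).arch (f i)
      = (a i).comp (P.arch (f i))) ∧
    (∀ x, (∀ i ∈ l, f i ≠ x) →
      (steps (l.map fun i => (Sum.inr (f i, a i) : Op F S)) P).arch x = P.arch x) ∧
    (steps (l.map fun i => (Sum.inr (f i, a i) : Op F S)) P).loc = P.loc := by
  induction l with
  | nil => exact ⟨by simp, fun x _ => rfl, rfl⟩
  | cons b l ih =>
    rw [List.nodup_cons] at hl
    obtain ⟨h1, h2, h3⟩ := ih hl.2
    refine ⟨fun i hi => ?_, fun x hx => ?_, h3⟩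
    · change Function.update (steps (l.map _) P).arch (f b)
        ((a b).comp ((steps (l.map _) P).arch (f b))) (f i) = _
      rcases List.mem_cons.1 hi with rfl | hi'
      · rw [Function.update_self, h2 (f i) fun j hj e => hl.1 (by rw [← hf e]; exact hj)]
      · rw [Function.update_of_ne fun e => hl.1 (by rw [← hf e]; exact hi'), h1 i hi']
    · change Function.update (steps (l.map _) P).arch (f b) _ x = _
      rw [Function.update_of_ne (Ne.symm (hx b List.mem_cons_self)),
        h2 x fun i hi => hx i (List.mem_cons_of_mem _ hi)]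

/-- The operations at the level. -/
noncomputable def opsAt (S : Lev F) (r : ∀ v, LKer S v) : List (Op F S) :=
  S.places.toList.map fun v => Sum.inl ⟨v, r v⟩

/-- The steps at the level change only the kernels at the level. -/
lemma steps_opsAt (r : ∀ v, LKer S v) (P : PKer F S) :
    (∀ v, v ∈ S → (steps (opsAt S r) P).loc v = (r v).comp (P.loc v)) ∧
    (∀ v, v ∉ S → (steps (opsAt S r) P).loc v = P.loc v) ∧
    (steps (opsAt S r) P).arch = P.arch := by
  obtain ⟨h1, h2, h3⟩ := steps_loc_map (fun v : Place F => v) (fun _ _ h => h) r S.places.toList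
    (Finset.nodup_toList _) P
  exact ⟨fun v hv => h1 v (Finset.mem_toList.2 (Lev.mem_places.2 hv)),
    fun v hv => h2 v fun i hi e => hv (e ▸ Lev.mem_places.1 (Finset.mem_toList.1 hi)), h3⟩

/-- Sums over the terms of a finite combination of kernels. -/
lemma sum_ofFintype {ι : Type*} [Fintype ι] (c : ι → ℂ) (P : ι → PKer F S)
    (g : ℂ → PKer F S → ℂ) :
    ∑ i, g ((SKer.ofFintype c P).coef i) ((SKer.ofFintype c P).ker i) = ∑ i, g (c i) (P i) :=
  (Fintype.equivFin ι).symm.sum_comp fun i => g (c i) (P i)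

/-- The summed squared combination after operations is a double sum. -/
lemma kap_stepsS_comp {ι : Type*} [Fintype ι] (c : ι → ℂ) (P : ι → PKer F S) (ops : List (Op F S))
    (p q : Pt F S) :
    ((stepsS ops (SKer.ofFintype c P)).comp (SKer.ofFintype c P)).kap p q
      = ∑ i, ∑ j, c i * c j * (steps ops ((P i).comp (P j))).kap p q := by
  rw [SKer.kap_comp]
  calc ∑ i, ∑ j, (SKer.ofFintype c P).coef i * (SKer.ofFintype c P).coef j *
        ((steps ops ((SKer.ofFintype c P).ker i)).comp ((SKer.ofFintype c P).ker j)).kap p q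
      = ∑ i, ∑ j, c i * c j * ((steps ops (P i)).comp (P j)).kap p q := by
        rw [← sum_ofFintype c P fun a Q => ∑ j, a * c j * ((steps ops Q).comp (P j)).kap p q]
        refine Finset.sum_congr rfl fun i _ => ?_
        exact sum_ofFintype c P fun b Q => (SKer.ofFintype c P).coef i * b *
          ((steps ops ((SKer.ofFintype c P).ker i)).comp Q).kap p q
    _ = _ := Finset.sum_congr rfl fun i _ => Finset.sum_congr rfl fun j _ => by
        rw [(steps_comp ops _ _).kap]

end General

variable {K L : Type} [Field K] [NumberField K] [Field L] [NumberField L] [Algebra K L]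
  {σ : L ≃ₐ[K] L} {B : Block K L σ} (HL : H.Data L B.T) {HK : H.Data K B.S} (G : Lifted (L := L) HK)

/-- The local kernel on `L` of a term is its factor. -/
lemma term_loc_hE (E : Finset (HL.Idx → Bool)) {w : Place L} (hw : w ∉ B.T) :
    (HL.term E).loc w = sphKer hw (hE HL E w) := by
  by_cases h : w ∈ HL.T
  · rw [HL.term_loc_mem E h, hE, dif_pos h]
  · rw [HL.term_loc_not E h, hE_eq_one HL E h, sphKer_one]

/-- The local kernel of a term is trivial at the level. -/
lemma term_loc_level {F : Type} [Field F] [NumberField F] {S : Lev F} (D : H.Data F S)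
    (E : Finset (D.Idx → Bool)) {w : Place F} (hw : w ∈ S) : (D.term E).loc w = LKer.one S w :=
  D.term_loc_not E fun h => D.notMem w h hw

/-- The local kernel on `K` of a term is its factor. -/
lemma term_loc_fF (F : Finset (HK.Idx → Bool)) {v : Place K} (hv : v ∉ B.S) :
    (HK.term F).loc v = sphKer hv (fF HK F v) := by
  by_cases h : v ∈ HK.T
  · rw [HK.term_loc_mem F h, fF, dif_pos h]
  · rw [HK.term_loc_not F h, fF_eq_one F h, sphKer_one]

/-- A term on `K` moved to the chosen places, as operations. -/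
noncomputable def opsG (F : Finset (HK.Idx → Bool)) : List (Op L B.T) :=
  ((Finset.univ : Finset HK.T).toList.map fun v =>
    (Sum.inl ⟨cPl K L v.1, sphKer (cPl_notMem (HK.notMem v.1 v.2)) (G.g F v)⟩ : Op L B.T)) ++
  ((Finset.univ : Finset (InfinitePlace K)).toList.map fun u =>
    (Sum.inr (plAbove L u, (HK.term F).arch u) : Op L B.T))

/-- The factors of the operations of a term on `K` moved to chosen places. -/
lemma steps_opsG (F : Finset (HK.Idx → Bool)) (P : PKer L B.T) :
    (∀ x, x ∈ B.T → (steps (opsG G F) P).loc x = P.loc x) ∧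
    (∀ x (hx : x ∉ B.T), (steps (opsG G F) P).loc x = (sphKer hx (gF G F x)).comp (P.loc x)) ∧
    (∀ w, (steps (opsG G F) P).arch w = if w = plAbove L (w.comap (algebraMap K L))
      then ((HK.term F).arch (w.comap (algebraMap K L))).comp (P.arch w) else P.arch w) := by
  have hinj : Function.Injective fun v : HK.T => cPl K L v.1 := fun a b h => Subtype.ext <| by
    have h' := congrArg (below K) h
    simpa [below_cPl] using h'
  have hinj' : Function.Injective (plAbove L : InfinitePlace K → InfinitePlace L) := fun a b h => by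
    have h' := congrArg (fun w : InfinitePlace L => w.comap (algebraMap K L)) h
    simpa [plAbove_comap] using h'
  set Q := steps ((Finset.univ : Finset (InfinitePlace K)).toList.map fun u =>
    (Sum.inr (plAbove L u, (HK.term F).arch u) : Op L B.T)) P with hQ
  obtain ⟨h1, h2, h3⟩ := steps_loc_map (fun v : HK.T => cPl K L v.1) hinj
    (fun v => sphKer (cPl_notMem (HK.notMem v.1 v.2)) (G.g F v))
    (Finset.univ : Finset HK.T).toList (Finset.nodup_toList _) Q
  obtain ⟨h4, h5, h6⟩ := steps_arch_map (plAbove L) hinj' (fun u => (HK.term F).arch u)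
    (Finset.univ : Finset (InfinitePlace K)).toList (Finset.nodup_toList _) P
  rw [opsG, steps_append]
  refine ⟨fun x hx => ?_, fun x hx => ?_, fun w => ?_⟩
  · rw [h2 x fun v _ e => cPl_notMem (HK.notMem v.1 v.2) (by rw [← e] at hx; exact hx), hQ, h6]
  · by_cases h : x ∈ (cPl K L) '' (HK.T : Set (Place K))
    · obtain ⟨v, hv, rfl⟩ := h
      rw [h1 ⟨v, hv⟩ (Finset.mem_toList.2 (Finset.mem_univ _)), hQ, h6, gF_cPl G F ⟨v, hv⟩]
    · rw [h2 x fun v _ e => h ⟨v.1, v.2, e⟩, hQ, h6, gF_eq_one G F h, sphKer_one, LKer.one_comp_eq]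
  · rw [h3, hQ]
    by_cases h : w = plAbove L (w.comap (algebraMap K L))
    · rw [if_pos h]
      conv_lhs => rw [h]
      rw [h4 _ (Finset.mem_toList.2 (Finset.mem_univ _)), ← h]
    · rw [if_neg h, h5 w fun u _ e => h (by rw [← e, plAbove_comap])]

/-- The base change of a term on `L`, as operations. -/
noncomputable def opsP (E : Finset (HL.Idx → Bool)) : List (Op K B.S) :=
  ((Finset.univ : Finset {v // v ∈ HL.T.image (below K)}).toList.map fun v =>
    (Sum.inl ⟨v.1, sphKer (show v.1 ∉ B.S by
      obtain ⟨w, hw, e⟩ := Finset.mem_image.1 v.2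
      rw [← e]; exact below_notMem (HL.notMem w hw)) (pE HL E v.1)⟩ : Op K B.S)) ++
  (((Finset.univ : Finset (InfinitePlace K)).toList.map fun u =>
    (Sum.inr (u, (HL.term E).arch (plAbove L u)) : Op K B.S)) ++
  (((Finset.univ : Finset (InfinitePlace K)).toList.map fun u =>
    (Sum.inr (u, (HL.term E).arch (σ • plAbove L u)) : Op K B.S)) ++
  ((Finset.univ : Finset (InfinitePlace K)).toList.map fun u =>
    (Sum.inr (u, (HL.term E).arch (σ • σ • plAbove L u)) : Op K B.S))))

/-- The factors of the operations of a base changed term on `L`. -/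
lemma steps_opsP (E : Finset (HL.Idx → Bool)) (P : PKer K B.S) :
    (∀ x, x ∈ B.S → (steps (opsP HL E) P).loc x = P.loc x) ∧
    (∀ x (hx : x ∉ B.S), (steps (opsP HL E) P).loc x = (sphKer hx (pE HL E x)).comp (P.loc x)) ∧
    (∀ u, (steps (opsP HL E) P).arch u = ((HL.term E).arch (plAbove L u)).comp
      (((HL.term E).arch (σ • plAbove L u)).comp
        (((HL.term E).arch (σ • σ • plAbove L u)).comp (P.arch u)))) := by
  have hA : ∀ (a : InfinitePlace K → AKer) (Q : PKer K B.S),
      (steps ((Finset.univ : Finset (InfinitePlace K)).toList.map fun u =>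
        (Sum.inr (u, a u) : Op K B.S)) Q).loc = Q.loc ∧
      ∀ u, (steps ((Finset.univ : Finset (InfinitePlace K)).toList.map fun u =>
        (Sum.inr (u, a u) : Op K B.S)) Q).arch u = (a u).comp (Q.arch u) := fun a Q => by
    obtain ⟨h4, -, h6⟩ := steps_arch_map (fun u : InfinitePlace K => u) (fun _ _ h => h) a
      (Finset.univ : Finset (InfinitePlace K)).toList (Finset.nodup_toList _) Q
    exact ⟨h6, fun u => h4 u (Finset.mem_toList.2 (Finset.mem_univ _))⟩
  set Q := steps ((((Finset.univ : Finset (InfinitePlace K)).toList.map fun u =>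
    (Sum.inr (u, (HL.term E).arch (plAbove L u)) : Op K B.S))) ++
  (((Finset.univ : Finset (InfinitePlace K)).toList.map fun u =>
    (Sum.inr (u, (HL.term E).arch (σ • plAbove L u)) : Op K B.S)) ++
  ((Finset.univ : Finset (InfinitePlace K)).toList.map fun u =>
    (Sum.inr (u, (HL.term E).arch (σ • σ • plAbove L u)) : Op K B.S)))) P with hQ
  have hQl : Q.loc = P.loc := by
    rw [hQ, steps_append, steps_append, (hA _ _).1, (hA _ _).1, (hA _ _).1]
  obtain ⟨h1, h2, h3⟩ := steps_loc_map (fun v : {v // v ∈ HL.T.image (below K)} => v.1)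
    Subtype.val_injective (fun v => sphKer (show v.1 ∉ B.S by
      obtain ⟨w, hw, e⟩ := Finset.mem_image.1 v.2
      rw [← e]; exact below_notMem (HL.notMem w hw)) (pE HL E v.1))
    (Finset.univ : Finset {v // v ∈ HL.T.image (below K)}).toList (Finset.nodup_toList _) Q
  rw [opsP, steps_append]
  refine ⟨fun x hx => ?_, fun x hx => ?_, fun u => ?_⟩
  · rw [h2 x fun v _ e => ?_, hQl]
    obtain ⟨w, hw, e'⟩ := Finset.mem_image.1 v.2
    exact below_notMem (HL.notMem w hw) (by rw [e', e]; exact hx)
  · by_cases h : x ∈ HL.T.image (below K)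
    · rw [h1 ⟨x, h⟩ (Finset.mem_toList.2 (Finset.mem_univ _)), hQl]
    · rw [h2 x fun v _ e => h (e ▸ v.2), hQl, pE_eq_one HL E h, sphKer_one, LKer.one_comp_eq]
  · rw [h3, hQ, steps_append, steps_append, (hA _ _).2, (hA _ _).2, (hA _ _).2]

/-- The fixed operations on `L`. -/
noncomputable def fixL (F₁ F₂ : Finset (HK.Idx → Bool)) : List (Op L B.T) :=
  opsAt B.T B.locL ++ (opsG G F₁ ++ opsG G F₂)

/-- The fixed operations on `K`. -/
noncomputable def fixK (E₁ E₂ : Finset (HL.Idx → Bool)) : List (Op K B.S) :=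
  opsAt B.S B.locK ++ (opsP HL E₁ ++ opsP HL E₂)

/-- The fixed operations on `L` give the kernel of the base test data. -/
lemma kerL_base (F₁ F₂ : Finset (HK.Idx → Bool)) (E₁ E₂ : Finset (HL.Idx → Bool)) :
    PEq (steps (fixL G F₁ F₂) ((HL.term E₁).comp (HL.term E₂)))
      (kerL (tBase HL G F₁ F₂ E₁ E₂)) := by
  rw [fixL, steps_append, steps_append]
  set P₀ := (HL.term E₁).comp (HL.term E₂)
  set P₂ := steps (opsG G F₂) P₀
  obtain ⟨a1, a2, a3⟩ := steps_opsAt B.locL (steps (opsG G F₁) P₂)
  obtain ⟨b1, b2, b3⟩ := steps_opsG G F₁ P₂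
  obtain ⟨c1, c2, c3⟩ := steps_opsG G F₂ P₀
  refine ⟨fun x => ?_, fun w => ?_⟩
  · by_cases hx : x ∈ B.T
    · rw [a1 x hx, b1 x hx, c1 x hx, kerL_loc_mem _ hx]
      change (B.locL x).comp (((HL.term E₁).loc x).comp ((HL.term E₂).loc x)) = _
      rw [term_loc_level HL E₁ hx, term_loc_level HL E₂ hx, LKer.one_comp_eq, LKer.comp_one]
    · rw [a2 x hx, b2 x hx, c2 x hx, kerL_loc_sph _ hx]
      change (sphKer hx _).comp
        ((sphKer hx _).comp (((HL.term E₁).loc x).comp ((HL.term E₂).loc x))) = _
      rw [term_loc_hE HL E₁ hx, term_loc_hE HL E₂ hx, sphKer_mul, sphKer_mul, sphKer_mul]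
      rfl
  · rw [a3, b3 w, c3 w]
    change AEq _ (kBase HL F₁ F₂ E₁ E₂ w)
    rw [kBase]
    split_ifs with h
    · exact AEq.refl _
    · exact AEq.refl _

variable (hc : Cyc3 K L σ) [IsTotallyComplex K]
include hc

/-- The fixed operations on `K` give the kernel of the base test data. -/
lemma kerK_base (F₁ F₂ : Finset (HK.Idx → Bool)) (E₁ E₂ : Finset (HL.Idx → Bool)) :
    PEq (steps (fixK HL E₁ E₂) ((HK.term F₁).comp (HK.term F₂)))
      (kerK σ (tBase HL G F₁ F₂ E₁ E₂)) := by
  rw [fixK, steps_append, steps_append]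
  set P₀ := (HK.term F₁).comp (HK.term F₂)
  set P₂ := steps (opsP HL E₂) P₀
  obtain ⟨a1, a2, a3⟩ := steps_opsAt B.locK (steps (opsP HL E₁) P₂)
  obtain ⟨b1, b2, b3⟩ := steps_opsP HL E₁ P₂
  obtain ⟨c1, c2, c3⟩ := steps_opsP HL E₂ P₀
  refine ⟨fun x => ?_, fun u => ?_⟩
  · by_cases hx : x ∈ B.S
    · rw [a1 x hx, b1 x hx, c1 x hx, kerK_loc_mem _ hx]
      change (B.locK x).comp (((HK.term F₁).loc x).comp ((HK.term F₂).loc x)) = _
      rw [term_loc_level HK F₁ hx, term_loc_level HK F₂ hx, LKer.one_comp_eq, LKer.comp_one]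
    · rw [a2 x hx, b2 x hx, c2 x hx, kerK_loc_sph _ hx, bcPoly_tBase HL G hc]
      change (sphKer hx _).comp
        ((sphKer hx _).comp (((HK.term F₁).loc x).comp ((HK.term F₂).loc x))) = _
      rw [term_loc_fF F₁ hx, term_loc_fF F₂ hx, sphKer_mul, sphKer_mul, sphKer_mul]
  · rw [a3, b3 u, c3 u]
    exact (kerK_arch_tBase HL G F₁ F₂ E₁ E₂ u hc).symm

end Fermat.LTG.Sys
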