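import Fermat.Agent.LTG.Sys.Act
import Fermat.Agent.LTG.Sys.Level
import Fermat.Agent.LTG.Mult.Trace
import Fermat.Agent.LTG.CuspAuto
import Fermat.Agent.LTG.Operators
import Fermat.Agent.LTG.SphKer
import Fermat.Agent.LTG.TwVal

/-!
# Systems: the operator at the level on the joint eigenfunctions of the eigenvalues

On a finite orthonormal family spanning the eigenfunctions, the sum of the twisted matrix
coefficients of the operator at the level is its trace on the functions of the level, so it is not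
zero.
-/

set_option autoImplicit false
open NumberField Filter MeasureTheory Set Polynomial
open scoped Classical ComplexConjugate

namespace Fermat.LTG.Sys.VT

open Fermat.LT

section Plain

variable {F : Type*} [Field F] [NumberField F] {S : Lev F} {v : Place F}

/-- The action of a local kernel is linear in the function. -/
lemma locAct_sum_mul {ι : Type*} (s : Finset ι) (l : LKer S v) (a : ι → ℂ) (Φ : ι → Pt F S → ℂ) :
    locAct v l (fun q => ∑ i ∈ s, a i * Φ i q) = fun p => ∑ i ∈ s, a i * locAct v l (Φ i) p := by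
  funext p
  simp only [locAct, Finset.mul_sum]
  rw [Finset.sum_comm]
  exact Finset.sum_congr rfl fun i _ => Finset.sum_congr rfl fun y _ => by ring

variable [IsTotallyComplex F]

/-- Operations at the level preserve eigenfunctions. -/
theorem isEigFn_locAct {Z : Set (Place F)} {lam : Place F → ℝ} {Φ : Pt F S → ℂ}
    (h : IsEigFn S Z lam Φ) (hv : v ∈ S) (l : LKer S v) : IsEigFn S Z lam (locAct v l Φ) := by
  have hinv : IsInvariant (locAct v l Φ) := isInvariant_locAct l h.invariant
  have hc : ∀ ω : FinPt F S, Continuous fun x : InfinitePlace F → H3 => locAct v l Φ (ω, x) :=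
    continuous_locAct l h.continuous
  -- the archimedean operators commute with `locAct v l`
  have harch : IsArchEigen (locAct v l Φ) := fun u k hk hs p => by
    refine (archAct_rad u ⟨k, hk, hs⟩ hc p).symm.trans ?_
    rw [archAct_locAct l u _ h.continuous h.bounded,
      funext fun q => IsArchEigen.archAct_eq h.arch h.continuous u ⟨k, hk, hs⟩ q, locAct_smul_fun]
  have hb := bounded_locAct l h.bounded
  refine ⟨hinv, hc, hb, harch, hasZeroConst_of_archEigen hinv hc hb harch,
    fun u hu huZ p => ?_⟩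
  -- so do the Hecke operators
  have e : locAct u (sphKer hu X) Φ = fun q => (lam u : ℂ) * Φ q := funext fun q => by
    rw [← heckeT_eq_locAct hu]; exact h.hecke u hu huZ q
  rw [heckeT_eq_locAct hu, locAct_comm (fun e : u = v => hu (e ▸ hv)), e, locAct_smul_fun]

omit [IsTotallyComplex F] in
/-- The Hecke operator is linear. -/
lemma heckeT_sum_mul {ι : Type*} (s : Finset ι) (hv : v ∉ S) (a : ι → ℂ) (Φ : ι → Pt F S → ℂ)
    (p : Pt F S) :
    heckeT v (fun q => ∑ i ∈ s, a i * Φ i q) p = ∑ i ∈ s, a i * heckeT v (Φ i) p := by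
  simp only [heckeT_eq_locAct hv, locAct_sum_mul]

/-- An automorphism fixing the exponents preserves the eigenfunctions of these exponents. -/
theorem exists_isVec_amap {N : Place F → ℕ} {Z : Set (Place F)} {lam : Place F → ℝ} (hZ : Z.Finite)
    (τ : F ≃+* F) (hS : Stable τ S) (hbad : {v | lam (mapPlace τ v) ≠ lam v}.Finite)
    (hN : ∀ v, N (mapPlace τ v) = N v) (hNS : ∀ v, N v ≤ S.depth v) {Φ : Pt F S → ℂ}
    (h : IsVec S N Z lam Φ) :
    ∃ Z' : Set (Place F), Z'.Finite ∧ IsVec S N Z' lam fun p => Φ (Pt.amap hS p) := by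
  set T := S.places ∪ hZ.toFinset
  have hA : Mult.IsAut T lam (Mult.pull Φ) := Mult.isAut_pull h.1 fun u hu => by
    simpa [T] using hu
  have hA' := hA.Utw τ hbad
  set T' := T.image (mapPlace τ).symm ∪ hbad.toFinset
  have hU : ∀ u, U0N (u.valuation F) (N u) ≤ Mult.stab u (Mult.Utw τ (Mult.pull Φ)) := fun u =>
    Mult.U0N_le_stab_Utw τ (by rw [← hN u]; exact Mult.U0N_le_stab_pull h.2 _)
  have hL := Mult.isLevel_of_U0N hA' hNS hU
  have e : Mult.desc S (Mult.Utw τ (Mult.pull Φ)) = fun p => Φ (Pt.amap hS p) := by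
    rw [Mult.desc_Utw hS (Mult.isLevel_pull Φ), Mult.desc_pull]
  exact ⟨_, T'.finite_toSet, e ▸ ⟨hA'.isEigFn hL fun u _ hu => by simpa using hu,
    Mult.isU0Inv_desc hL hU⟩⟩

/-- Inverse automorphisms give inverse maps on points. -/
lemma amap_inverse {τ ρ : F ≃+* F} (hS : Stable τ S) (hS' : Stable ρ S)
    (he : ρ.trans τ = RingEquiv.refl F) (p : Pt F S) : Pt.amap hS (Pt.amap hS' p) = p := by
  rw [Pt.amap_amap hS hS' (he ▸ stable_refl S)]
  simp only [he]
  exact Pt.amap_refl _ p

/-- Change of variables along an automorphism. -/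
theorem integral_dom_amap {D : Set (Pt F S)} (hD : IsFundamentalDomain (PG F) D ptMeasure)
    {τ : F ≃+* F} (hS : Stable τ S) (hS' : Stable τ.symm S) {G : Pt F S → ℂ}
    (hG : ∀ (γ : PG F) p, G (γ • p) = G p) :
    ∫ p in D, G (Pt.amap hS p) ∂ptMeasure = ∫ p in D, G p ∂ptMeasure := by
  set f := Pt.amap (S := S) hS
  have h1 : ∀ p, Pt.amap hS' (f p) = p := amap_inverse hS' hS (RingEquiv.self_trans_symm τ)
  have h2 : ∀ p, f (Pt.amap hS' p) = p := amap_inverse hS hS' (RingEquiv.symm_trans_self τ)
  have hinv : ∀ γ : PG F, PG.amap τ (PG.amap τ.symm γ) = γ := fun γ => by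
    obtain ⟨g, rfl⟩ := QuotientGroup.mk_surjective γ
    rw [PG.amap_mk, PG.amap_mk, mapGL_mapGL, RingEquiv.symm_trans_self]
    rfl
  have hinv' : ∀ γ : PG F, PG.amap τ.symm (PG.amap τ γ) = γ := fun γ => by
    obtain ⟨g, rfl⟩ := QuotientGroup.mk_surjective γ
    rw [PG.amap_mk, PG.amap_mk, mapGL_mapGL, RingEquiv.self_trans_symm]
    rfl
  have hfd : IsFundamentalDomain (PG F) (f ⁻¹' D) (ptMeasure (F := F) (S := S)) :=
    hD.preimage_of_equiv (f := f) (measurePreserving_amap hS).quasiMeasurePreserving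
      (e := fun γ => PG.amap τ.symm γ)
        (Function.bijective_iff_has_inverse.2 ⟨fun γ => PG.amap τ γ, hinv, hinv'⟩)
      fun γ p => by
        change Pt.amap hS (PG.amap τ.symm γ • p) = γ • Pt.amap hS p
        rw [PG.amap_smul, hinv]
  have hemb : MeasurableEmbedding f :=
    (⟨⟨f, Pt.amap hS', h1, h2⟩, (measurePreserving_amap hS).measurable,
      (measurePreserving_amap hS').measurable⟩ : Pt F S ≃ᵐ Pt F S).measurableEmbedding
  rw [hD.setIntegral_eq hfd fun γ p => by simp only [f, PG.amap_smul, hG]]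
  exact (measurePreserving_amap hS).setIntegral_preimage_emb hemb G D

end Plain

variable {K L : Type} [Field K] [NumberField K] [Field L] [NumberField L] [Algebra K L]
  {σ : L ≃ₐ[K] L}

/-- The action of a list is linear. -/
lemma actList_sum_mul {ι : Type*} (s : Finset ι) (B : Block K L σ) (l : List (Place L)) (a : ι → ℂ)
    (Φ : ι → Pt L B.T → ℂ) :
    actList B l (fun q => ∑ i ∈ s, a i * Φ i q) = fun p => ∑ i ∈ s, a i * actList B l (Φ i) p := by
  induction l with
  | nil => rfl
  | cons w l ih => simp only [actList_cons, ih, locAct_sum_mul]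

variable [IsTotallyComplex L]

/-- Acting at the level keeps an eigenfunction. -/
lemma isEigFn_actList (B : Block K L σ) {Z : Set (Place L)} {lam : Place L → ℝ} {Φ : Pt L B.T → ℂ}
    (h : IsEigFn B.T Z lam Φ) (l : List (Place L)) (hl : ∀ w ∈ l, w ∈ B.T) :
    IsEigFn B.T Z lam (actList B l Φ) := by
  induction l with
  | nil => exact h
  | cons w l ih =>
    rw [actList_cons]
    exact isEigFn_locAct (ih fun u hu => hl u (List.mem_cons_of_mem _ hu))
      (hl w List.mem_cons_self) _

variable {W : Set (Place L)} {lam : Place L → ℝ} (D : LevelData σ W lam)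

/-- The basis functions are eigenfunctions. -/
lemma isEigFn_basis (i : D.V.ι) (Z : Set (Place L)) : IsEigFn D.B.T Z lam (D.V.f i) :=
  let h := (D.V.mem i).1
  ⟨h.invariant, h.continuous, h.bounded, h.arch, h.cuspidal,
    fun w hw _ => h.hecke w hw fun hW => hw (D.mem_T w hW)⟩

/-- The operator at the level projects to the span of the basis. -/
theorem exists_actT_eq {Z : Set (Place L)} (hZ : Z.Finite) {Φ : Pt L D.B.T → ℂ}
    (h : IsEigFn D.B.T Z lam Φ) :
    ∃ a : D.V.ι → ℂ, actT D.B Φ = fun p => ∑ b, a b * D.V.f b p :=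
  D.V.span Z hZ _ ⟨isEigFn_actList D.B h _ fun _ hw => Lev.mem_places.1 (Finset.mem_toList.1 hw),
    D.range Φ⟩

/-- After the operator at the level no exceptional place is left. -/
theorem hecke_actT_of_off {Z : Set (Place L)} (hZ : Z.Finite) {Φ : Pt L D.B.T → ℂ}
    (h : IsEigFn D.B.T Z lam Φ) {w : Place L} (hw : w ∉ D.B.T) (p : Pt L D.B.T) :
    heckeT w (actT D.B Φ) p = (lam w : ℂ) * actT D.B Φ p := by
  obtain ⟨a, ha⟩ := exists_actT_eq D hZ h
  rw [ha, heckeT_sum_mul _ hw, Finset.mul_sum]
  refine Finset.sum_congr rfl fun b _ => ?_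
  rw [(isEigFn_basis D b ∅).hecke w hw (Set.notMem_empty w)]
  ring

/-- **The sum of the twisted matrix coefficients is a trace, hence not zero.** -/
theorem sum_integral_ne_zero (hlam : {w | lam (mapPlace (σ : L ≃+* L).symm w) ≠ lam w}.Finite)
    (hW : W.Finite) {DL : Set (Pt L D.B.T)} (hD : IsFundamentalDomain (PG L) DL ptMeasure)
    {I : Type*} (s : Finset I) (Φ : I → Pt L D.B.T → ℂ)
    (horth : ∀ i ∈ s, ∀ k ∈ s, ∫ p, conj (Φ i p) * Φ k p ∂domMeasure DL = if i = k then 1 else 0)
    (hP : ∀ i ∈ s, IsEigFn D.B.T ∅ lam (Φ i))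
    (hspan : ∀ Ψ, IsEigFn D.B.T ∅ lam Ψ → ∃ a : I → ℂ, Ψ = fun p => ∑ i ∈ s, a i * Φ i p) :
    ∑ i ∈ s, ∫ p, conj (Φ i (Pt.amap D.B.stable p)) * actT D.B (Φ i) p ∂domMeasure DL ≠ 0 := by
  have := isFiniteMeasure_domMeasure hD
  obtain ⟨M, hM, hM0⟩ := D.trace
  have hc : ∀ i ∈ s, ∃ c : D.V.ι → ℂ, actT D.B (Φ i) = fun p => ∑ b, c b * D.V.f b p := fun i hi =>
    exists_actT_eq D Set.finite_empty (hP i hi)
  choose! c hc using hc
  have hR : ∀ b, ∃ r : D.V.ι → ℂ,
      (fun p => D.V.f b (Pt.amap D.stable' p)) = fun p => ∑ b', r b' * D.V.f b' p := fun b => by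
    obtain ⟨Z', hZ', h'⟩ := exists_isVec_amap hW _ D.stable' hlam D.N_map' D.N_le (D.V.mem b)
    exact D.V.span Z' hZ' _ h'
  choose R hR using hR
  have ha : ∀ b, ∃ a : I → ℂ, D.V.f b = fun p => ∑ i ∈ s, a i * Φ i p := fun b =>
    hspan _ (isEigFn_basis D b ∅)
  choose a ha using ha
  -- expand both families in one another
  set e : I → D.V.ι → ℂ := fun i b' => ∑ b, c i b * R b b'
  have hA : ∀ i ∈ s, ∀ q, actT D.B (Φ i) (Pt.amap D.stable' q) = ∑ b', e i b' * D.V.f b' q := by
    intro i hi q
    rw [hc i hi]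
    simp only [fun b => congrFun (hR b) q, e, Finset.mul_sum, Finset.sum_mul, mul_assoc]
    exact Finset.sum_comm
  have hint : ∀ i ∈ s, ∀ k ∈ s, Integrable (fun p => conj (Φ i p) * Φ k p) (domMeasure DL) := by
    intro i hi k hk
    obtain ⟨C, hC⟩ := (hP i hi).bounded
    obtain ⟨C', hC'⟩ := (hP k hk).bounded
    have hm : ∀ j ∈ s, Measurable (Φ j) := fun j hj =>
      measurable_from_prod_countable_right fun ω => ((hP j hj).continuous ω).measurable
    refine Integrable.mono' (g := fun _ => C * C') (integrable_const _)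
      ((Complex.continuous_conj.measurable.comp (hm i hi)).mul (hm k hk)).aestronglyMeasurable
      (Eventually.of_forall fun p => ?_)
    rw [norm_mul, RCLike.norm_conj]
    exact mul_le_mul (hC p) (hC' p) (norm_nonneg _) ((norm_nonneg _).trans (hC p))
  have hterm : ∀ i ∈ s, ∫ p, conj (Φ i (Pt.amap D.B.stable p)) * actT D.B (Φ i) p ∂domMeasure DL
      = ∑ b', e i b' * a b' i := by
    intro i hi
    have hinvΦ := isInvariant_iff.1 (hP i hi).invariant
    have hinvA : ∀ (g : GL (Fin 2) L) p, actT D.B (Φ i) (g • p) = actT D.B (Φ i) p :=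
      isInvariant_iff.1 (isEigFn_actList D.B (hP i hi) _
        fun w hw => Lev.mem_places.1 (Finset.mem_toList.1 hw)).invariant
    rw [← integral_dom_amap hD D.stable' D.B.stable fun γ p => ?_]
    · simp only [amap_inverse D.B.stable D.stable' (RingEquiv.symm_trans_self _), hA i hi]
      have hexp : ∀ p, conj (Φ i p) * ∑ b', e i b' * D.V.f b' p
          = ∑ k ∈ s, (∑ b', e i b' * a b' k) * (conj (Φ i p) * Φ k p) := fun p => by
        simp only [fun b' => congrFun (ha b') p, Finset.mul_sum, Finset.sum_mul]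
        rw [Finset.sum_comm]
        exact Finset.sum_congr rfl fun k _ => Finset.sum_congr rfl fun b' _ => by ring
      simp only [hexp]
      rw [integral_finsetSum _ fun k hk => (hint i hi k hk).const_mul _]
      simp only [integral_const_mul]
      rw [Finset.sum_congr rfl fun k hk => by rw [horth i hi k hk]]
      simp [hi]
    · obtain ⟨g, rfl⟩ := QuotientGroup.mk_surjective γ
      rw [PG.mk_smul, Pt.amap_smul, hinvΦ, hinvA]
  rw [Finset.sum_congr rfl hterm]
  -- so the sum is the trace of `M`, which is not zero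
  have hMe : ∀ b b', M b b' = ∑ i ∈ s, a b i * e i b' := fun b => by
    have h1 : (fun p => ∑ k, M b k * D.V.f k p)
        = fun p => ∑ k, (∑ i ∈ s, a b i * e i k) * D.V.f k p := by
      rw [← hM b]
      funext p
      change actT D.B (D.V.f b) (Pt.amap D.stable' p) = _
      rw [ha b, actT, actList_sum_mul]
      change ∑ i ∈ s, a b i * actT D.B (Φ i) (Pt.amap D.stable' p) = _
      rw [Finset.sum_congr rfl fun i hi => by rw [hA i hi p]]
      simp only [Finset.mul_sum, Finset.sum_mul, mul_assoc]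
      exact Finset.sum_comm
    have h2 : ∑ k, (M b k - ∑ i ∈ s, a b i * e i k) • D.V.f k = 0 := funext fun p => by
      simp only [Finset.sum_apply, Pi.smul_apply, Pi.zero_apply, smul_eq_mul, sub_mul,
        Finset.sum_sub_distrib]
      exact sub_eq_zero.2 (congrFun h1 p)
    exact fun b' => sub_eq_zero.1 (Fintype.linearIndependent_iff.1 D.V.indep _ h2 b')
  convert hM0 using 1
  simp only [hMe]
  rw [Finset.sum_comm]
  exact Finset.sum_congr rfl fun b _ => Finset.sum_congr rfl fun i _ => mul_comm _ _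

end Fermat.LTG.Sys.VT
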