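import Fermat.Agent.LTG.Sys.Act
import Fermat.Agent.LTG.Sys.Lists

/-!
# Systems: the fixed operations act by scalars on a simultaneous eigenfunction

A term on `K` moved to the chosen places acts on an eigenfunction on `L` by the product of the
values of its polynomials and of its radial eigenvalues; the base change of a term on `L` acts on an
eigenfunction on `K` by some scalar.
-/

set_option autoImplicit false
open NumberField Set Polynomial
open scoped Classical

namespace Fermat.LTG.Sys

open Fermat.LT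
open Fermat.LT.Sys (Rad)

section General

variable {F : Type} [Field F] [NumberField F] {S : Lev F}

/-- Operations which act by scalars compose to a scalar. -/
lemma exists_acts_scalar (l : List (Op F S)) {Φ : Pt F S → ℂ}
    (h : ∀ o ∈ l, ∃ c : ℂ, ∀ p, opAct o Φ p = c * Φ p) :
    ∃ c : ℂ, acts l Φ = fun q => c * Φ q := by
  induction l with
  | nil => exact ⟨1, funext fun q => (one_mul _).symm⟩
  | cons o l ih =>
    obtain ⟨c, hc⟩ := ih fun x hx => h x (List.mem_cons_of_mem _ hx)
    obtain ⟨d, hd⟩ := h o List.mem_cons_self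
    refine ⟨c * d, funext fun q => ?_⟩
    change opAct o (acts l Φ) q = _
    rw [hc, opAct_smul_fun, hd, mul_assoc]

/-- The radial function of a term at an infinite place. -/
noncomputable def radK (D : H.Data F S) (E : Finset (D.Idx → Bool)) (u : InfinitePlace F) : Rad :=
  ⟨D.radF E u, (D.contDiff_radF E u).continuous, D.hasCompactSupport_radF E u⟩

/-- The archimedean kernel of a term is its radial function. -/
lemma term_arch_radK (D : H.Data F S) (E : Finset (D.Idx → Bool)) (u : InfinitePlace F) :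
    (D.term E).arch u = (radK D E u).ker := rfl

variable {Φ : Pt F S → ℂ} {e : Coord F S → ℝ}
  (heig : ∀ j p, opAct (coordOp j) Φ p = (e j : ℂ) * Φ p)
include heig

/-- A Hecke polynomial acts on the eigenfunction by its value at the eigenvalue. -/
lemma opAct_sphKer_eig {v : Place F} (hv : v ∉ S) (q : ℂ[X]) (p : Pt F S) :
    opAct (Sum.inl ⟨v, sphKer hv q⟩ : Op F S) Φ p = q.eval (e (Sum.inl ⟨v, hv⟩) : ℂ) * Φ p :=
  locAct_sphKer_eval hv (heig (Sum.inl ⟨v, hv⟩)) q p

/-- A radial kernel acts on the eigenfunction by its eigenvalue. -/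
lemma opAct_rad_eig (u : InfinitePlace F) (k : Rad) (p : Pt F S) :
    opAct (Sum.inr (u, k.ker) : Op F S) Φ p = (e (Sum.inr (u, k)) : ℂ) * Φ p :=
  heig (Sum.inr (u, k)) p

end General

variable {K L : Type} [Field K] [NumberField K] [Field L] [NumberField L] [Algebra K L]
  {σ : L ≃ₐ[K] L} {B : Block K L σ} {HK : H.Data K B.S} (G : Lifted (L := L) HK)

/-- The scalar of a term on `K` moved to the chosen places. -/
noncomputable def gVal (e : Coord L B.T → ℝ) (F : Finset (HK.Idx → Bool)) : ℂ :=
  (∏ v : HK.T, (G.g F v).eval (e (Sum.inl ⟨cPl K L v.1, cPl_notMem (HK.notMem v.1 v.2)⟩) : ℂ)) *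
    ∏ u : InfinitePlace K, (e (Sum.inr (plAbove L u, radK HK F u)) : ℂ)

/-- **The moved term acts by `gVal`.** On an eigenfunction of the coordinates the combination `opsG`
acts by the scalar `gVal`. -/
theorem acts_opsG {Φ : Pt L B.T → ℂ} {e : Coord L B.T → ℝ}
    (heig : ∀ j p, opAct (coordOp j) Φ p = (e j : ℂ) * Φ p) (F : Finset (HK.Idx → Bool)) :
    acts (opsG G F) Φ = fun q => gVal G e F * Φ q := by
  funext q
  rw [opsG, acts_append, acts_map _ (fun u => (e (Sum.inr (plAbove L u, radK HK F u)) : ℂ))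
      (Finset.univ : Finset (InfinitePlace K)).toList
      fun u _ p => by rw [term_arch_radK]; exact opAct_rad_eig heig (plAbove L u) (radK HK F u) p,
    acts_smul_fun, acts_map _
      (fun v : HK.T =>
        (G.g F v).eval (e (Sum.inl ⟨cPl K L v.1, cPl_notMem (HK.notMem v.1 v.2)⟩) : ℂ))
      (Finset.univ : Finset HK.T).toList
      fun v _ p => opAct_sphKer_eig heig (cPl_notMem (HK.notMem v.1 v.2)) (G.g F v) p,
    gVal, Finset.prod_map_toList, Finset.prod_map_toList]
  ring

/-- **The base change of a term on `L` acts by a scalar.** -/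
theorem exists_acts_opsP (HL : H.Data L B.T) {Φ : Pt K B.S → ℂ} {e : Coord K B.S → ℝ}
    (heig : ∀ j p, opAct (coordOp j) Φ p = (e j : ℂ) * Φ p) (E : Finset (HL.Idx → Bool)) :
    ∃ c : ℂ, acts (opsP HL E) Φ = fun q => c * Φ q := by
  refine exists_acts_scalar _ fun o ho => ?_
  simp only [opsP, List.mem_append, List.mem_map] at ho
  rcases ho with ⟨v, -, rfl⟩ | ⟨u, -, rfl⟩ | ⟨u, -, rfl⟩ | ⟨u, -, rfl⟩
  · exact ⟨_, fun p => opAct_sphKer_eig heig _ _ p⟩
  all_goals rw [term_arch_radK]; exact ⟨_, fun p => opAct_rad_eig heig u _ p⟩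

/-- The scalar at the point of `lam`. -/
theorem gVal_point {e : Coord L B.T → ℝ} {lam : Place L → ℝ}
    (hf : ∀ w : {w : Place L // w ∉ B.T}, e (Sum.inl w) = lam w.1)
    (ha : ∀ (u : InfinitePlace L) (k : Rad), (e (Sum.inr (u, k)) : ℂ) = hhat0 k.1)
    (F : Finset (HK.Idx → Bool)) :
    gVal G e F = (∏ v : HK.T, (G.g F v).eval (lam (cPl K L v.1) : ℂ)) *
      ∏ u : InfinitePlace K, hhat0 (HK.radF F u) := by
  simp only [gVal, hf, ha]
  rfl

end Fermat.LTG.Sys
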