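import Fermat.Agent.LTG.Sys.Density
import Fermat.Agent.LTG.Sys.EigFam
import Fermat.Agent.LTG.Sys.Values

/-!
# Systems: the weights of the systems and their densities

`exists_density`: the weighted sums over both families against odd polynomials are given by a
continuous density.
-/

set_option autoImplicit false
open MeasureTheory Set NumberField Polynomial IsDedekindDomain
open scoped Classical ComplexConjugate

namespace Fermat.LTG.Sys

open Fermat.LT
open Fermat.LT.Sys (bcVal ofReal_map_prod)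

section General

variable {F : Type} [Field F] [NumberField F] {S : Lev F} {e : Coord F S → ℝ} {Φ : Pt F S → ℂ}

/-- The operations at the level preserve joint eigenfunctions. -/
lemma Joint.opsAt (h : Joint e Φ) (r : ∀ v, LKer S v) : Joint e (acts (opsAt S r) Φ) := by
  have key : ∀ l : List (Place F), (∀ v ∈ l, v ∈ S) →
      Joint e (acts (l.map fun v => (Sum.inl ⟨v, r v⟩ : Op F S)) Φ) := by
    intro l
    induction l with
    | nil => exact fun _ => h
    | cons v l ih =>
      exact fun hl => (ih fun u hu => hl u (List.mem_cons_of_mem _ hu)).locAct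
        (hl v List.mem_cons_self) (r v)
  exact key _ fun v hv => Lev.mem_places.1 (Finset.mem_toList.1 hv)

/-- A scalar action of the last operations comes out of the whole list. -/
lemma acts_scaled {X rest : List (Op F S)} {c : ℂ} (hr : acts rest Φ = fun q => c * Φ q) :
    acts (X ++ rest) Φ = fun q => c * acts X Φ q := by
  rw [acts_append, hr, acts_smul_fun]

variable {A : SKer F S} {D : Set (Pt F S)}

/-- The weight of a system for a list of operations. -/
noncomputable def wt (Z : EigFam A D) {τ : F ≃+* F} (hS : Stable τ S) (X : List (Op F S))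
    (i : Z.I) : ℂ :=
  (Z.lam i : ℂ) ^ 2 * ∫ p, conj (Z.Φ i (Pt.amap hS p)) * acts X (Z.Φ i) p ∂domMeasure D

/-- A scalar action of the first operations comes out of the weight. -/
lemma wt_scaled (Z : EigFam A D) {τ : F ≃+* F} (hS : Stable τ S) {pre X : List (Op F S)} {i : Z.I}
    {s : ℂ} (h : acts pre (acts X (Z.Φ i)) = fun q => s * acts X (Z.Φ i) q) :
    wt Z hS (pre ++ X) i = s * wt Z hS X i := by
  simp only [wt, acts_append, h]
  rw [show (fun p => conj (Z.Φ i (Pt.amap hS p)) * (s * acts X (Z.Φ i) p))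
    = fun p => s * (conj (Z.Φ i (Pt.amap hS p)) * acts X (Z.Φ i) p) from funext fun p => by ring,
    integral_const_mul]
  ring

end General

variable {K L : Type} [Field K] [NumberField K] [Field L] [NumberField L] [Algebra K L]
  {σ : L ≃ₐ[K] L} {B : Block K L σ} (HL : H.Data L B.T) {HK : H.Data K B.S} (G : Lifted (L := L) HK)
  {DK : Set (Pt K B.S)} {DL : Set (Pt L B.T)}

/-- Coordinates on `L` of a system on `K`. -/
noncomputable def xK (eK : Coord K B.S → ℝ) : Coord L B.T → ℝ
  | Sum.inl w => bcVal K w.1 (eK (Sum.inl ⟨below K w.1, below_notMem w.2⟩))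
  | Sum.inr (w, k) => eK (Sum.inr (w.comap (algebraMap K L), k))

/-- Base changed coordinate operations act by the coordinates on `L`. -/
lemma opAct_opBC {eK : Coord K B.S → ℝ} {Φ : Pt K B.S → ℂ} (h : Joint eK Φ) (j : Coord L B.T)
    (q : Pt K B.S) : opAct (opBC j) Φ q = (xK eK j : ℂ) * Φ q := by
  rcases j with w | ⟨w, k⟩
  · change locAct _ (sphKer (below_notMem w.2) (bcOf K w.1 X)) Φ q = _
    rw [locAct_sphKer_eval (below_notMem w.2) (h.good ⟨below K w.1, below_notMem w.2⟩), eval_bcOf,
      eval_X]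
    rfl
  · exact h.arch _ k q

variable (ZK : EigFam HK.ker DK) (ZL : EigFam HL.ker DL)

/-- The weights of the systems on `K`. -/
noncomputable def aK (i : ZK.I) : ℂ :=
  ∑ E : Finset (HL.Idx → Bool) × Finset (HL.Idx → Bool), H.coef E.1 * H.coef E.2 *
    wt ZK (stable_refl B.S) (fixK (σ := σ) HL E.1 E.2) i

/-- The weights of the systems on `L`. -/
noncomputable def aL (i : ZL.I) : ℂ :=
  ∑ F : Finset (HK.Idx → Bool) × Finset (HK.Idx → Bool), H.coef F.1 * H.coef F.2 *
    wt ZL B.stable (fixL G F.1 F.2) i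

/-- The fixed operations on `L` act on a system by the values and the operations at the level. -/
lemma acts_fixL (i : ZL.I) (F₁ F₂ : Finset (HK.Idx → Bool)) :
    acts (fixL G F₁ F₂) (ZL.Φ i)
      = fun q => gVal G (ZL.eig i) F₁ * gVal G (ZL.eig i) F₂ * acts (opsAt B.T B.locL)
        (ZL.Φ i) q := by
  refine acts_scaled ?_
  rw [acts_append, acts_opsG G (ZL.data i).eig F₂, acts_smul_fun, acts_opsG G (ZL.data i).eig F₁]
  funext q
  ring

/-- The fixed operations on `L` preserve the joint eigenfunctions of the systems. -/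
lemma joint_fixL (i : ZL.I) (F₁ F₂ : Finset (HK.Idx → Bool)) :
    Joint (ZL.eig i) (acts (fixL G F₁ F₂) (ZL.Φ i)) := by
  rw [acts_fixL]
  exact ((ZL.data i).opsAt _).smul _

/-- The fixed operations on `K` preserve the joint eigenfunctions of the systems. -/
lemma joint_fixK (i : ZK.I) (E₁ E₂ : Finset (HL.Idx → Bool)) :
    Joint (ZK.eig i) (acts (fixK (σ := σ) HL E₁ E₂) (ZK.Φ i)) := by
  obtain ⟨c₁, h₁⟩ := exists_acts_opsP (σ := σ) HL (ZK.data i).eig E₁
  obtain ⟨c₂, h₂⟩ := exists_acts_opsP (σ := σ) HL (ZK.data i).eig E₂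
  have hr : acts (opsP (σ := σ) HL E₁ ++ opsP (σ := σ) HL E₂) (ZK.Φ i)
      = fun q => c₂ * c₁ * ZK.Φ i q := by
    rw [acts_append, h₂, acts_smul_fun, h₁]
    funext q
    ring
  rw [fixK, acts_scaled hr]
  exact ((ZK.data i).opsAt _).smul _

/-- A list with an odd polynomial at a good place acts on a system above by its coordinates. -/
lemma acts_prefixL {e : Coord L B.T → ℝ} {Ψ : Pt L B.T → ℂ} (h : Joint e Ψ) {w0 : Place L}
    (hw0T : w0 ∉ B.T) (r : ℝ[X]) (l : List (Coord L B.T)) :
    acts ((Sum.inl ⟨w0, sphKer hw0T (oddP r)⟩ : Op L B.T) :: l.map coordOp) Ψ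
      = fun q => (((l.map e).prod *
          (e (Sum.inl ⟨w0, hw0T⟩) * r.eval (e (Sum.inl ⟨w0, hw0T⟩) ^ 2)) : ℝ) : ℂ) * Ψ q := by
  funext q
  change locAct w0 (sphKer hw0T (oddP r)) (acts (l.map coordOp) Ψ) q = _
  rw [acts_map coordOp (fun j => (e j : ℂ)) l fun j _ p => h.eig j p, locAct_smul_fun,
    locAct_sphKer_eval hw0T (h.good ⟨w0, hw0T⟩), eval_oddP]
  push_cast
  simp only [ofReal_map_prod]
  ring

/-- A list with an odd polynomial at a split place acts on a system below by its coordinates. -/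
lemma acts_prefixK {e : Coord K B.S → ℝ} {Ψ : Pt K B.S → ℂ} (h : Joint e Ψ) {v0 : Place K}
    (hv0 : v0 ∉ B.S) {w0 : Place L} (hw0 : LiesOver K L w0 v0) (hn : pnorm w0 = pnorm v0)
    (hw0T : w0 ∉ B.T) (r : ℝ[X]) (l : List (Coord L B.T)) :
    acts ((Sum.inl ⟨v0, sphKer hv0 (oddP r)⟩ : Op K B.S) :: l.map opBC) Ψ
      = fun q => (((l.map (xK e)).prod *
          (xK e (Sum.inl ⟨w0, hw0T⟩) * r.eval (xK e (Sum.inl ⟨w0, hw0T⟩) ^ 2)) : ℝ) : ℂ) * Ψ q := by
  have hb : below K w0 = v0 := liesOver_iff_below.1 hw0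
  subst hb
  have e0 : xK e (Sum.inl ⟨w0, hw0T⟩) = e (Sum.inl ⟨below K w0, hv0⟩) := if_pos hn
  funext q
  change locAct _ (sphKer hv0 (oddP r)) (acts (l.map opBC) Ψ) q = _
  rw [acts_map opBC (fun j => (xK e j : ℂ)) l fun j _ p => opAct_opBC h j p, locAct_smul_fun,
    locAct_sphKer_eval hv0 (h.good ⟨below K w0, hv0⟩), eval_oddP, e0]
  push_cast
  simp only [ofReal_map_prod]
  ring

/-- The coordinates of the systems below are bounded. -/
lemma exists_bound_xK (j : Coord L B.T) :
    ∃ M : ℝ, ∀ i, |xK (ZK.eig i) j| ≤ M := by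
  rcases j with w | ⟨w, k⟩
  · obtain ⟨M, hM⟩ := ZK.eig_bound (Sum.inl ⟨below K w.1, below_notMem w.2⟩)
    refine ⟨|M| + (|M| ^ 3 + 3 * (pnorm (below K w.1) : ℝ) * |M|), fun i => ?_⟩
    have h := (hM i).trans (le_abs_self M)
    change |bcVal K w.1 _| ≤ _
    rw [bcVal]
    split_ifs
    · exact h.trans (le_add_of_nonneg_right (by positivity))
    · refine (abs_sub _ _).trans (le_trans ?_ (le_add_of_nonneg_left (abs_nonneg M)))
      rw [abs_pow, abs_mul,
        abs_of_nonneg (show (0 : ℝ) ≤ 3 * (pnorm (below K w.1) : ℝ) by positivity)]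
      gcongr
  · exact ZK.eig_bound (Sum.inr (w.comap (algebraMap K L), k))

variable [IsTotallyComplex K] [IsTotallyComplex L]

omit [IsTotallyComplex K] [IsTotallyComplex L] in
/-- The weights below are absolutely summable. -/
lemma summable_aK : Summable fun i => ‖aK (σ := σ) HL ZK i‖ := by
  refine Summable.of_nonneg_of_le (fun i => norm_nonneg _) (fun i => norm_sum_le _ _) ?_
  refine summable_sum fun E _ => ?_
  simp only [norm_mul _ (wt ZK _ _ _)]
  exact (ZK.summ_amap _ _ _).mul_left _

omit [IsTotallyComplex K] [IsTotallyComplex L] in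
/-- The weights above are absolutely summable. -/
lemma summable_aL : Summable fun i => ‖aL HL G ZL i‖ := by
  refine Summable.of_nonneg_of_le (fun i => norm_nonneg _) (fun i => norm_sum_le _ _) ?_
  refine summable_sum fun F _ => ?_
  simp only [norm_mul _ (wt ZL _ _ _)]
  exact (ZL.summ_amap _ _ _).mul_left _

/-- **The densities of the comparison.** For each list of coordinates the weighted sums over both
eigenfamilies against odd polynomials at a split place are given by a continuous density. -/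
theorem exists_density (hc : Cyc3 K L σ) (hζ : ∃ ζ : K, IsPrimitiveRoot ζ 3)
    (geo : GeometricStatement K L) (hDK : IsFundamentalDomain (PG K) DK ptMeasure)
    (hDL : IsFundamentalDomain (PG L) DL ptMeasure)
    {v0 : Place K} (hv0 : v0 ∉ B.S) (hbad : v0 ∉ badSet HL (HK := HK)) {w0 : Place L}
    (hw0 : LiesOver K L w0 v0) (hn : pnorm w0 = pnorm v0) (hw0T : w0 ∉ B.T)
    (l : List (Coord L B.T)) (hl : ∀ x, Sum.inl x ∈ l → below K x.1 ≠ v0) :
    ∃ g : ℝ → ℂ, Continuous g ∧ ∀ r : ℝ[X],
      HasSum (fun i => Sum.elim (aK (σ := σ) HL ZK) (fun i => -aL HL G ZL i) i *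
        (((l.map fun j => Sum.elim (fun i => xK (ZK.eig i)) ZL.eig i j).prod *
          (Sum.elim (fun i => xK (ZK.eig i)) ZL.eig i (Sum.inl ⟨w0, hw0T⟩) *
            r.eval (Sum.elim (fun i => xK (ZK.eig i)) ZL.eig i (Sum.inl ⟨w0, hw0T⟩) ^ 2)) : ℝ) : ℂ))
        (∫ θ in (0 : ℝ)..(2 * Real.pi),
          (((2 * Real.sqrt (pnorm v0)) * Real.cos θ
            * r.eval (((2 * Real.sqrt (pnorm v0)) * Real.cos θ) ^ 2) : ℝ) : ℂ) * g θ) := by
  -- the density of the two traces, which the families expand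
  obtain ⟨g, hg, hgr⟩ := exists_traceDensity HL G hc hζ geo hDK hDL hv0 hbad hw0 hn hw0T l hl
  refine ⟨g, hg, fun r => ?_⟩
  rw [← hgr r, sub_eq_add_neg]
  refine HasSum.sum ?_ ?_
  -- on `K`, one spectral expansion for each term
  · simp only [Function.comp_def, Sum.elim_inl, aK, Finset.sum_mul]
    refine hasSum_sum fun E _ => ?_
    have h := (ZK.trace (RingEquiv.refl K) (stable_refl B.S)
      (((Sum.inl ⟨v0, sphKer hv0 (oddP r)⟩ : Op K B.S) :: l.map opBC) ++
        fixK (σ := σ) HL E.1 E.2)).mul_left (H.coef E.1 * H.coef E.2)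
    simp only [Pt.amap_refl] at h
    refine h.congr_fun fun i => ?_
    have e := wt_scaled ZK (stable_refl B.S)
      (acts_prefixK (joint_fixK HL ZK i E.1 E.2) hv0 hw0 hn hw0T r l)
    simp only [wt, Pt.amap_refl] at e ⊢
    rw [e]
    ring
  -- on `L` likewise, with the opposite sign
  · simp only [Function.comp_def, Sum.elim_inr, aL, Finset.sum_mul, neg_mul,
      ← Finset.sum_neg_distrib]
    refine hasSum_sum fun F _ => ?_
    have h := (ZL.trace (σ : L ≃+* L) B.stable
      (((Sum.inl ⟨w0, sphKer hw0T (oddP r)⟩ : Op L B.T) :: l.map coordOp) ++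
        fixL G F.1 F.2)).mul_left (H.coef F.1 * H.coef F.2)
    refine h.neg.congr_fun fun i => ?_
    have e := wt_scaled ZL B.stable (acts_prefixL (joint_fixL HL G ZL i F.1 F.2) hw0T r l)
    simp only [wt] at e ⊢
    rw [e]
    ring

end Fermat.LTG.Sys
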