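import Fermat.Agent.LTG.Final
import Fermat.Agent.LTG.Sys.Flip
import Fermat.Agent.LTG.Sys.Form
import Fermat.Agent.LTG.Sys.Kill
import Fermat.Agent.LTG.Sys.VecTrace
import Fermat.Agent.LTG.Sys.Weights

/-!
# Systems: the comparison of the systems

`sysStatement` proves `SysStatement` of `LTG/Final`. The trace formulas on `K` and `L` are
expanded over eigenfamilies, with operators separating `lam` from the Eisenstein series. On `L` the
systems with eigenvalues `lam` have nonzero total weight (`VT.sum_integral_ne_zero`); the densities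
of `exists_density` transfer this to a system on `K` lifting to `lam` (`exists_eq_flipPt`).
-/

set_option autoImplicit false
open MeasureTheory Set NumberField
open scoped Classical ComplexConjugate

namespace Fermat.LTG.Sys

open Fermat.LT

section General

variable {F : Type} [Field F] [NumberField F] {S : Lev F}

/-- A system with the archimedean coordinates of `lam` is an eigenfunction at infinity with
parameter `0`. -/
lemma isArchEigen_of_lamCoord {lam : Place F → ℝ} {e : Coord F S → ℝ} {Φ : Pt F S → ℂ}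
    (h : Joint e Φ) (ha : ∀ j, e (Sum.inr j) = lamCoord (S := S) lam (Sum.inr j)) : IsArchEigen Φ :=
  isArchEigen_of_archAct h.continuous fun u k p => by
    rw [h.arch u k p, ha, lamCoord_inr]

/-- A system with the coordinates of `lam` at infinity and off `S ∪ Z` is an eigenfunction of `lam`
there. -/
lemma isEigFn_of_joint [IsTotallyComplex F] {lam : Place F → ℝ} {e : Coord F S → ℝ} {Φ : Pt F S → ℂ}
    (h : Joint e Φ) {Z : Set (Place F)}
    (ha : ∀ j, e (Sum.inr j) = lamCoord (S := S) lam (Sum.inr j))
    (hg : ∀ v : {v : Place F // v ∉ S}, v.1 ∉ Z → e (Sum.inl v) = lam v.1) : IsEigFn S Z lam Φ := by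
  have harch : IsArchEigen Φ := isArchEigen_of_lamCoord h ha
  exact ⟨h.invariant, h.continuous, h.bounded, harch,
    hasZeroConst_of_archEigen h.invariant h.continuous h.bounded harch,
    fun v hv hZ p => by rw [heckeT_eq_locAct hv, h.good ⟨v, hv⟩, hg ⟨v, hv⟩ hZ]⟩

end General

variable {K L : Type} [Field K] [NumberField K] [Field L] [NumberField L] [Algebra K L]
  {σ : L ≃ₐ[K] L}

/-- The operators at the level of the block compose to `actT`. -/
lemma acts_opsAt_eq_actT (B : Block K L σ) (Φ : Pt L B.T → ℂ) :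
    acts (opsAt B.T B.locL) Φ = actT B Φ := by
  have key : ∀ l : List (Place L),
      acts (l.map fun w => (Sum.inl ⟨w, B.locL w⟩ : Op L B.T)) Φ = actList B l Φ := by
    intro l
    induction l with
    | nil => rfl
    | cons w l ih =>
      rw [List.map_cons, actList_cons, ← ih]
      rfl
  exact key _

/-- One summand of `valG` without its coefficient: the value at the point of `lam` of the operator
indexed by `F`. -/
noncomputable def valGTerm {B : Block K L σ} {HK : H.Data K B.S} (G : Lifted (L := L) HK)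
    (lam : Place L → ℝ) (F : Finset (HK.Idx → Bool)) : ℂ :=
  (∏ v : HK.T, (G.g F v).eval ((lam (cPl K L v.1) : ℝ) : ℂ)) * ∏ u, hhat0 (HK.radF F u)

/-- **The comparison of the systems.** `SysStatement` holds: the comparison of the eigenvalue
systems on `K` and on `L`. -/
theorem sysStatement : SysStatement := by
  intro K L _ _ _ _ _ _ _ σ ρ ι lam R hG hc W hW D geo
  set B := D.B
  have hinv : ∀ w, lam (mapPlace (σ : L ≃+* L) w) = lam w := fun w => hG.invariant _ w
  -- the separating operators, fundamental domains and eigenfamilies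
  obtain ⟨HL, HK, G, hvL, hvG⟩ := exists_killData hc B hinv hG.killElement
  obtain ⟨DK, -, hDK⟩ := exists_ptDomain (F := K) (S := B.S)
  obtain ⟨DL, -, hDL⟩ := exists_ptDomain (F := L) (S := B.T)
  obtain ⟨ZK⟩ := exists_eigFam (good_ker HK) HK.bdd hDK
  obtain ⟨ZL⟩ := exists_eigFam (good_ker HL) HL.bdd hDL
  set e0 := lamCoord (S := B.T) lam with he0
  -- the finitely many systems with eigenvalues `lam` span all such functions
  have hvalA : ∀ Ψ : Pt L B.T → ℂ, Joint e0 Ψ → ∀ ψ : DomL2 DL, ψ =ᵐ[domMeasure DL] Ψ →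
      ∀ p, HL.ker.appP ψ p = valL HL lam * Ψ p := fun Ψ hΨ ψ hψ p => by
    rw [appP_ker hDL HL hΨ hψ, valH_lamCoord, valL]
    simp only [mul_assoc]
  have hfin : {i | ZL.eig i = e0}.Finite := ZL.finite_sys hvL hvalA
  have hlamv : ∀ i, ZL.eig i = e0 → (ZL.lam i : ℂ) = valL HL lam := fun i hi => ZL.lam_eq hvalA hi
  have hspan : ∀ Ψ, Joint e0 Ψ → ∃ a : ZL.I → ℂ, Ψ =
      fun p => ∑ i ∈ hfin.toFinset, a i * ZL.Φ i p := by
    intro Ψ hΨ
    obtain ⟨r, a, hr, hra⟩ := ZL.expand e0 Ψ hΨ _ hvL (hvalA Ψ hΨ)
    refine ⟨fun i => if i ∈ r then a i else 0, hra.trans (funext fun p => ?_)⟩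
    rw [← Finset.sum_subset (fun i hi => hfin.mem_toFinset.2 (hr i hi)) fun i _ hi => by simp [hi]]
    exact Finset.sum_congr rfl fun i hi => by simp [hi]
  -- the weights above at the point
  have hcoord : ∀ w : {w : Place L // w ∉ B.T}, e0 (Sum.inl w) = lam w.1 := fun w => rfl
  have hgv : ∀ F, gVal G e0 F = valGTerm G lam F := fun F =>
    gVal_point G hcoord (fun u k => lamCoord_inr lam (u, k)) F
  have hsum : ∑' i, Set.indicator {i | ∀ j, ZL.eig i j = flipPt (B := B) lam j}
      (aL HL G ZL) i ≠ 0 := by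
    have hset : {i | ∀ j, ZL.eig i j = flipPt (B := B) lam j} = ↑hfin.toFinset := by
      ext i
      simp only [Finset.mem_coe, Set.Finite.mem_toFinset, Set.mem_ofPred_eq]
      exact ⟨fun h => funext h, fun h j => congrFun h j⟩
    rw [hset, ← sum_eq_tsum_indicator]
    -- each weight is a nonzero value times the integral against the operator at the level
    have hI : ∀ i ∈ hfin.toFinset, aL HL G ZL i = valL HL lam ^ 2 * valG G lam ^ 2 *
        ∫ p, conj (ZL.Φ i (Pt.amap B.stable p)) * actT B (ZL.Φ i) p ∂domMeasure DL := fun i hi => by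
      have hi' : ZL.eig i = e0 := hfin.mem_toFinset.1 hi
      simp only [aL, wt, acts_fixL, hi', hgv, hlamv i hi', acts_opsAt_eq_actT]
      simp only [show ∀ F : Finset (HK.Idx → Bool) × Finset (HK.Idx → Bool),
          (fun p => conj (ZL.Φ i (Pt.amap B.stable p)) *
            (valGTerm G lam F.1 * valGTerm G lam F.2 * actT B (ZL.Φ i) p))
          = fun p => (valGTerm G lam F.1 * valGTerm G lam F.2) *
            (conj (ZL.Φ i (Pt.amap B.stable p)) * actT B (ZL.Φ i) p) from
        fun F => funext fun p => by ring, integral_const_mul]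
      rw [sq (valG G lam), valG, Finset.sum_mul_sum, Fintype.sum_prod_type, Finset.mul_sum,
        Finset.sum_mul]
      refine Finset.sum_congr rfl fun F₁ _ => ?_
      rw [Finset.mul_sum, Finset.sum_mul]
      exact Finset.sum_congr rfl fun F₂ _ => by rw [valGTerm, valGTerm]; ring
    rw [Finset.sum_congr rfl hI, ← Finset.mul_sum]
    refine mul_ne_zero (mul_ne_zero (pow_ne_zero _ hvL) (pow_ne_zero _ hvG)) ?_
    refine VT.sum_integral_ne_zero D (Set.finite_empty.subset fun w hw => hw (hG.invariant _ w)) hW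
      hDL hfin.toFinset ZL.Φ (fun i _ k _ => ZL.orth i k)
      (fun i hi => ?_) fun Ψ hΨ =>
        hspan Ψ (joint_of_isEigFn (fun v hv => absurd hv (Set.notMem_empty v)) hΨ)
    have h := ZL.data i
    rw [hfin.mem_toFinset.1 hi] at h
    exact isEigFn_of_joint h (fun j => rfl) fun v _ => rfl
  -- separation: a system on `L` agreeing with `lam` off a finite set has weight zero or is `lam`
  have hsep : ∀ i : ZL.I, ∀ Z' : Set (Place L), Z'.Finite →
      (∀ w : {w : Place L // w ∉ B.T}, w.1 ∉ Z' → ZL.eig i (Sum.inl w) = lam w.1) →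
      (∀ j, ZL.eig i (Sum.inr j) = flipPt (B := B) lam (Sum.inr j)) →
        aL HL G ZL i = 0 ∨ ∀ j, ZL.eig i j = flipPt (B := B) lam j := by
    intro i Z' hZ' hg ha
    by_cases h0 : actT B (ZL.Φ i) = 0
    · refine Or.inl (Finset.sum_eq_zero fun F _ => ?_)
      simp [wt, acts_fixL, acts_opsAt_eq_actT, h0]
    · refine Or.inr fun j => ?_
      rcases j with w | j
      · obtain ⟨p, hp⟩ := Function.ne_iff.1 h0
        have h1 := VT.hecke_actT_of_off D hZ' (isEigFn_of_joint (ZL.data i) ha fun v hv => hg v hv)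
          w.2 p
        have h2 := ((ZL.data i).opsAt B.locL).good w p
        rw [acts_opsAt_eq_actT, ← heckeT_eq_locAct w.2, h1] at h2
        exact_mod_cast (mul_right_cancel₀ hp h2).symm
      · exact ha j
  -- the comparison: some system on `K` lifts to `lam`
  obtain ⟨i, hi⟩ := exists_eq_flipPt (B := B) hc hinv (badSet HL (HK := HK)).finite_toSet
    (summable_aK (σ := σ) HL ZK) (summable_aL HL G ZL)
    (xK := fun i => xK (ZK.eig i)) (xL := ZL.eig)
    (fun j => exists_bound_xK ZK j) ZL.eig_bound
    (eK := fun i v => ZK.eig i (Sum.inl v)) (fun i w => rfl)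
    (fun v0 hv0 hbad w0 hw0 hn l hl => exists_density HL G ZK ZL hc hG.zeta3 geo hDK hDL hv0
      (fun h => hbad (Finset.mem_coe.2 h)) hw0 hn w0.2 l fun x hx => hl _ hx)
    hsep hsum hG.split_ne_zero
  -- the form over `K`: its eigenvalues off the level and parameter `0` at infinity
  refine ⟨extEig fun v => ZK.eig i (Sum.inl v), ZK.Φ i, ?_, fun v hv w hw => ?_⟩
  · have h := ZK.data i
    refine isForm_of_eig (ZK.nonzero i) h.invariant h.continuous h.bounded h.good fun u k p => ?_
    have hk := hi (Sum.inr (plAbove L u, k))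
    simp only [xK, plAbove_comap, flipPt, Sum.elim_inr] at hk
    rw [h.arch u k p, hk, Complex.conj_eq_iff_re.1 (Fermat.LT.Sys.hhat0_real k.1)]
  · refine lifts_of_bcVal (fun v' hv' w' hw' => ?_) hv hw
    have hb := liesOver_iff_below.1 hw'
    subst hb
    exact hi (Sum.inl ⟨w', fun h => hv' ((B.mem_iff (liesOver_below w')).1 h)⟩)

end Fermat.LTG.Sys
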