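import Fermat.Agent.LT.Sys.Compare
import Fermat.Agent.LTG.Test

/-!
# Systems: multiplying test data at one place

The kernels of test data multiplied at one place of `L` are the kernels composed with one local
operation on `L`, respectively with its base change on `K`.
-/

set_option autoImplicit false
open NumberField Filter Set Polynomial
open scoped Classical

namespace Fermat.LTG.Sys

open Fermat.LT
open Fermat.LT.Sys (AEq aeq_comp_assoc aeq_left_comm bcVal)

variable {K L : Type} [Field K] [NumberField K] [Field L] [NumberField L] [Algebra K L]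
  {σ : L ≃ₐ[K] L} {B : Block K L σ}

variable (K) in
/-- The base change of a polynomial at a place. -/
noncomputable def bcOf (w : Place L) (p : ℂ[X]) : ℂ[X] :=
  if pnorm w = pnorm (below K w) then p else cubicBC (pnorm (below K w)) p

/-- The base change of `1`. -/
@[simp] lemma bcOf_one (w : Place L) : bcOf K w (1 : ℂ[X]) = 1 := by
  simp [bcOf, cubicBC]

/-- Base change of polynomials is multiplicative. -/
lemma bcOf_mul (w : Place L) (p r : ℂ[X]) : bcOf K w (p * r) = bcOf K w p * bcOf K w r := by
  unfold bcOf
  split_ifs
  · rfl
  · simp [cubicBC]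

/-- Evaluating a base change is evaluating at the base changed eigenvalue. -/
lemma eval_bcOf (w : Place L) (p : ℂ[X]) (e : ℝ) :
    (bcOf K w p).eval (e : ℂ) = p.eval (bcVal K w e : ℂ) := by
  rw [bcOf, bcVal]
  split_ifs
  · rfl
  · simp [cubicBC]

/-- The base changed polynomial is the product over the places above. -/
lemma bcPoly_eq (t : TestData B) (v : Place K) :
    t.bcPoly v = ∏ᶠ w ∈ placesOver K L v, bcOf K w (t.h w) := by
  rw [TestData.bcPoly]
  refine finprod_mem_congr rfl fun w hw => ?_
  rw [bcOf, liesOver_iff_below.1 hw]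

/-- Multiply at one finite place. -/
noncomputable def mulAt (t : TestData B) (w : Place L) (hw : w ∉ B.T) (p : ℂ[X]) : TestData B where
  h := Function.update t.h w (p * t.h w)
  k := t.k
  finite_h := (t.finite_h.insert w).subset fun x hx => by
    by_cases h : x = w
    · exact Or.inl h
    · exact Or.inr (by simpa [Function.update_of_ne h] using hx)
  h_level x hx := by
    rw [Function.update_of_ne fun h => hw (by rw [← h]; exact hx), t.h_level x hx]

/-- Compose at one infinite place. -/
noncomputable def mulArch (t : TestData B) (u : InfinitePlace L) (a : AKer) : TestData B where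
  h := t.h
  k := Function.update t.k u (a.comp (t.k u))
  finite_h := t.finite_h
  h_level := t.h_level

/-- An update is a multiplication at one place. -/
lemma upd_eq_mulAt (t : TestData B) {v0 : Place K} (hv0 : v0 ∉ B.S) {w0 : Place L}
    (hw0 : LiesOver K L w0 v0) (hw : w0 ∉ B.T) (h1 : t.h w0 = 1) (p : ℂ[X]) :
    t.upd hv0 hw0 p = mulAt t w0 hw p := by
  obtain ⟨h, k, hf, hl⟩ := t
  simp only at h1
  simp [TestData.upd, mulAt, h1]

/-- Multiplying at one place composes the kernel on `L` with a spherical kernel. -/
lemma kerL_mulAt (t : TestData B) (w : Place L) (hw : w ∉ B.T) (p : ℂ[X]) (x : Place L) :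
    ((kerL t).actLoc w (sphKer hw p)).loc x = (kerL (mulAt t w hw p)).loc x := by
  change Function.update (kerL t).loc w _ x = _
  by_cases h : x = w
  · subst h
    rw [Function.update_self, kerL_loc_sph _ hw, kerL_loc_sph _ hw, sphKer_mul]
    simp [mulAt]
  · rw [Function.update_of_ne h]
    simp [kerL, mulAt, Function.update_of_ne h]

variable (hc : Cyc3 K L σ)
include hc

/-- Multiplying at one place multiplies the base changed polynomial below it. -/
lemma bcPoly_mulAt (t : TestData B) (w : Place L) (hw : w ∉ B.T) (p : ℂ[X]) (v : Place K) :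
    (mulAt t w hw p).bcPoly v = (if below K w = v then bcOf K w p else 1) * t.bcPoly v := by
  have hfin := hc.finite_placesOver v
  have e : ∀ x, bcOf K x ((mulAt t w hw p).h x)
      = (if x = w then bcOf K x p else 1) * bcOf K x (t.h x) := fun x => by
    change bcOf K x (Function.update t.h w (p * t.h w) x) = _
    by_cases h : x = w
    · subst h
      rw [if_pos rfl, Function.update_self, bcOf_mul]
    · rw [if_neg h, one_mul, Function.update_of_ne h]
  rw [bcPoly_eq, bcPoly_eq, finprod_mem_eq_finite_toFinset_prod _ hfin,
    finprod_mem_eq_finite_toFinset_prod _ hfin, Finset.prod_congr rfl fun x _ => e x,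
    Finset.prod_mul_distrib, Finset.prod_ite_eq' hfin.toFinset w fun x => bcOf K x p]
  congr 1
  refine if_congr ?_ rfl rfl
  rw [hfin.mem_toFinset]
  exact ⟨fun h => liesOver_iff_below.1 h, fun h => liesOver_iff_below.2 h⟩

/-- Multiplying at one place composes the kernel on `K` with the base changed kernel. -/
lemma kerK_mulAt (t : TestData B) (w : Place L) (hw : w ∉ B.T) (p : ℂ[X]) (x : Place K) :
    ((kerK σ t).actLoc (below K w) (sphKer (below_notMem hw) (bcOf K w p))).loc x
      = (kerK σ (mulAt t w hw p)).loc x := by
  change Function.update (kerK σ t).loc (below K w) _ x = _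
  by_cases h : x = below K w
  · subst h
    rw [Function.update_self, kerK_loc_sph _ (below_notMem hw), kerK_loc_sph _ (below_notMem hw),
      sphKer_mul, bcPoly_mulAt hc, if_pos rfl]
  · rw [Function.update_of_ne h]
    by_cases hx : x ∈ B.S
    · rw [kerK_loc_mem _ hx, kerK_loc_mem _ hx]
    · rw [kerK_loc_sph _ hx, kerK_loc_sph _ hx, bcPoly_mulAt hc, if_neg (Ne.symm h), one_mul]

/-- Composing at an infinite place composes the kernel on `K` below it. -/
lemma kerK_mulArch [IsTotallyComplex K] (t : TestData B) (w : InfinitePlace L) (a : AKer)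
    (u : InfinitePlace K) :
    AEq (((kerK σ t).actArch (w.comap (algebraMap K L)) a).arch u)
      ((kerK σ (mulArch t w a)).arch u) := by
  change AEq (Function.update (kerK σ t).arch (w.comap (algebraMap K L))
      (a.comp ((kerK σ t).arch (w.comap (algebraMap K L)))) u)
    (((mulArch t w a).k (plAbove L u)).comp (((mulArch t w a).k (σ • plAbove L u)).comp
      ((mulArch t w a).k (σ • σ • plAbove L u))))
  rw [← pl3_two hc, ← pl3_one hc, ← pl3_zero]
  -- on `K` the kernel composes those at the three places above
  have hold : ∀ u', (kerK σ t).arch u'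
      = (t.k (pl3 σ (u', 0))).comp ((t.k (pl3 σ (u', 1))).comp (t.k (pl3 σ (u', 2)))) :=
          fun u' => by
    rw [pl3_zero, pl3_one hc, pl3_two hc]; rfl
  -- locate `w` among them
  obtain ⟨⟨u₁, i⟩, hi⟩ := (pl3_bijective hc).2 w
  have hcm : w.comap (algebraMap K L) = u₁ := by
    rw [← hi, pl3, InfinitePlace.comap_mk]
    have e : (emb3 σ u₁ i).comp (algebraMap K L) = (emb0 L u₁).comp (algebraMap K L) := by
      ext x
      fin_cases i <;> simp [emb3]
    rw [e, emb0_comp, InfinitePlace.mk_embedding]
  -- the other factors are unchanged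
  have hne : ∀ (u' : InfinitePlace K) (j : Fin 3), (u', j) ≠ (u₁, i) →
      (mulArch t w a).k (pl3 σ (u', j)) = t.k (pl3 σ (u', j)) := fun u' j h =>
    Function.update_of_ne (fun e => h ((pl3_bijective hc).1 (e.trans hi.symm))) _ _
  rw [hcm]
  by_cases h : u = u₁
  · subst h
    have heq : (mulArch t w a).k (pl3 σ (u, i)) = a.comp (t.k (pl3 σ (u, i))) := by
      rw [hi]; exact Function.update_self (f := t.k) w _
    rw [Function.update_self, hold]
    -- at the place below `w` the new factor moves to the front
    fin_cases i <;> simp only [Fin.zero_eta, Fin.mk_one, Fin.reduceFinMk] at heq hne ⊢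
    · rw [heq, hne u 1 (by simp), hne u 2 (by simp)]
      exact (aeq_comp_assoc _ _ _).symm
    · rw [heq, hne u 0 (by simp), hne u 2 (by simp)]
      exact (aeq_left_comm _ _ _).trans ((AEq.refl _).comp (aeq_comp_assoc _ _ _).symm)
    · rw [heq, hne u 0 (by simp), hne u 1 (by simp)]
      exact (aeq_left_comm _ _ _).trans ((AEq.refl _).comp (aeq_left_comm _ _ _))
  · rw [Function.update_of_ne h, hold, hne u 0 (by simp [h]), hne u 1 (by simp [h]),
      hne u 2 (by simp [h])]
    exact AEq.refl _

end Fermat.LTG.Sys
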